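import Fermat.Agent.S44.Mod.Defs

/-!
# S44 / MOD-KER : `ker r1 ⊓ ker r2 = (p)`, `B / p = C0 / 𝔪`          key `S44/MOD-KER`

PROOFS.
* `r1_eq_zero_iff`: `r1 S b x = resInf _ _ ⟨x, _⟩` (`res₁_apply`), `S33.GT_zero_iff`.  `r2_eq_zero_iff`: `res₂_apply`, `wZ_GT_iff`.
* `wG_int`: `wG_rat le_rfl hx hx0` + `w_int_of_fixed` (`mem_Fx`).  `wZ_int`: `wZ_apply`, `Wq_mem_ratF`.
* `ker_inf`: (≥) `wG_algebraMap`, `wq_q`.  (≤) `x ≠ 0`, `wG x > 0` and integral ⇒ `≥ 1`; same for `wZ`; `y = x / q`: `wG y ≥ 0`, `wZ y ≥ 0` ⇒ `y ∈ V2 = VV` (`GE_zero_iff`, `wZ_GE_iff`, `mem_V2`, `VV_eq S`;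
  for the chart `b = true` `KL.VV_inv`), `y ∈ B0` (`KL.C0_le_B0`, `B0` is a `Kb`-algebra), so `y ∈ C0` by `KL.mem_C0_of_mem_B0_VV (ch5_transcendental S b) (ch5_isGen S b)`; `y ∈ E`.
* `exists_rat`: `exists_rat_approx₂ S.hc le_rfl (relIndex_self ≠ 0) Λ` with `Λ = (KL.B0 Kb (S.θM b) F).toAddSubgroup` (stable under `Kb` and under `gal σ`: apply `gal σ` to a monic equation, `gal σ θ = θ`),
  `x = c`: `x₀ ∈ B0 ∩ E`, `wG (c - x₀) > 0`, `wZ (c - x₀) > 0` ⇒ `x₀ ∈ VV` ⇒ `x₀ ∈ C0`; `ρ1 (c - x₀) = 0` by `GT_zero_iff`.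
-/

set_option autoImplicit false
set_option synthInstance.maxHeartbeats 400000
set_option linter.unusedSectionVars false

open HahnSeries ModularCurve AlgebraicCurve Polynomial Fermat.Agent.S24 Fermat.Agent.S29 Fermat.Agent.S18
  Fermat.Agent.ES Fermat.Agent.ES.Alg Fermat.Agent.S34.Mod Fermat.Agent.S05 Fermat.Agent.S55.B ExtCitation
  Fermat.Agent.S33
open Fermat.Agent.S55 (Dq Iq)

noncomputable section

namespace Fermat.Agent.S44.Mod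

variable {q : Nat.Primes} {M1 r : ℕ} [NeZero M1] [NeZero (q : ℕ)] [NeZero r]
variable (S : Setup M1 (q : ℕ) r (AA q))

theorem coe_mem_VV (b : Bool) (x : BB S b) :
    ((x : EE q M1) : FN (M1 * (q : ℕ))) ∈ KL.VV (AA q) S.τM (FN (M1 * (q : ℕ))) :=
  C0M_le S b x.2

theorem r1_apply (b : Bool) (x : BB S b) :
    r1 S b x = resInf (AA q) (M1 * (q : ℕ))
      ⟨((x : EE q M1) : FN (M1 * (q : ℕ))), mem_Vinf_of_mem_VV S (coe_mem_VV S b x)⟩ := rfl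

theorem r2_apply (b : Bool) (x : BB S b) :
    r2 S b x = resInf (AA q) (M1 * (q : ℕ))
      ⟨Wq S.hc ((x : EE q M1) : FN (M1 * (q : ℕ))), Wq_mem_Vinf_of_mem_VV S (coe_mem_VV S b x)⟩ := rfl

theorem r1_eq_zero_iff (b : Bool) (x : BB S b) :
    r1 S b x = 0 ↔ (wG q (M1 * (q : ℕ))).GT ((x : EE q M1) : FN (M1 * (q : ℕ))) 0 := by
  rw [r1_apply]
  exact (GT_zero_iff _).symm

theorem r2_eq_zero_iff (b : Bool) (x : BB S b) :
    r2 S b x = 0 ↔ (wZ q S.hc).GT ((x : EE q M1) : FN (M1 * (q : ℕ))) 0 := by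
  rw [r2_apply, wZ_GT_iff]
  exact (GT_zero_iff _).symm

theorem wG_int {x : FN (M1 * (q : ℕ))} (hx : x ∈ EE q M1) (hx0 : x ≠ 0) :
    ∃ k : ℤ, (wG q (M1 * (q : ℕ))).w x = k := by
  obtain ⟨a, ha, ha0, hw⟩ := wG_rat le_rfl hx hx0
  obtain ⟨k, hk⟩ := w_int_of_fixed q (mem_Fx.mp ha) ha0
  exact ⟨k, hw.trans hk⟩

theorem wZ_int {x : FN (M1 * (q : ℕ))} (hx : x ∈ EE q M1) (hx0 : x ≠ 0) :
    ∃ k : ℤ, (wZ q S.hc).w x = k := by
  rw [wZ_apply]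
  exact wG_int (Wq_mem_ratF S.hc hx) ((_root_.map_ne_zero _).2 hx0)

theorem qF_ne_zero : (((q : ℕ) : Kb)) ≠ 0 := Nat.cast_ne_zero.mpr q.2.ne_zero

theorem qF_eq : (((q : ℕ) : FN (M1 * (q : ℕ)))) = algebraMap Kb (FN (M1 * (q : ℕ))) ((q : ℕ) : Kb) :=
  (map_natCast _ _).symm

theorem wG_q : (wG q (M1 * (q : ℕ))).EQ (((q : ℕ) : FN (M1 * (q : ℕ)))) 1 := by
  have h := ratfAux_EQ_algebraMap (q := q) (N := M1 * (q : ℕ)) (qF_ne_zero (q := q))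
  rw [wq_q, ← qF_eq] at h
  exact h

theorem wZ_q : (wZ q S.hc).EQ (((q : ℕ) : FN (M1 * (q : ℕ)))) 1 := by
  refine ⟨(wG_q (q := q) (M1 := M1)).1, ?_⟩
  rw [wZ_apply, map_natCast]
  exact (wG_q (q := q) (M1 := M1)).2

theorem mem_C0_of_GE (b : Bool) {y : FN (M1 * (q : ℕ))}
    (hB : y ∈ KL.B0 Kb (S.θM b) (FN (M1 * (q : ℕ)))) (h1 : (wG q (M1 * (q : ℕ))).GE y 0)
    (h2 : (wZ q S.hc).GE y 0) : y ∈ KL.C0 (AA q) (S.θM b) (FN (M1 * (q : ℕ))) := by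
  have hV : y ∈ KL.VV (AA q) S.τM (FN (M1 * (q : ℕ))) := by
    rw [VV_eq S, mem_V2]
    exact ⟨GE_zero_iff.mp h1, GE_zero_iff.mp ((wZ_GE_iff S.hc).mp h2)⟩
  have hV' : y ∈ KL.VV (AA q) (S.θM b) (FN (M1 * (q : ℕ))) := by
    cases b
    · exact hV
    · show y ∈ KL.VV (AA q) S.τM⁻¹ _
      rw [KL.VV_inv _ (transcendental_τM S)]
      exact hV
  exact KL.mem_C0_of_mem_B0_VV _ (ch5_transcendental S b) (ch5_isGen S b) hB hV'

theorem const_mem_B0 (b : Bool) (a : Kb) :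
    algebraMap Kb (FN (M1 * (q : ℕ))) a ∈ KL.B0 Kb (S.θM b) (FN (M1 * (q : ℕ))) :=
  KL.SatB.const_mem_B0 a

theorem GE_one_of_GT {v : RVal (FN (M1 * (q : ℕ)))} {x : FN (M1 * (q : ℕ))}
    (hk : ∃ k : ℤ, v.w x = k) (h : v.GT x 0) : v.GE x 1 := by
  rcases h with h | h
  · exact Or.inl h
  · obtain ⟨k, hk⟩ := hk
    rw [hk] at h
    have h1 : (0 : ℤ) < k := by exact_mod_cast h
    have h2 : (1 : ℤ) ≤ k := h1
    refine Or.inr ?_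
    rw [hk]
    exact_mod_cast h2

theorem ker_inf (b : Bool) :
    RingHom.ker (r1 S b) ⊓ RingHom.ker (r2 S b) = Ideal.span {(((q : ℕ) : BB S b))} := by
  apply le_antisymm
  · intro x hx
    have h1 : r1 S b x = 0 := hx.1
    have h2 : r2 S b x = 0 := hx.2
    rw [r1_eq_zero_iff] at h1
    rw [r2_eq_zero_iff] at h2
    by_cases hx0 : ((x : EE q M1) : FN (M1 * (q : ℕ))) = 0
    · have : x = 0 := Subtype.ext (Subtype.ext hx0)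
      rw [this]
      exact zero_mem _
    have g1 := GE_one_of_GT (wG_int (x : EE q M1).2 hx0) h1
    have g2 := GE_one_of_GT (wZ_int S (x : EE q M1).2 hx0) h2
    have hq0 : (((q : ℕ) : FN (M1 * (q : ℕ)))) ≠ 0 := (wG_q (q := q) (M1 := M1)).1
    have e1 : (wG q (M1 * (q : ℕ))).GE
        (((x : EE q M1) : FN (M1 * (q : ℕ))) * (((q : ℕ) : FN (M1 * (q : ℕ))))⁻¹) 0 := by
      have := g1.mul ((wG_q (q := q) (M1 := M1)).inv.GE le_rfl)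
      simpa using this
    have e2 : (wZ q S.hc).GE
        (((x : EE q M1) : FN (M1 * (q : ℕ))) * (((q : ℕ) : FN (M1 * (q : ℕ))))⁻¹) 0 := by
      have := g2.mul ((wZ_q S).inv.GE le_rfl)
      simpa using this
    have hB : ((x : EE q M1) : FN (M1 * (q : ℕ))) * (((q : ℕ) : FN (M1 * (q : ℕ))))⁻¹ ∈
        KL.B0 Kb (S.θM b) (FN (M1 * (q : ℕ))) := by
      refine mul_mem (KL.C0_le_B0 _ x.2) ?_
      have := const_mem_B0 S b (((q : ℕ) : Kb))⁻¹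
      rwa [map_inv₀, ← qF_eq] at this
    have hC := mem_C0_of_GE S b hB e1 e2
    have hE : ((x : EE q M1) : FN (M1 * (q : ℕ))) * (((q : ℕ) : FN (M1 * (q : ℕ))))⁻¹ ∈ EE q M1 :=
      mul_mem (x : EE q M1).2 (inv_mem (natCast_mem _ _))
    rw [Ideal.mem_span_singleton]
    refine ⟨⟨⟨_, hE⟩, hC⟩, ?_⟩
    apply Subtype.ext
    apply Subtype.ext
    show ((x : EE q M1) : FN (M1 * (q : ℕ))) = (((q : ℕ) : FN (M1 * (q : ℕ)))) *
      (((x : EE q M1) : FN (M1 * (q : ℕ))) * (((q : ℕ) : FN (M1 * (q : ℕ))))⁻¹)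
    field_simp
  · rw [Ideal.span_le, Set.singleton_subset_iff]
    refine ⟨?_, ?_⟩
    · show _ ∈ RingHom.ker _
      rw [RingHom.mem_ker, r1_eq_zero_iff]
      exact (wG_q (q := q) (M1 := M1)).GT
    · show _ ∈ RingHom.ker _
      rw [RingHom.mem_ker, r2_eq_zero_iff]
      exact (wZ_q S).GT

theorem rho1_eq_zero_iff (b : Bool) (x : KL.C0 (AA q) (S.θM b) (FN (M1 * (q : ℕ)))) :
    ρ1 S b x = 0 ↔ (wG q (M1 * (q : ℕ))).GT (x : FN (M1 * (q : ℕ))) 0 := by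
  have e : ρ1 S b x = resInf (AA q) (M1 * (q : ℕ))
      ⟨(x : FN (M1 * (q : ℕ))), mem_Vinf_of_mem_VV S (C0M_le S b x.2)⟩ := rfl
  rw [e]
  exact (GT_zero_iff _).symm

theorem rho2_eq_zero_iff (b : Bool) (x : KL.C0 (AA q) (S.θM b) (FN (M1 * (q : ℕ)))) :
    ρ2 S b x = 0 ↔ (wZ q S.hc).GT (x : FN (M1 * (q : ℕ))) 0 := by
  have e : ρ2 S b x = resInf (AA q) (M1 * (q : ℕ))
      ⟨Wq S.hc (x : FN (M1 * (q : ℕ))), Wq_mem_Vinf_of_mem_VV S (C0M_le S b x.2)⟩ := rfl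
  rw [e, wZ_GT_iff]
  exact (GT_zero_iff _).symm

theorem gal_evK (b : Bool) {σ : GQ} (hσ : σ ∈ Iq q) (g : Kb[X]) :
    gal (M1 * (q : ℕ)) σ (KL.evK Kb (S.θM b) (FN (M1 * (q : ℕ))) g) =
      KL.evK Kb (S.θM b) (FN (M1 * (q : ℕ))) (g.map ((σ : Kb ≃+* Kb) : Kb →+* Kb)) := by
  have h : ((gal (M1 * (q : ℕ)) σ : FN (M1 * (q : ℕ)) ≃+* FN (M1 * (q : ℕ))) :
        FN (M1 * (q : ℕ)) →+* FN (M1 * (q : ℕ))).comp (KL.evK Kb (S.θM b) (FN (M1 * (q : ℕ)))) =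
      (KL.evK Kb (S.θM b) (FN (M1 * (q : ℕ)))).comp
        (Polynomial.mapRingHom ((σ : Kb ≃+* Kb) : Kb →+* Kb)) := by
    apply Polynomial.ringHom_ext
    · intro a
      simp only [RingHom.comp_apply, coe_mapRingHom, Polynomial.map_C]
      have e : ∀ a : Kb, KL.evK Kb (S.θM b) (FN (M1 * (q : ℕ))) (C a) =
          algebraMap Kb (FN (M1 * (q : ℕ))) a := by
        intro a
        simp only [KL.evK, RingHom.comp_apply]
        show algebraMap S.LM (FN (M1 * (q : ℕ))) (aeval (S.θM b) (C a)) = _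
        rw [aeval_C]
        rfl
      rw [e, e]
      exact gal_algebraMap σ a
    · simp only [RingHom.comp_apply, coe_mapRingHom, Polynomial.map_X]
      have e : KL.evK Kb (S.θM b) (FN (M1 * (q : ℕ))) X = thF S b := by
        simp only [KL.evK, RingHom.comp_apply]
        show algebraMap S.LM (FN (M1 * (q : ℕ))) (aeval (S.θM b) X) = _
        rw [aeval_X]
        rfl
      rw [e]
      exact thF_mem_EE S b σ hσ
  exact DFunLike.congr_fun h g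

theorem gal_mem_B0 (b : Bool) {σ : GQ} (hσ : σ ∈ Iq q) {x : FN (M1 * (q : ℕ))}
    (hx : x ∈ KL.B0 Kb (S.θM b) (FN (M1 * (q : ℕ)))) :
    gal (M1 * (q : ℕ)) σ x ∈ KL.B0 Kb (S.θM b) (FN (M1 * (q : ℕ))) :=
  KL.IsIntegralElem_of_comp (Polynomial.mapRingHom ((σ : Kb ≃+* Kb) : Kb →+* Kb))
    (KL.evK Kb (S.θM b) (FN (M1 * (q : ℕ))))
    (((gal (M1 * (q : ℕ)) σ : FN (M1 * (q : ℕ)) ≃+* FN (M1 * (q : ℕ))) :
      FN (M1 * (q : ℕ)) →+* FN (M1 * (q : ℕ))).comp (KL.evK Kb (S.θM b) (FN (M1 * (q : ℕ)))))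
    (gal_evK S b hσ)
    (ch1_map_isIntegralElem (KL.evK Kb (S.θM b) (FN (M1 * (q : ℕ))))
      ((gal (M1 * (q : ℕ)) σ : FN (M1 * (q : ℕ)) ≃+* FN (M1 * (q : ℕ))) :
        FN (M1 * (q : ℕ)) →+* FN (M1 * (q : ℕ))) _ (fun _ => rfl) hx)

theorem exists_rat (b : Bool) (c : KL.C0 (AA q) (S.θM b) (FN (M1 * (q : ℕ)))) :
    ∃ c' : BB S b, r1 S b c' = ρ1 S b c ∧ r2 S b c' = ρ2 S b c := by
  have hc0 : (wG q (M1 * (q : ℕ))).GE (c : FN (M1 * (q : ℕ))) 0 :=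
    GE_zero_iff.mpr (mem_Vinf_of_mem_VV S (C0M_le S b c.2))
  have hc1 : (wZ q S.hc).GE (c : FN (M1 * (q : ℕ))) 0 :=
    (wZ_GE_iff S.hc).mpr (GE_zero_iff.mpr (Wq_mem_Vinf_of_mem_VV S (C0M_le S b c.2)))
  obtain ⟨x₀, hx₀, hrat, g1, g2⟩ := exists_rat_approx₂ (q := q) (H := Iq q) S.hc le_rfl
    (by rw [Subgroup.relIndex_self]; exact one_ne_zero)
    (KL.B0 Kb (S.θM b) (FN (M1 * (q : ℕ)))).toAddSubgroup
    (fun a x hx => (KL.B0 Kb (S.θM b) (FN (M1 * (q : ℕ)))).mul_mem (const_mem_B0 S b a) hx)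
    (fun σ hσ x hx => gal_mem_B0 S b hσ hx) (KL.C0_le_B0 _ c.2) hc0 hc1
  have e : x₀ = (c : FN (M1 * (q : ℕ))) - ((c : FN (M1 * (q : ℕ))) - x₀) := by ring
  have k1 : (wG q (M1 * (q : ℕ))).GE x₀ 0 := by
    rw [e]
    exact hc0.sub (g1.GE le_rfl)
  have k2 : (wZ q S.hc).GE x₀ 0 := by
    rw [e]
    exact hc1.sub (g2.GE le_rfl)
  have hC := mem_C0_of_GE S b hx₀ k1 k2
  refine ⟨⟨⟨x₀, hrat⟩, hC⟩, ?_, ?_⟩
  · have h : ρ1 S b (c - ⟨x₀, hC⟩) = 0 := (rho1_eq_zero_iff S b _).mpr g1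
    rw [map_sub, sub_eq_zero] at h
    exact h.symm
  · have h : ρ2 S b (c - ⟨x₀, hC⟩) = 0 := (rho2_eq_zero_iff S b _).mpr g2
    rw [map_sub, sub_eq_zero] at h
    exact h.symm

end Fermat.Agent.S44.Mod
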