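import Fermat.Agent.S44.Mod.Noe

/-!
# S44 / MOD-NOR : `BB S b` is integrally closed          (helper14)
-/

set_option autoImplicit false
set_option synthInstance.maxHeartbeats 400000

open HahnSeries ModularCurve AlgebraicCurve Polynomial Fermat.Agent.S24 Fermat.Agent.S29 Fermat.Agent.S18
  Fermat.Agent.ES Fermat.Agent.ES.Alg Fermat.Agent.S34.Mod Fermat.Agent.S05 Fermat.Agent.S55.B ExtCitation
  Fermat.Agent.S33
open Fermat.Agent.S55 (Dq Iq)

noncomputable section

namespace Fermat.Agent.S44.Mod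

variable {q : Nat.Primes} {M1 r : ℕ} [NeZero M1] [NeZero (q : ℕ)] [NeZero r]
variable (S : Setup M1 (q : ℕ) r (AA q))

theorem isIntegrallyClosed_BB (b : Bool) : IsIntegrallyClosed (BB S b) := by
  have := isFractionRing_BB S b
  rw [isIntegrallyClosed_iff (EE q M1)]
  intro x hx
  have h : (phi S b).IsIntegralElem x :=
    ch1_isIntegralElem_trans (phi S b) (BB S b).subtype (fun a => (mem_BB_iff S b a).1 a.2) hx
  exact ⟨⟨x, (mem_BB_iff S b x).2 h⟩, rfl⟩

end Fermat.Agent.S44.Mod
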