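import Fermat.Agent.S44.Mod.Fin

/-!
# S44 / MOD-NOE : `B = C0 ∩ E` is noetherian with fraction field `E`          key `S44/MOD-NOE`

PROOFS.
* `mem_BB_iff`: (⇐) a monic equation over `O₀[X]` maps (`coe_phi`) to a monic equation over `A[X]`.  (⇒) `x` is integral over `A[θ]`, and `A[θ]` is integral over `O₀[θ]`
  (`isIntegralElem_toA`: every coefficient is integral, `θ` is in the image): transitivity of integrality (`RingHom.IsIntegralElem`-version: see `ch6_isIntegralElem_trans`, `ch1_isIntegralElem_trans`
  in `S34/Mod/Chart(Aux).lean`, or go through `Algebra` instances + `isIntegral_trans`); the equation has coefficients in `E`, so it is an equation in `E`.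
* `isNoetherianRing_BB`, `isFractionRing_BB`: `A₀ := (O0 q)[X]` is a noetherian UFD (`isDVR_O0`), hence integrally closed; `Algebra A₀ E := (phi S b).toAlgebra`, faithful by `phi_injective`;
  `K := FractionRing A₀`, `FractionRing.liftAlgebra`; `FiniteDimensional K E`: by `exists_dep` any `n+1` elements are dependent (`rank_le` + `Module.rank_lt_aleph0_iff`/`Module.finite_of_rank...`);
  characteristic `0` ⇒ separable; `IsIntegralClosure (BB S b) A₀ E` from `mem_BB_iff`;
  `IsIntegralClosure.isNoetherianRing A₀ K E (BB S b)`, `IsIntegralClosure.isFractionRing_of_finite_extension A₀ K E (BB S b)`.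
-/

set_option autoImplicit false
set_option synthInstance.maxHeartbeats 400000

open HahnSeries ModularCurve AlgebraicCurve Polynomial Fermat.Agent.S24 Fermat.Agent.S29 Fermat.Agent.S18
  Fermat.Agent.ES Fermat.Agent.ES.Alg Fermat.Agent.S34.Mod Fermat.Agent.S05 Fermat.Agent.S55.B ExtCitation
  Fermat.Agent.S33
open Fermat.Agent.S55 (Dq Iq)

noncomputable section

namespace Fermat.Agent.S44.Mod

variable {q : Nat.Primes} {M1 r : ℕ} [NeZero M1] [NeZero (q : ℕ)] [NeZero r]
variable (S : Setup M1 (q : ℕ) r (AA q))

theorem subtype_comp_phi (b : Bool) :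
    ((EE q M1).subtype).comp (phi S b) =
      (KL.evE (AA q) (S.θM b) (FN (M1 * (q : ℕ)))).comp (Polynomial.mapRingHom (O0.toA q)) :=
  RingHom.ext fun P => coe_phi S b P

/-- `A[θ]` is integral over `O₀[θ]` -/
theorem isIntegralElem_evE (b : Bool) (a : (↥(AA q))[X]) :
    (((EE q M1).subtype).comp (phi S b)).IsIntegralElem
      (KL.evE (AA q) (S.θM b) (FN (M1 * (q : ℕ))) a) := by
  induction a using Polynomial.induction_on with
  | C c =>
    obtain ⟨μ, hμ, h0⟩ := isIntegralElem_toA c
    refine ⟨μ.map C, hμ.map C, ?_⟩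
    rw [Polynomial.eval₂_map]
    have e : (((EE q M1).subtype).comp (phi S b)).comp (C : O0 q →+* (O0 q)[X]) =
        ((KL.evE (AA q) (S.θM b) (FN (M1 * (q : ℕ)))).comp (C : AA q →+* (↥(AA q))[X])).comp
          (O0.toA q) := by
      rw [subtype_comp_phi]
      ext a
      simp
    rw [e]
    have h := Polynomial.hom_eval₂ μ (O0.toA q)
      ((KL.evE (AA q) (S.θM b) (FN (M1 * (q : ℕ)))).comp (C : AA q →+* (↥(AA q))[X])) c
    rw [h0, map_zero] at h
    exact h.symm
  | add p p' hp hp' =>
    rw [map_add]
    exact RingHom.IsIntegralElem.add _ hp hp'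
  | monomial n c h =>
    have hX : (((EE q M1).subtype).comp (phi S b)).IsIntegralElem
        (KL.evE (AA q) (S.θM b) (FN (M1 * (q : ℕ))) X) := by
      have := (((EE q M1).subtype).comp (phi S b)).isIntegralElem_map (x := X)
      rw [subtype_comp_phi] at this ⊢
      simpa using this
    rw [pow_succ, ← mul_assoc, map_mul]
    exact RingHom.IsIntegralElem.mul _ h hX

theorem mem_BB_iff (b : Bool) (x : EE q M1) : x ∈ BB S b ↔ (phi S b).IsIntegralElem x := by
  rw [mem_BB, KL.mem_C0]
  constructor
  · intro hx
    obtain ⟨p, hp, h0⟩ := ch1_isIntegralElem_trans (((EE q M1).subtype).comp (phi S b))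
      (KL.evE (AA q) (S.θM b) (FN (M1 * (q : ℕ)))) (isIntegralElem_evE S b) hx
    refine ⟨p, hp, ?_⟩
    have h := Polynomial.hom_eval₂ p (phi S b) (EE q M1).subtype x
    apply Subtype.ext
    rw [Subfield.subtype_apply] at h
    rw [h]
    exact h0
  · rintro ⟨p, hp, h0⟩
    refine ⟨p.map (Polynomial.mapRingHom (O0.toA q)), hp.map _, ?_⟩
    rw [Polynomial.eval₂_map, ← subtype_comp_phi]
    have h := Polynomial.hom_eval₂ p (phi S b) (EE q M1).subtype x
    rw [h0, map_zero] at h
    exact h.symm

/-- the package of instances used for `isNoetherianRing_BB` and `isFractionRing_BB` -/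
theorem noe_frac_BB (b : Bool) : IsNoetherianRing (BB S b) ∧ IsFractionRing (BB S b) (EE q M1) := by
  have : IsDiscreteValuationRing (O0 q) := isDVR_O0
  let _ : Algebra (O0 q)[X] (EE q M1) := (phi S b).toAlgebra
  have : FaithfulSMul (O0 q)[X] (EE q M1) :=
    (faithfulSMul_iff_algebraMap_injective _ _).mpr (phi_injective S b)
  let _ : Algebra (FractionRing (O0 q)[X]) (EE q M1) := FractionRing.liftAlgebra _ _
  have : IsScalarTower (O0 q)[X] (FractionRing (O0 q)[X]) (EE q M1) :=
    FractionRing.isScalarTower_liftAlgebra _ _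
  let _ : Algebra (O0 q)[X] (BB S b) :=
    ((phi S b).codRestrict (BB S b) (phi_mem_BB S b)).toAlgebra
  have : IsScalarTower (O0 q)[X] (BB S b) (EE q M1) := IsScalarTower.of_algebraMap_eq fun _ => rfl
  have : IsIntegralClosure (BB S b) (O0 q)[X] (EE q M1) :=
    ⟨Subtype.val_injective, fun {x} => by
      constructor
      · intro hx
        exact ⟨⟨x, (mem_BB_iff S b x).mpr hx⟩, rfl⟩
      · rintro ⟨y, rfl⟩
        exact (mem_BB_iff S b _).mp y.2⟩
  have : FiniteDimensional (FractionRing (O0 q)[X]) (EE q M1) := by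
    have hrank : Module.rank (FractionRing (O0 q)[X]) (EE q M1) ≤
        (Module.finrank S.LM (FN (M1 * (q : ℕ))) : ℕ) := by
      apply rank_le
      intro s hs
      by_contra hlt
      push Not at hlt
      obtain ⟨t, hts, htc⟩ := Finset.exists_subset_card_eq (Nat.succ_le_of_lt hlt)
      let e := t.equivFinOfCardEq htc
      have hx : LinearIndependent (FractionRing (O0 q)[X])
          (fun i : Fin (Module.finrank S.LM (FN (M1 * (q : ℕ))) + 1) => ((e.symm i : t) : EE q M1)) := by
        have h1 : LinearIndependent (FractionRing (O0 q)[X]) (fun i : t => (i : EE q M1)) :=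
          hs.comp (fun i : t => (⟨i.1, hts i.2⟩ : s)) (fun i j h => Subtype.ext (by
            have := congrArg Subtype.val h
            exact this))
        exact h1.comp e.symm e.symm.injective
      obtain ⟨P, hP, h0⟩ := exists_dep S b (fun i => ((e.symm i : t) : EE q M1))
      apply hP
      have h2 := (Fintype.linearIndependent_iff.mp hx)
        (fun i => algebraMap (O0 q)[X] (FractionRing (O0 q)[X]) (P i)) (by
          rw [← h0]
          refine Finset.sum_congr rfl fun i _ => ?_
          rw [algebraMap_smul, Algebra.smul_def]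
          rfl)
      funext i
      exact (IsFractionRing.injective (O0 q)[X] (FractionRing (O0 q)[X])) (by rw [h2 i, Pi.zero_apply, map_zero])
    exact Module.rank_lt_aleph0_iff.mp (lt_of_le_of_lt hrank (Cardinal.natCast_lt_aleph0))
  exact ⟨IsIntegralClosure.isNoetherianRing (O0 q)[X] (FractionRing (O0 q)[X]) (EE q M1) (BB S b),
    IsIntegralClosure.isFractionRing_of_finite_extension (O0 q)[X] (FractionRing (O0 q)[X])
      (EE q M1) (BB S b)⟩

theorem isNoetherianRing_BB (b : Bool) : IsNoetherianRing (BB S b) := (noe_frac_BB S b).1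

theorem isFractionRing_BB (b : Bool) : IsFractionRing (BB S b) (EE q M1) := (noe_frac_BB S b).2

end Fermat.Agent.S44.Mod
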