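import Fermat.Agent.S44.Mod.Ker
import Fermat.Agent.S44.Mod.Noe

/-!
# S44 / MOD-RNG : the two components of the chart `BB S b` are normal of dimension one and cross transversally          keys `S44/MOD-RNG-N` (normal, radical, sep), `S44/MOD-RNG-D` (dim)

PROOFS.
* `normal₁`: `y := r1 a / r1 b`.  (i) `y = (twoComp S).res₁ x` for some `x ∈ VV`: let `e` be the element of `twoComp S` (`res₁ e = 1`, `res₂ e = 0`), `b'' := b e + (1 - e) ∈ VV = V2`: `res₁ b'' = r1 b ≠ 0`,
  `res₂ b'' = 1 ≠ 0`, so `b''⁻¹ ∈ V2` (`inv_mem_V2`, `VV_eq S`); `x := a b''⁻¹`.  (ii) `y` integral over `r1` ⇒ integral over `res₁ ∘ inclusion` (same equation, `inc`); `(nodalChart S b).normal₁ x` gives `c ∈ C0` with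
  `ρ1 c = y`; (iii) `exists_rat S b c`.   `normal₂`: symmetric (`b'' := b (1 - e) + e`).
* `radical₁`: `(nodalChart S b).radical₁ (inc y) n hn ⟨inc c, ..⟩` + `exists_rat`.  `radical₂` symmetric.
* `sep`: `cross₁ S b c'` with `c' = toC0 X` (the coordinate): `ρ1 d = θ̄ - θ̄(Q^(p²)) ≠ 0` (orders), + `exists_rat`; or: `e` times a denominator.  (Also a consequence of `XD.exists_xd`: you may import it instead.)
* `dim₁`: `P` prime, `ker r1 < P`.  `f := phi S b : O₀[X] → B` (`phi_mem_BB`), integral by `mem_BB_iff`.  `𝔭 := P ∩ O₀[X]` contains `p` and is strictly bigger than `𝔭₁ := ker(r1 ∘ f)`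
  (incomparability for integral extensions: `Ideal.comap_lt_comap_of_integral_mem_sdiff`).  `𝔭₁ = (p)`: `r1 (f P) = evk (redP P)` is injective mod `p` (`ch5_ρ1_ev`, `evk_injective`, `resInf_evE`).
  `O₀[X]/(p) = (O₀/p)[X]` is a PID (`O₀/p` is a field: `maximalIdeal_eq`), so `𝔭` is maximal; `Ideal.isMaximal_of_isIntegral_of_isMaximal_comap`.   `dim₂`: the same with `r2 (f P) = evk(redP P)(Q^p)` (`ch5_ρ2_ev`).
-/

set_option autoImplicit false
set_option synthInstance.maxHeartbeats 400000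

open HahnSeries ModularCurve AlgebraicCurve Polynomial Fermat.Agent.S24 Fermat.Agent.S29 Fermat.Agent.S18
  Fermat.Agent.ES Fermat.Agent.ES.Alg Fermat.Agent.S34.Mod Fermat.Agent.S05 Fermat.Agent.S55.B ExtCitation
  Fermat.Agent.S33
open Fermat.Agent.S55 (Dq Iq)

noncomputable section

namespace Fermat.Agent.S44.Mod

/-- a prime of `D[X]` strictly containing `I D[X]`, `I` maximal, is maximal -/
theorem rngAux_max {D : Type*} [CommRing D] (I : Ideal D) [hI : I.IsMaximal] (𝔭 : Ideal D[X])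
    [h𝔭 : 𝔭.IsPrime] (h : I.map (Polynomial.C : D →+* D[X]) < 𝔭) : 𝔭.IsMaximal := by
  let _ : Field (D ⧸ I) := Ideal.Quotient.field I
  let g : D[X] →+* (D ⧸ I)[X] := Polynomial.mapRingHom (Ideal.Quotient.mk I)
  have hg : Function.Surjective g := Polynomial.map_surjective _ Ideal.Quotient.mk_surjective
  have hker : RingHom.ker g = I.map (Polynomial.C : D →+* D[X]) := by
    rw [Polynomial.ker_mapRingHom, Ideal.mk_ker]
  have hle : RingHom.ker g ≤ 𝔭 := hker ▸ h.le
  have hp' : (𝔭.map g).IsPrime := Ideal.map_isPrime_of_surjective hg hle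
  have hne : 𝔭.map g ≠ ⊥ := by
    obtain ⟨x, hx, hx'⟩ := SetLike.exists_of_lt h
    intro hbot
    apply hx'
    rw [← hker, RingHom.mem_ker]
    have : g x ∈ 𝔭.map g := Ideal.mem_map_of_mem g hx
    rw [hbot] at this
    exact this
  have hmax : (𝔭.map g).IsMaximal := hp'.isMaximal hne
  have hcm : (𝔭.map g).comap g = 𝔭 := by
    rw [Ideal.comap_map_of_surjective g hg, sup_eq_left]
    exact hle
  rw [← hcm]
  exact Ideal.comap_isMaximal_of_surjective g hg

/-- dimension one of the components, abstractly -/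
theorem rngAux_dim {D B : Type*} [CommRing D] [CommRing B] (I : Ideal D) [hI : I.IsMaximal]
    (f : D[X] →+* B) (hf : f.IsIntegral) (Q P : Ideal B) [hQ : Q.IsPrime] [hP : P.IsPrime]
    (hIQ : ∀ a ∈ I, f (Polynomial.C a) ∈ Q) (hQP : Q < P) : P.IsMaximal := by
  let _ : Algebra D[X] B := f.toAlgebra
  have : Algebra.IsIntegral D[X] B := ⟨hf⟩
  obtain ⟨x, hx, hx'⟩ := SetLike.exists_of_lt hQP
  have h1 : Q.comap (algebraMap D[X] B) < P.comap (algebraMap D[X] B) :=
    Ideal.comap_lt_comap_of_integral_mem_sdiff hQP.le ⟨hx, hx'⟩ (Algebra.IsIntegral.isIntegral x)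
  have h2 : I.map (Polynomial.C : D →+* D[X]) ≤ Q.comap (algebraMap D[X] B) := by
    rw [Ideal.map_le_iff_le_comap]
    intro a ha
    exact hIQ a ha
  have h3 : (P.comap (algebraMap D[X] B)).IsMaximal := rngAux_max I _ (lt_of_le_of_lt h2 h1)
  exact Ideal.isMaximal_of_isIntegral_of_isMaximal_comap P h3

variable {q : Nat.Primes} {M1 r : ℕ} [NeZero M1] [NeZero (q : ℕ)] [NeZero r]
variable (S : Setup M1 (q : ℕ) r (AA q))

/-- an element of `VV` whose two reductions are nonzero is a unit of `VV` -/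
theorem rngAux_inv (y : KL.VV (AA q) S.τM (FN (M1 * (q : ℕ)))) (h1 : (twoComp S).res₁ y ≠ 0)
    (h2 : (twoComp S).res₂ y ≠ 0) : ∃ z : KL.VV (AA q) S.τM (FN (M1 * (q : ℕ))), y * z = 1 := by
  have hinv := inv_mem_V2 (x := Subring.inclusion (VV_eq S).le y) h1 h2
  have hy0 : (y : FN (M1 * (q : ℕ))) ≠ 0 := by
    intro h
    have : y = 0 := Subtype.ext h
    rw [this, map_zero] at h1
    exact h1 rfl
  exact ⟨⟨_, (VV_eq S).ge hinv⟩, Subtype.ext (mul_inv_cancel₀ hy0)⟩

/-- quotients of reductions on the first component are reductions -/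
theorem rngAux_quot₁ (x y : KL.VV (AA q) S.τM (FN (M1 * (q : ℕ)))) (hy : (twoComp S).res₁ y ≠ 0) :
    ∃ z : KL.VV (AA q) S.τM (FN (M1 * (q : ℕ))),
      (twoComp S).res₁ z = (twoComp S).res₁ x / (twoComp S).res₁ y := by
  have e1 : (twoComp S).res₁ (y * (twoComp S).e + (1 - (twoComp S).e)) = (twoComp S).res₁ y := by
    rw [map_add, map_mul, map_sub, map_one, (twoComp S).res₁_e]; ring
  have e2 : (twoComp S).res₂ (y * (twoComp S).e + (1 - (twoComp S).e)) = 1 := by
    rw [map_add, map_mul, map_sub, map_one, (twoComp S).res₂_e]; ring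
  obtain ⟨z, hz⟩ := rngAux_inv S (y * (twoComp S).e + (1 - (twoComp S).e)) (by rw [e1]; exact hy)
    (by rw [e2]; exact one_ne_zero)
  refine ⟨x * z, ?_⟩
  have h := congrArg (twoComp S).res₁ hz
  rw [map_mul, e1, map_one] at h
  rw [map_mul, eq_div_iff hy, mul_assoc, mul_comm ((twoComp S).res₁ z), h, mul_one]

/-- quotients of reductions on the second component are reductions -/
theorem rngAux_quot₂ (x y : KL.VV (AA q) S.τM (FN (M1 * (q : ℕ)))) (hy : (twoComp S).res₂ y ≠ 0) :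
    ∃ z : KL.VV (AA q) S.τM (FN (M1 * (q : ℕ))),
      (twoComp S).res₂ z = (twoComp S).res₂ x / (twoComp S).res₂ y := by
  have e1 : (twoComp S).res₁ (y * (1 - (twoComp S).e) + (twoComp S).e) = 1 := by
    rw [map_add, map_mul, map_sub, map_one, (twoComp S).res₁_e]; ring
  have e2 : (twoComp S).res₂ (y * (1 - (twoComp S).e) + (twoComp S).e) = (twoComp S).res₂ y := by
    rw [map_add, map_mul, map_sub, map_one, (twoComp S).res₂_e]; ring
  obtain ⟨z, hz⟩ := rngAux_inv S (y * (1 - (twoComp S).e) + (twoComp S).e)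
    (by rw [e1]; exact one_ne_zero) (by rw [e2]; exact hy)
  refine ⟨x * z, ?_⟩
  have h := congrArg (twoComp S).res₂ hz
  rw [map_mul, e2, map_one] at h
  rw [map_mul, eq_div_iff hy, mul_assoc, mul_comm ((twoComp S).res₂ z), h, mul_one]

theorem rngAux_int {R₁ R₂ Ω : Type*} [CommRing R₁] [CommRing R₂] [CommRing Ω] (f : R₂ →+* Ω) (g : R₁ →+* R₂)
    {v : Ω} (h : (f.comp g).IsIntegralElem v) : f.IsIntegralElem v := by
  obtain ⟨p, hp, h0⟩ := h
  exact ⟨p.map g, hp.map g, by rw [Polynomial.eval₂_map]; exact h0⟩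

theorem normal₁ (b : Bool) (x y : BB S b) (hy : r1 S b y ≠ 0)
    (h : (r1 S b).IsIntegralElem (r1 S b x / r1 S b y)) : ∃ c, r1 S b c = r1 S b x / r1 S b y := by
  obtain ⟨z, hz⟩ := rngAux_quot₁ S (Subring.inclusion (C0M_le S b) (inc S b x))
    (Subring.inclusion (C0M_le S b) (inc S b y)) hy
  have h' : (ρ1 S b).IsIntegralElem ((twoComp S).res₁ z) := by
    rw [hz]
    exact rngAux_int (ρ1 S b) (inc S b) h
  obtain ⟨c, hc⟩ := (nodalChart S b).normal₁ z h'
  obtain ⟨c', hc', -⟩ := exists_rat S b c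
  exact ⟨c', hc'.trans (hc.trans hz)⟩

theorem normal₂ (b : Bool) (x y : BB S b) (hy : r2 S b y ≠ 0)
    (h : (r2 S b).IsIntegralElem (r2 S b x / r2 S b y)) : ∃ c, r2 S b c = r2 S b x / r2 S b y := by
  obtain ⟨z, hz⟩ := rngAux_quot₂ S (Subring.inclusion (C0M_le S b) (inc S b x))
    (Subring.inclusion (C0M_le S b) (inc S b y)) hy
  have h' : (ρ2 S b).IsIntegralElem ((twoComp S).res₂ z) := by
    rw [hz]
    exact rngAux_int (ρ2 S b) (inc S b) h
  obtain ⟨c, hc⟩ := (nodalChart S b).normal₂ z h'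
  obtain ⟨c', -, hc'⟩ := exists_rat S b c
  exact ⟨c', hc'.trans (hc.trans hz)⟩

theorem radical₁ (b : Bool) (y : BB S b) (n : ℕ) (hn : 0 < n)
    (h : ∃ c, r2 S b c = 0 ∧ r1 S b c = r1 S b y ^ n) : ∃ c, r2 S b c = 0 ∧ r1 S b c = r1 S b y := by
  obtain ⟨c, h2, h1⟩ := h
  obtain ⟨d, hd2, hd1⟩ := (nodalChart S b).radical₁ (inc S b y) n hn ⟨inc S b c, h2, h1⟩
  obtain ⟨d', e1, e2⟩ := exists_rat S b d
  exact ⟨d', e2.trans hd2, e1.trans hd1⟩

theorem radical₂ (b : Bool) (y : BB S b) (n : ℕ) (hn : 0 < n)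
    (h : ∃ c, r1 S b c = 0 ∧ r2 S b c = r2 S b y ^ n) : ∃ c, r1 S b c = 0 ∧ r2 S b c = r2 S b y := by
  obtain ⟨c, h1, h2⟩ := h
  obtain ⟨d, hd1, hd2⟩ := (nodalChart S b).radical₂ (inc S b y) n hn ⟨inc S b c, h1, h2⟩
  obtain ⟨d', e1, e2⟩ := exists_rat S b d
  exact ⟨d', e1.trans hd1, e2.trans hd2⟩

/-- `O₀[X] → B` -/
def phiB (b : Bool) : (O0 q)[X] →+* BB S b := (phi S b).codRestrict (BB S b) (phi_mem_BB S b)

theorem phiB_isIntegral (b : Bool) : (phiB S b).IsIntegral := by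
  intro y
  obtain ⟨p, hp, h0⟩ := (mem_BB_iff S b y.1).1 y.2
  refine ⟨p, hp, Subtype.ext ?_⟩
  have h := Polynomial.hom_eval₂ p (phiB S b) (BB S b).subtype y
  have e : (BB S b).subtype.comp (phiB S b) = phi S b := rfl
  rw [e] at h
  exact h.trans h0

theorem phiB_C_mem (b : Bool) (a : O0 q) (ha : a ∈ IsLocalRing.maximalIdeal (O0 q)) :
    phiB S b (Polynomial.C a) ∈ RingHom.ker (r1 S b) ⊓ RingHom.ker (r2 S b) := by
  rw [maximalIdeal_eq, Ideal.mem_span_singleton] at ha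
  obtain ⟨c, rfl⟩ := ha
  rw [ker_inf, map_mul, map_mul, Ideal.mem_span_singleton]
  have e : phiB S b (Polynomial.C ((q : ℕ) : O0 q)) = ((q : ℕ) : BB S b) := by
    rw [map_natCast, map_natCast]
  rw [e]
  exact Dvd.intro _ rfl

theorem dim₁ (b : Bool) (P : Ideal (BB S b)) (hP : P.IsPrime) (h : RingHom.ker (r1 S b) < P) :
    P.IsMaximal := by
  have : (RingHom.ker (r1 S b)).IsPrime := RingHom.ker_isPrime _
  exact rngAux_dim (IsLocalRing.maximalIdeal (O0 q)) (phiB S b) (phiB_isIntegral S b)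
    (RingHom.ker (r1 S b)) P (fun a ha => (phiB_C_mem S b a ha).1) h

theorem dim₂ (b : Bool) (P : Ideal (BB S b)) (hP : P.IsPrime) (h : RingHom.ker (r2 S b) < P) :
    P.IsMaximal := by
  have : (RingHom.ker (r2 S b)).IsPrime := RingHom.ker_isPrime _
  exact rngAux_dim (IsLocalRing.maximalIdeal (O0 q)) (phiB S b) (phiB_isIntegral S b)
    (RingHom.ker (r2 S b)) P (fun a ha => (phiB_C_mem S b a ha).2) h

end Fermat.Agent.S44.Mod
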