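import Fermat.Agent.S44.Mod.XDc

/-!
# S44 / MOD-XD, part d : invariance and expansions at `∞` of `Xt`, `Xf`      (helper14)
-/

set_option autoImplicit false

open UpperHalfPlane ModularForm ModularCurve
open scoped MatrixGroups Manifold Real

noncomputable section

namespace Fermat.Agent.S44.Mod.XD

open Fermat.Agent.S24 Fermat.Agent.S28 Fermat.Agent.S18 Fermat.Agent.S18.ModInv Fermat.Agent.S34.Mod

section Ser

variable (R : Type*) [CommRing R]

/-- the expansion of `Δ` -/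
def dS : LaurentSeries R := HahnSeries.single (1 : ℤ) 1 *
  HahnSeries.ofPowerSeries ℤ R (dedekindEtaUnit.map (Int.castRingHom R))

/-- the expansion of `1/Δ` -/
def dSi : LaurentSeries R := HahnSeries.single (-1 : ℤ) 1 *
  HahnSeries.ofPowerSeries ℤ R (dedekindEtaUnitInv.map (Int.castRingHom R))

theorem mon_dS : Mon 1 (dS R) := by
  have := (Mon.single (R := R) 1).mul (Mon.ofPowerSeries (R := R) constantCoeff_dedekindEtaUnit)
  rwa [add_zero] at this

theorem mon_dSi : Mon (-1) (dSi R) := by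
  have := (Mon.single (R := R) (-1)).mul
    (Mon.ofPowerSeries (R := R) constantCoeff_dedekindEtaUnitInv)
  rwa [add_zero] at this

variable {R}

theorem coeffMap_dS {S : Type*} [CommRing S] (f : R →+* S) : coeffMap f (dS R) = dS S := by
  rw [dS, map_mul, coeffMap_single, map_one, coeffMap_ofPowerSeries,
    ← RingHom.comp_apply (PowerSeries.map f) (PowerSeries.map (Int.castRingHom R)),
    ← PowerSeries.map_comp, RingHom.ext_int (f.comp (Int.castRingHom R)) (Int.castRingHom S)]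
  rfl

theorem coeffMap_dSi {S : Type*} [CommRing S] (f : R →+* S) : coeffMap f (dSi R) = dSi S := by
  rw [dSi, map_mul, coeffMap_single, map_one, coeffMap_ofPowerSeries,
    ← RingHom.comp_apply (PowerSeries.map f) (PowerSeries.map (Int.castRingHom R)),
    ← PowerSeries.map_comp, RingHom.ext_int (f.comp (Int.castRingHom R)) (Int.castRingHom S)]
  rfl

theorem mon_pow {x : LaurentSeries R} {a : ℤ} (hx : Mon a x) (k : ℕ) : Mon ((k : ℤ) * a) (x ^ k) := by
  induction k with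
  | zero => simpa using Mon.one
  | succ k ih =>
    rw [pow_succ]
    have := ih.mul hx
    have e : ((k + 1 : ℕ) : ℤ) * a = (k : ℤ) * a + a := by push_cast; ring
    rwa [e]

variable (R) (q r : ℕ) [NeZero q] [NeZero r]

/-- the expansion of `Xt / c` -/
def St : LaurentSeries R := dS R * qExpand R q (dSi R) * tq R r * qExpand R q (tqInv R r)

/-- the expansion of `Xf / c ^ r` -/
def Sf : LaurentSeries R := dS R * qExpand R q (dSi R) * tqInv R r ^ r * qExpand R q (tq R r) ^ r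

theorem exists_mon_St : ∃ a : ℤ, Mon a (St R q r) :=
  ⟨_, (((mon_dS R).mul ((mon_dSi R).qExpand q)).mul (mon_tq R r)).mul ((mon_tqInv R r).qExpand q)⟩

theorem mon_St : Mon 0 (St R q r) := by
  have h := (((mon_dS R).mul ((mon_dSi R).qExpand q)).mul (mon_tq R r)).mul
    ((mon_tqInv R r).qExpand q)
  have e : (1 + (q : ℤ) * -1 + -1 + (q : ℤ) * 1) = 0 := by ring
  rwa [e] at h

theorem exists_mon_Sf : ∃ a : ℤ, Mon a (Sf R q r) :=
  ⟨_, (((mon_dS R).mul ((mon_dSi R).qExpand q)).mul (mon_pow (mon_tqInv R r) r)).mul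
    (mon_pow ((mon_tq R r).qExpand q) r)⟩

variable {R}

theorem coeffMap_St {S : Type*} [CommRing S] (f : R →+* S) : coeffMap f (St R q r) = St S q r := by
  rw [St, map_mul, map_mul, map_mul, coeffMap_qExpand, coeffMap_qExpand, coeffMap_dS, coeffMap_dSi,
    coeffMap_tq, coeffMap_tqInv, St]

theorem coeffMap_Sf {S : Type*} [CommRing S] (f : R →+* S) : coeffMap f (Sf R q r) = Sf S q r := by
  rw [Sf, map_mul, map_mul, map_mul, map_pow, map_pow, coeffMap_qExpand, coeffMap_qExpand,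
    coeffMap_dS, coeffMap_dSi, coeffMap_tq, coeffMap_tqInv, Sf]

end Ser

theorem eps_xA (N q : ℕ) [NeZero N] [NeZero q] (hq : q ∣ N) :
    eps N (xA N q hq) = qExpand Zb N (dS Zb) * qExpand Zb (N * q) (dSi Zb) := by
  refine eps_eq N ?_
  have h := (HauptAux.rel_level N rel_Delta).mul (HauptAux.rel_scale N rel_Delta_inv q)
  have e : ((xA N q hq).1 : ℍ → ℂ) =
      (discriminant : ℍ → ℂ) * (fun τ : ℍ => (discriminant τ)⁻¹) ∘ scaleH q := by
    funext τ
    exact div_eq_mul_inv _ _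
  rw [e]
  exact h

variable (M1 q r : ℕ) [NeZero M1] [NeZero q] [NeZero r] (hr : r = 2 ∨ r = 3) (hrM : r ∣ M1)
  (hq : q.Prime) (hqr : q ≠ r)

theorem eps_tqB' : eps (M1 * q) (tqB' M1 q r hr hrM hq hqr) =
    HahnSeries.C ((cE r : ℕ) : Zb) * qExpand Zb (M1 * q * q) (tqInv Zb r) :=
  eps_eq _ ((Rel.const (M1 * q) ((cE r : ℕ) : Zb)).mul (HauptAux.rel_scale (M1 * q) (rel_tInv r) q))

theorem eps_Xt : eps (M1 * q) (Xt M1 q r hr hrM hq hqr) =
    HahnSeries.C ((cE r : ℕ) : Zb) * qExpand Zb (M1 * q) (St Zb q r) := by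
  rw [Xt, map_mul, map_mul, eps_xA, eps_tA, eps_tqB', St, map_mul, map_mul, map_mul,
    qExpand_qExpand, qExpand_qExpand]
  ring

theorem eps_Xf : eps (M1 * q) (Xf M1 q r hr hrM hq hqr) =
    HahnSeries.C (((cE r : ℕ) : Zb) ^ r) * qExpand Zb (M1 * q) (Sf Zb q r) := by
  rw [Xf, map_mul, map_mul, map_pow, map_pow, eps_xA, eps_tA', eps_tqB, Sf, map_mul, map_mul,
    map_mul, map_pow, map_pow, map_pow, qExpand_qExpand, qExpand_qExpand]
  ring

omit [NeZero M1] [NeZero q] [NeZero r] in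
include hrM in
theorem dvd_of_mem {k : SL(2, ℤ)} (hk : k ∈ CongruenceSubgroup.Gamma0 (M1 * q)) :
    (q : ℤ) ∣ k 1 0 ∧ (r : ℤ) ∣ k 1 0 := by
  have h := mem_Gamma0_iff.mp hk
  constructor
  · exact (Int.natCast_dvd_natCast.mpr (dvd_mul_left q M1)).trans h
  · exact (Int.natCast_dvd_natCast.mpr (hrM.mul_right q)).trans h

theorem smul_Xt : ∀ k ∈ CongruenceSubgroup.Gamma0 (M1 * q),
    k • Xt M1 q r hr hrM hq hqr = Xt M1 q r hr hrM hq hqr := fun k hk => by
  obtain ⟨h1, h2⟩ := dvd_of_mem M1 q r hrM hk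
  rw [Xt, smul_mul', smul_mul', smul_xA _ _ _ k h1, smul_tA _ _ _ _ k h2, smul_tqB' _ _ _ _ _ _ _ k hk]

theorem smul_Xt' : ∀ k ∈ CongruenceSubgroup.Gamma0 (M1 * q),
    k • Xt' M1 q r hr hrM hq hqr = Xt' M1 q r hr hrM hq hqr := fun k hk => by
  obtain ⟨h1, h2⟩ := dvd_of_mem M1 q r hrM hk
  rw [Xt', smul_mul', smul_mul', smul_uA _ _ _ k h1, smul_tA' _ _ _ _ k h2, smul_tqB _ _ _ _ _ _ _ k hk]

theorem smul_Xf : ∀ k ∈ CongruenceSubgroup.Gamma0 (M1 * q),
    k • Xf M1 q r hr hrM hq hqr = Xf M1 q r hr hrM hq hqr := fun k hk => by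
  obtain ⟨h1, h2⟩ := dvd_of_mem M1 q r hrM hk
  rw [Xf, smul_mul', smul_mul', smul_pow', smul_pow', smul_xA _ _ _ k h1, smul_tA' _ _ _ _ k h2,
    smul_tqB _ _ _ _ _ _ _ k hk]

theorem smul_Xf' : ∀ k ∈ CongruenceSubgroup.Gamma0 (M1 * q),
    k • Xf' M1 q r hr hrM hq hqr = Xf' M1 q r hr hrM hq hqr := fun k hk => by
  obtain ⟨h1, h2⟩ := dvd_of_mem M1 q r hrM hk
  rw [Xf', smul_mul', smul_mul', smul_pow', smul_pow', smul_uA _ _ _ k h1, smul_tA _ _ _ _ k h2,
    smul_tqB' _ _ _ _ _ _ _ k hk]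

end Fermat.Agent.S44.Mod.XD
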