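import Fermat.Agent.S44.Mod.Ker
import Fermat.Agent.S44.Mod.XDd

/-!
# S44 / MOD-XD, part e : from `FN`-level data to `BB S b`      (helper14)
-/

set_option autoImplicit false
set_option synthInstance.maxHeartbeats 400000

open HahnSeries ModularCurve AlgebraicCurve Polynomial Fermat.Agent.S24 Fermat.Agent.S29 Fermat.Agent.S18
  Fermat.Agent.ES Fermat.Agent.ES.Alg Fermat.Agent.S34.Mod Fermat.Agent.S05 Fermat.Agent.S55.B ExtCitation
  Fermat.Agent.S33
open Fermat.Agent.S55 (Dq Iq)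

noncomputable section

namespace Fermat.Agent.S44.Mod

variable {q : Nat.Primes} {M1 r : ℕ} [NeZero M1] [NeZero (q : ℕ)] [NeZero r]
variable (S : Setup M1 (q : ℕ) r (AA q))

/-- natural numbers prime to `q` are units of `BB S b` -/
theorem isUnit_natCast_BB (b : Bool) {n : ℕ} (hn : ¬ (q : ℕ) ∣ n) : IsUnit ((n : ℕ) : BB S b) := by
  have hn0 : (n : Kb) ≠ 0 := by
    have : n ≠ 0 := fun h => hn (h ▸ dvd_zero _)
    exact_mod_cast this
  let a : O0 q := ⟨((n : Kb))⁻¹, inv_natCast_mem (AA q) S.hq S.hA hn, fun σ _ => by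
    rw [map_inv₀, map_natCast]⟩
  refine IsUnit.of_mul_eq_one ⟨phi S b (C a), phi_mem_BB S b _⟩ ?_
  apply Subtype.ext
  apply Subtype.ext
  show (((n : ℕ) : BB S b) : EE q M1).1 * (phi S b (C a) : EE q M1).1 = 1
  have h1 : (((n : ℕ) : BB S b) : EE q M1).1 = algebraMap Kb (FN (M1 * (q : ℕ))) (n : Kb) := by
    rw [map_natCast]
    simp
  have h2 : (phi S b (C a) : EE q M1).1 = algebraMap Kb (FN (M1 * (q : ℕ))) ((n : Kb))⁻¹ := by
    simp [phi, cE, a]
  rw [h1, h2, ← map_mul, mul_inv_cancel₀ hn0, map_one]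

theorem xd_core (b : Bool) {n c' : ℕ} (hn : ¬ (q : ℕ) ∣ n) (hc' : ¬ (q : ℕ) ∣ c')
    (s : LaurentSeries ℤ) {a : ℤ} (hs : Mon a s) {y y' : FN (M1 * (q : ℕ))}
    (hC : y ∈ KL.C0 (AA q) (S.θM b) (FN (M1 * (q : ℕ))))
    (hC' : y' ∈ KL.C0 (AA q) (S.θM b) (FN (M1 * (q : ℕ))))
    (hmul : y * y' = (n : FN (M1 * (q : ℕ))) * ((q : ℕ) : FN (M1 * (q : ℕ))) ^ 12)
    (hser : (y : LaurentSeries Kb) = HahnSeries.C (c' : Kb) * coeffMap (Int.castRingHom Kb) s)
    (hW : Wq S.hc y' = y) :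
    ∃ x x' u : BB S b, IsUnit u ∧ x * x' = u * ((q : ℕ) : BB S b) ^ 12 ∧
      r1 S b x ≠ 0 ∧ r2 S b x' ≠ 0 ∧ ((x : EE q M1) : FN (M1 * (q : ℕ))) = y ∧
      ((x' : EE q M1) : FN (M1 * (q : ℕ))) = y' := by
  have hyE : y ∈ EE q M1 := by
    rw [mem_ratF_iff_coeff]
    intro k
    rw [hser, HahnSeries.C_mul_eq_smul, HahnSeries.coeff_smul, coeffMap_coeff, smul_eq_mul]
    exact mul_mem (natCast_mem _ _) (intCast_mem _ _)
  have hyE' : y' ∈ EE q M1 := by
    rw [← Wq_Wq S.hc y', hW]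
    exact Wq_mem_ratF S.hc hyE
  have hint : IntRed (AA q) (M1 * (q : ℕ)) y
      (HahnSeries.C ((c' : ℕ) : kA (AA q)) * coeffMap (Int.castRingHom (kA (AA q))) s) := by
    refine ⟨HahnSeries.C ((c' : ℕ) : AA q) * coeffMap (Int.castRingHom (AA q)) s, ?_, ?_⟩
    · rw [hser, map_mul, coeffMap_coeffMap,
        RingHom.ext_int ((AA q).subtype.comp (Int.castRingHom (AA q))) (Int.castRingHom Kb)]
      congr 1
      show coeffMap (AA q).subtype (HahnSeries.single 0 _) = HahnSeries.single 0 _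
      rw [coeffMap_single]
      simp
    · rw [map_mul, coeffMap_coeffMap,
        RingHom.ext_int ((IsLocalRing.residue (AA q)).comp (Int.castRingHom (AA q)))
          (Int.castRingHom (kA (AA q)))]
      congr 1
      show coeffMap (IsLocalRing.residue (AA q)) (HahnSeries.single 0 _) = HahnSeries.single 0 _
      rw [coeffMap_single]
      simp
  have hne : (HahnSeries.C ((c' : ℕ) : kA (AA q)) * coeffMap (Int.castRingHom (kA (AA q))) s) ≠ 0 := by
    intro h0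
    have h1 := congrArg (fun t => t.coeff a) h0
    simp only [HahnSeries.C_mul_eq_smul, HahnSeries.coeff_smul, coeffMap_coeff, hs.1, smul_eq_mul,
      HahnSeries.coeff_zero] at h1
    have h2 : IsUnit (((c' : ℤ)) : AA q) :=
      Arch.isUnit_intCast (AA q) S.hq S.hA (m := (c' : ℤ)) (by exact_mod_cast hc')
    have h3 : IsLocalRing.residue (AA q) (((c' : ℤ)) : AA q) = 0 := by
      rw [map_intCast]
      simpa using h1
    exact ((IsLocalRing.residue_eq_zero_iff _).mp h3) h2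
  have hres := resInf_of_intRed hint
  refine ⟨⟨⟨y, hyE⟩, hC⟩, ⟨⟨y', hyE'⟩, hC'⟩, ((n : ℕ) : BB S b), isUnit_natCast_BB S b hn, ?_, ?_, ?_,
    rfl, rfl⟩
  · apply Subtype.ext
    apply Subtype.ext
    simpa using hmul
  · rw [r1_apply]
    exact hres ▸ hne
  · rw [r2_apply]
    have e : (⟨Wq S.hc y', Wq_mem_Vinf_of_mem_VV S (coe_mem_VV S b ⟨⟨y', hyE'⟩, hC'⟩)⟩ :
        Vinf (AA q) (M1 * (q : ℕ))) = ⟨y, mem_Vinf_of_intRed hint⟩ := Subtype.ext hW
    show resInf (AA q) (M1 * (q : ℕ)) ⟨Wq S.hc y', _⟩ ≠ 0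
    rw [e, hres]
    exact hne

end Fermat.Agent.S44.Mod
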