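import Fermat.Agent.S44.Mod.XDa
import Fermat.Agent.S44.Top.K3Nb

/-!
# S44 / MOD-XD, part w : `W_q (q^12 Δ(qz)/Δ(z)) = Δ(z)/Δ(qz)`          key `S44/MOD-XD-W`

PROOF.  `iota (M1 q)` is injective.  `iota (Wq hc y) = merZ W (iota y)` (`Top.iota_Wq hq hc s t h`, `q s - M1 t = 1` from coprimality),
`W = matU q 0 * alA M1 q s t h = [[q s, t], [q M1, q]]`, `iota y = algebraMap Hol Mer (uH q)` (`h.iota_eq`), `iota y' = algebraMap Hol Mer (xH q)`.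
`merZ W (algebraMap Hol Mer f) = algebraMap Hol Mer (holGL (glZ W _) _ f)` (`merZ_eq`, `merGL_algebraMap`), `holGL a f τ = f (a • τ)` (`holGL_apply`).
Pointwise, `σ := W τ`:  `σ = alB • (scaleH q τ)` (`alA_rel : W = alB * matD q`)  so  `Δ(σ) = (M1 q τ + q)^12 Δ(q τ)`  (`S28.MembersA.discriminant_smul`);
`scaleH q σ = alA • τ` (`alA_rel'`) so `Δ(q σ) = (M1 τ + 1)^12 Δ(τ)`.  Hence `uH q σ = q^12 Δ(qσ)/Δ(σ) = Δ(τ)/Δ(qτ) = xH q τ`.
(It is enough to check the two identities of points of `ℍ` on coordinates: `(σ : ℂ) = (q s τ + t)/(q M1 τ + q)` by `coe_smul_of_det_pos`.)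
-/

set_option autoImplicit false

open UpperHalfPlane ModularForm ModularCurve AlgebraicCurve CongruenceSubgroup
open Fermat.Agent.S24 Fermat.Agent.S28 Fermat.Agent.S18 Fermat.Agent.S29 Fermat.Agent.S34.Mod
open scoped MatrixGroups Manifold

noncomputable section

namespace Fermat.Agent.S44.Mod.XD

theorem Wq_u {M1 q : ℕ} [NeZero M1] [NeZero q] (hq : q.Prime) (hc : Nat.Coprime q M1)
    {y y' : FN (M1 * q)} (h : Corr (M1 * q) y (uA (M1 * q) q (dvd_mul_left q M1)))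
    (h' : Corr (M1 * q) y' (xA (M1 * q) q (dvd_mul_left q M1))) : Wq hc y = y' := by
  obtain ⟨s, t, hst⟩ : ∃ s t : ℤ, (q : ℤ) * s - M1 * t = 1 := by
    have h1 : IsCoprime (q : ℤ) (M1 : ℤ) := Nat.isCoprime_iff_coprime.2 hc
    obtain ⟨a, b, hab⟩ := h1
    exact ⟨a, -b, by linarith⟩
  have hW : 0 < (Fermat.Agent.S16.Lower.matU q 0 *
      ((Top.alA M1 q s t hst : SL(2, ℤ)) : Matrix (Fin 2) (Fin 2) ℤ)).det := by
    rw [Matrix.det_mul]
    exact mul_pos (Top.k3nb_det_matU hq.ne_zero) (Top.k3nb_det_SL _)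
  apply (iota (M1 * q)).injective
  rw [Top.iota_Wq hq hc s t hst, h.iota_eq, h'.iota_eq, Top.merZ_eq hW, K3.merGL_algebraMap]
  congr 1
  apply Subtype.ext
  funext τ
  show (uH q : ℍ → ℂ) (Top.glZ _ hW • τ) = (xH q : ℍ → ℂ) τ
  rw [uH_apply, xH_apply]
  have hq0 : (q : ℂ) ≠ 0 := by exact_mod_cast hq.ne_zero
  have hden : ((M1 : ℂ) * τ + 1) ≠ 0 := by
    intro h0
    have h1 := congrArg Complex.im h0
    simp at h1
    rcases h1 with h1 | h1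
    · exact NeZero.ne M1 h1
    · exact τ.im_ne_zero h1
  have hσ : ((Top.glZ _ hW • τ : ℍ) : ℂ) = ((q : ℂ) * s * τ + t) / ((q : ℂ) * ((M1 : ℂ) * τ + 1)) := by
    rw [UpperHalfPlane.coe_smul_of_det_pos (Top.glZ_det_pos _ hW)]
    have e : ∀ i j, (Top.glZ _ hW) i j = (((Fermat.Agent.S16.Lower.matU q 0 *
      ((Top.alA M1 q s t hst : SL(2, ℤ)) : Matrix (Fin 2) (Fin 2) ℤ)) i j : ℤ) : ℝ) := fun i j => rfl
    simp only [UpperHalfPlane.num, UpperHalfPlane.denom, e]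
    simp [Fermat.Agent.S16.Lower.matU, Top.alA, Matrix.mul_apply, Fin.sum_univ_two]
    ring_nf
  have h1 : Top.glZ _ hW • τ = Top.alB M1 q s t hst • scaleH q τ := by
    apply UpperHalfPlane.ext
    rw [hσ, coe_specialLinearGroup_apply]
    show _ = (((s : ℤ) : ℝ) * ((q : ℂ) * τ) + ((t : ℤ) : ℝ)) / ((((M1 : ℤ) : ℤ) : ℝ) * ((q : ℂ) * τ) + (((q : ℤ) : ℤ) : ℝ))
    push_cast
    congr 1 <;> ring
  have h2 : scaleH q (Top.glZ _ hW • τ) = Top.alA M1 q s t hst • τ := by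
    apply UpperHalfPlane.ext
    rw [coe_specialLinearGroup_apply]
    show (q : ℂ) * ((Top.glZ _ hW • τ : ℍ) : ℂ) = ((((q : ℤ) * s : ℤ) : ℝ) * (τ : ℂ) + ((t : ℤ) : ℝ)) / ((((M1 : ℤ) : ℤ) : ℝ) * (τ : ℂ) + (((1 : ℤ) : ℤ) : ℝ))
    rw [hσ]
    push_cast
    field_simp
  rw [h2, h1, MembersA.discriminant_smul, MembersA.discriminant_smul]
  have a10 : (Top.alA M1 q s t hst) 1 0 = (M1 : ℤ) := rfl
  have a11 : (Top.alA M1 q s t hst) 1 1 = 1 := rfl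
  have b10 : (Top.alB M1 q s t hst) 1 0 = (M1 : ℤ) := rfl
  have b11 : (Top.alB M1 q s t hst) 1 1 = (q : ℤ) := rfl
  rw [a10, a11, b10, b11]
  have hs : ((scaleH q τ : ℍ) : ℂ) = (q : ℂ) * τ := rfl
  rw [hs]
  have hΔ1 := discriminant_ne_zero τ
  have hΔ2 := discriminant_ne_zero (scaleH q τ)
  push_cast
  have e2 : ((M1 : ℂ) * ((q : ℂ) * τ) + q) = (q : ℂ) * ((M1 : ℂ) * τ + 1) := by ring
  rw [e2, mul_pow]
  field_simp

end Fermat.Agent.S44.Mod.XD
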