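import Fermat.Agent.S44.Mod.Defs
import Fermat.Agent.S44.Mod.XDe
import Fermat.Agent.S44.Mod.XDw

/-!
# S44 / MOD-XD : the functions `x_b`, `x_b'` with `x_b x_b' = r^k p^12`          key `S44/MOD-XD` (helper14)

`xΔ = Δ(z)/Δ(pz)`, `xΔ' = p^12 Δ(pz)/Δ(z) = S28.uA N p`.  Orders at the four types of cusps `(∞_r,∞_p), (∞_r,0_p), (0_r,∞_p), (0_r,0_p)` (local parameters):
`xΔ : (1-p, p-1, r(1-p), r(p-1))`, `t(z) : (-1,-p,1,p)`, `t(pz) : (-p,-1,p,1)`.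
* chart `b = true` (`θ = 1/t`, functions regular at the cusps above `∞_r`): `x = xΔ t(z)/t(pz) : (0,0,*,*)`, `x' = xΔ' t(pz)/t(z)`;
* chart `b = false` (`θ = t`, functions regular at the cusps above `0_r`): `x = xΔ (t(pz)/t(z))^r : (*,*,0,0)`, `x' = xΔ' (t(z)/t(pz))^r`.
-/

set_option autoImplicit false
set_option synthInstance.maxHeartbeats 400000
set_option linter.unusedSectionVars false

open HahnSeries ModularCurve AlgebraicCurve Polynomial Fermat.Agent.S24 Fermat.Agent.S29 Fermat.Agent.S18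
  Fermat.Agent.ES Fermat.Agent.ES.Alg Fermat.Agent.S34.Mod Fermat.Agent.S05 Fermat.Agent.S55.B ExtCitation
  Fermat.Agent.S33 Fermat.Agent.S28
open Fermat.Agent.S55 (Dq Iq)

noncomputable section

namespace Fermat.Agent.S44.Mod

variable {q : Nat.Primes} {M1 r : ℕ} [NeZero M1] [NeZero (q : ℕ)] [NeZero r]
variable (S : Setup M1 (q : ℕ) r (AA q))

include S in
theorem xd_hqr : (q : ℕ) ≠ r := fun h => S.not_dvd (h ▸ S.hr1)

include S in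
theorem xd_not_dvd (k : ℕ) : ¬ (q : ℕ) ∣ S18.cE r ^ k := by
  intro h
  have h1 := S.hq.dvd_of_dvd_pow (S.hq.dvd_of_dvd_pow h)
  rcases (Nat.dvd_prime (prime_of_hr S.hr)).mp h1 with h2 | h2
  · exact S.hq.one_lt.ne' h2
  · exact xd_hqr S h2

/-- the constant `c = r ^ (12/(r-1))` in `F` -/
abbrev Cc (M1 q r : ℕ) [NeZero M1] [NeZero q] : FN (M1 * q) :=
  algebraMap Kb (FN (M1 * q)) (zk ((S18.cE r : ℕ) : Zb))

theorem corr_tM : Corr (M1 * (q : ℕ)) S.tM (XD.tN M1 (q : ℕ) r S.hr S.hr1) := corr_tauF S.HM S.hrM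

theorem corr_tM' : Corr (M1 * (q : ℕ)) (Cc M1 (q : ℕ) r / S.tM) (XD.tN' M1 (q : ℕ) r S.hr S.hr1) := by
  refine (Corr.const _).div (corr_tM S) (tA_ne_zero S.HM) ?_
  exact (mul_comm _ _).trans (tA_mul_tA' _ _ _ _)

theorem corr_tQ : Corr (M1 * (q : ℕ)) S.tQ (tqB M1 (q : ℕ) r S.hr S.hr1 S.hq (xd_hqr S)) :=
  corr_tqF M1 (q : ℕ) r S.hr S.hr1 S.hq (xd_hqr S)

theorem corr_tQ' : Corr (M1 * (q : ℕ)) (Cc M1 (q : ℕ) r / S.tQ)
    (tqB' M1 (q : ℕ) r S.hr S.hr1 S.hq (xd_hqr S)) :=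
  corr_tqF_inv M1 (q : ℕ) r S.hr S.hr1 S.hq (xd_hqr S)

theorem Wq_Cc : Wq S.hc (Cc M1 (q : ℕ) r) = Cc M1 (q : ℕ) r := (Wq S.hc).commutes _

theorem xd_const (k : ℕ) : algebraMap Kb (FN (M1 * (q : ℕ))) (zk (((S18.cE r : ℕ) : Zb) ^ k)) *
    algebraMap Kb (FN (M1 * (q : ℕ))) (zk (((q : ℕ) : Zb) ^ 12)) =
    ((S18.cE r ^ k : ℕ) : FN (M1 * (q : ℕ))) * ((q : ℕ) : FN (M1 * (q : ℕ))) ^ 12 := by
  simp

/-- the precise form: `x` has the `q`-expansion `c' * s`, `s` monic with integral coefficients, and `W_q x' = x` -/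
theorem exists_xd' (b : Bool) : ∃ (x x' u : BB S b) (k : ℕ), IsUnit u ∧
    x * x' = u * ((q : ℕ) : BB S b) ^ 12 ∧ r1 S b x ≠ 0 ∧ r2 S b x' ≠ 0 ∧
    (((x : EE q M1) : FN (M1 * (q : ℕ))) : LaurentSeries Kb) = HahnSeries.C ((S18.cE r ^ k : ℕ) : Kb) *
      coeffMap (Int.castRingHom Kb) (if b then XD.St ℤ (q : ℕ) r else XD.Sf ℤ (q : ℕ) r) ∧
    Wq S.hc ((x' : EE q M1) : FN (M1 * (q : ℕ))) = ((x : EE q M1) : FN (M1 * (q : ℕ))) := by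
  obtain ⟨yx, hyx⟩ := exists_corr (XD.xA (M1 * (q : ℕ)) (q : ℕ) (dvd_mul_left _ _)) (fun k hk =>
    XD.smul_xA _ _ _ k (XD.dvd_of_mem M1 (q : ℕ) r S.hr1 hk).1)
  obtain ⟨yu, hyu⟩ := exists_corr (uA (M1 * (q : ℕ)) (q : ℕ) (dvd_mul_left _ _)) (fun k hk =>
    smul_uA _ _ _ k (XD.dvd_of_mem M1 (q : ℕ) r S.hr1 hk).1)
  have hWu : Wq S.hc yu = yx := XD.Wq_u S.hq S.hc hyu hyx
  cases b
  · -- chart `t`
    have hy : Corr (M1 * (q : ℕ)) (yx * (Cc M1 (q : ℕ) r / S.tM) ^ r * S.tQ ^ r)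
        (XD.Xf M1 (q : ℕ) r S.hr S.hr1 S.hq (xd_hqr S)) :=
      (hyx.mul ((corr_tM' S).pow r)).mul ((corr_tQ S).pow r)
    have hy' : Corr (M1 * (q : ℕ)) (yu * S.tM ^ r * (Cc M1 (q : ℕ) r / S.tQ) ^ r)
        (XD.Xf' M1 (q : ℕ) r S.hr S.hr1 S.hq (xd_hqr S)) :=
      (hyu.mul ((corr_tM S).pow r)).mul ((corr_tQ' S).pow r)
    obtain ⟨a, ha⟩ := XD.exists_mon_Sf ℤ (q : ℕ) r
    have hser : ((yx * (Cc M1 (q : ℕ) r / S.tM) ^ r * S.tQ ^ r : FN (M1 * (q : ℕ))) :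
        LaurentSeries Kb) = HahnSeries.C ((S18.cE r ^ r : ℕ) : Kb) *
          coeffMap (Int.castRingHom Kb) (XD.Sf ℤ (q : ℕ) r) := by
      apply qExpand_injective (R := Kb) (M1 * (q : ℕ))
      rw [hy.qexp_eq, XD.eps_Xf, map_mul, coeffMap_qExpand, XD.coeffMap_Sf, map_mul, qExpand_C,
        XD.coeffMap_Sf]
      congr 1
      show coeffMap zk (HahnSeries.single 0 _) = HahnSeries.single 0 _
      rw [coeffMap_single]
      simp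
    have hW : Wq S.hc (yu * S.tM ^ r * (Cc M1 (q : ℕ) r / S.tQ) ^ r) =
        yx * (Cc M1 (q : ℕ) r / S.tM) ^ r * S.tQ ^ r := by
      rw [map_mul, map_mul, map_pow, map_pow, map_div₀, hWu, Wq_tM S, Wq_tQ S, Wq_Cc S]
      ring
    have hmul : (yx * (Cc M1 (q : ℕ) r / S.tM) ^ r * S.tQ ^ r) *
        (yu * S.tM ^ r * (Cc M1 (q : ℕ) r / S.tQ) ^ r) =
        ((S18.cE r ^ (2 * r) : ℕ) : FN (M1 * (q : ℕ))) * ((q : ℕ) : FN (M1 * (q : ℕ))) ^ 12 := by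
      rw [← xd_const]
      refine (hy.mul hy').unique_left ?_
      rw [XD.Xf_mul]
      exact (Corr.const _).mul (Corr.const _)
    obtain ⟨x, x', u, h1, h2, h3, h4, h5, h6⟩ :=
      xd_core S false (xd_not_dvd S (2 * r)) (xd_not_dvd S r) (XD.Sf ℤ (q : ℕ) r) ha
      (mem_C0_of_regular _ (XD.smul_Xf M1 (q : ℕ) r S.hr S.hr1 S.hq (xd_hqr S)) S.HM S.hrM (AA q) hy
        (XD.reg_Xf M1 (q : ℕ) r S.hr S.hr1 S.hq (xd_hqr S)))
      (mem_C0_of_regular _ (XD.smul_Xf' M1 (q : ℕ) r S.hr S.hr1 S.hq (xd_hqr S)) S.HM S.hrM (AA q) hy'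
        (XD.reg_Xf' M1 (q : ℕ) r S.hr S.hr1 S.hq (xd_hqr S))) hmul hser hW
    exact ⟨x, x', u, r, h1, h2, h3, h4, by rw [h5]; exact hser, by rw [h5, h6]; exact hW⟩
  · -- chart `1/t`
    have hy : Corr (M1 * (q : ℕ)) (yx * S.tM * (Cc M1 (q : ℕ) r / S.tQ))
        (XD.Xt M1 (q : ℕ) r S.hr S.hr1 S.hq (xd_hqr S)) :=
      (hyx.mul (corr_tM S)).mul (corr_tQ' S)
    have hy' : Corr (M1 * (q : ℕ)) (yu * (Cc M1 (q : ℕ) r / S.tM) * S.tQ)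
        (XD.Xt' M1 (q : ℕ) r S.hr S.hr1 S.hq (xd_hqr S)) :=
      (hyu.mul (corr_tM' S)).mul (corr_tQ S)
    obtain ⟨a, ha⟩ := XD.exists_mon_St ℤ (q : ℕ) r
    have hser : ((yx * S.tM * (Cc M1 (q : ℕ) r / S.tQ) : FN (M1 * (q : ℕ))) :
        LaurentSeries Kb) = HahnSeries.C ((S18.cE r ^ 1 : ℕ) : Kb) *
          coeffMap (Int.castRingHom Kb) (XD.St ℤ (q : ℕ) r) := by
      apply qExpand_injective (R := Kb) (M1 * (q : ℕ))
      rw [hy.qexp_eq, XD.eps_Xt, map_mul, coeffMap_qExpand, XD.coeffMap_St, map_mul, qExpand_C,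
        XD.coeffMap_St]
      congr 1
      show coeffMap zk (HahnSeries.single 0 _) = HahnSeries.single 0 _
      rw [coeffMap_single]
      simp
    have hW : Wq S.hc (yu * (Cc M1 (q : ℕ) r / S.tM) * S.tQ) =
        yx * S.tM * (Cc M1 (q : ℕ) r / S.tQ) := by
      rw [map_mul, map_mul, map_div₀, hWu, Wq_tM S, Wq_tQ S, Wq_Cc S]
      ring
    have hmul : (yx * S.tM * (Cc M1 (q : ℕ) r / S.tQ)) * (yu * (Cc M1 (q : ℕ) r / S.tM) * S.tQ) =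
        ((S18.cE r ^ 2 : ℕ) : FN (M1 * (q : ℕ))) * ((q : ℕ) : FN (M1 * (q : ℕ))) ^ 12 := by
      rw [← xd_const]
      refine (hy.mul hy').unique_left ?_
      rw [XD.Xt_mul]
      exact (Corr.const _).mul (Corr.const _)
    obtain ⟨x, x', u, h1, h2, h3, h4, h5, h6⟩ :=
      xd_core S true (xd_not_dvd S 2) (c' := S18.cE r ^ 1) (xd_not_dvd S 1) (XD.St ℤ (q : ℕ) r) ha
      (mem_C0_inv_of_regular _ (XD.smul_Xt M1 (q : ℕ) r S.hr S.hr1 S.hq (xd_hqr S)) S.HM S.hrM (AA q) hy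
        (XD.reg_Xt M1 (q : ℕ) r S.hr S.hr1 S.hq (xd_hqr S)))
      (mem_C0_inv_of_regular _ (XD.smul_Xt' M1 (q : ℕ) r S.hr S.hr1 S.hq (xd_hqr S)) S.HM S.hrM (AA q) hy'
        (XD.reg_Xt' M1 (q : ℕ) r S.hr S.hr1 S.hq (xd_hqr S))) hmul hser hW
    exact ⟨x, x', u, 1, h1, h2, h3, h4, by rw [h5]; exact hser, by rw [h5, h6]; exact hW⟩

theorem exists_xd (b : Bool) : ∃ x x' u : BB S b, IsUnit u ∧ x * x' = u * ((q : ℕ) : BB S b) ^ 12 ∧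
    r1 S b x ≠ 0 ∧ r2 S b x' ≠ 0 := by
  obtain ⟨x, x', u, -, h1, h2, h3, h4, -, -⟩ := exists_xd' S b
  exact ⟨x, x', u, h1, h2, h3, h4⟩

end Fermat.Agent.S44.Mod
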