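import Fermat.Agent.S44.Mod.CuspV
import Fermat.Agent.S44.IfMod

/-!
# S44 / MOD-CUSP : the closed points `cusp ∞`, `cusp 0 = W_q ∞` of the chart `1/t`      (helper14; (D8) of board #1495)

`B = BB S true`.  `ev1, ev2 : B →+* k` : value at `q = 0` of the expansion of `x`, resp. of `W_q x`, modulo `𝔪`.  `nc1 = ker ev1`, `nc2 = ker ev2`.
They satisfy the hypotheses of `Alg.NodalModel.smooth` (for `nodalModel S true`, resp. its `symm`).
-/

set_option autoImplicit false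
set_option synthInstance.maxHeartbeats 400000
set_option linter.unusedSectionVars false

open HahnSeries ModularCurve AlgebraicCurve Polynomial Fermat.Agent.S24 Fermat.Agent.S29 Fermat.Agent.S18
  Fermat.Agent.ES Fermat.Agent.ES.Alg Fermat.Agent.S34.Mod Fermat.Agent.S05 Fermat.Agent.S55.B ExtCitation
  Fermat.Agent.S33
open Fermat.Agent.S55 (Dq Iq)

noncomputable section

namespace Fermat.Agent.S44.Mod

variable {q : Nat.Primes} {M1 r : ℕ} [NeZero M1] [NeZero (q : ℕ)] [NeZero r]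
variable (S : Setup M1 (q : ℕ) r (AA q))

theorem coe_algebraMap_Kb (N : ℕ) (a : Kb) :
    ((algebraMap Kb (FN N) a : FN N) : LaurentSeries Kb) = HahnSeries.C a := by
  show algebraMap Kb (LaurentSeries Kb) a = _
  rw [P2MW.S_ModularCurve_coeff_jqModC_neg_one.ModularCurve.CharLRows.algebraMap_laurentSeries_eq_single]
  rfl

theorem tM_ne_zero : S.tM ≠ 0 := fun h => by
  have h1 : ((S.tM : FN (M1 * (q : ℕ))) : LaurentSeries Kb) = tq Kb r := coe_tauF _ _ _
  rw [h] at h1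
  have h3 := coeff_tq_neg_one Kb r
  rw [← h1] at h3
  simp at h3

theorem thF_true_mul : thF S true * S.tM = 1 := by
  have e : thF S true = S.tM⁻¹ := by
    show algebraMap S.LM (FN (M1 * (q : ℕ))) (S.τM⁻¹) = _
    rw [map_inv₀]
    rfl
  rw [e, inv_mul_cancel₀ (tM_ne_zero S)]

theorem coe_thF_true : ((thF S true : FN (M1 * (q : ℕ))) : LaurentSeries Kb) = tqInv Kb r := by
  have h1 : ((thF S true : FN (M1 * (q : ℕ))) : LaurentSeries Kb) * tq Kb r = 1 := by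
    have h2 : ((S.tM : FN (M1 * (q : ℕ))) : LaurentSeries Kb) = tq Kb r := coe_tauF _ _ _
    rw [← h2]
    exact congrArg Subtype.val (thF_true_mul S)
  calc ((thF S true : FN (M1 * (q : ℕ))) : LaurentSeries Kb)
      = ((thF S true : FN (M1 * (q : ℕ))) : LaurentSeries Kb) * (tq Kb r * tqInv Kb r) := by
        rw [tq_mul_tqInv, mul_one]
    _ = tqInv Kb r := by rw [← mul_assoc, h1, one_mul]

theorem Wq_thF_true_mul : Wq S.hc (thF S true) * S.tQ = 1 := by
  rw [← Wq_tM S, ← map_mul, thF_true_mul, map_one]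

theorem coe_Wq_thF_true : ((Wq S.hc (thF S true) : FN (M1 * (q : ℕ))) : LaurentSeries Kb) =
    qExpand Kb (q : ℕ) (tqInv Kb r) := by
  have h2 : ((S.tQ : FN (M1 * (q : ℕ))) : LaurentSeries Kb) = qExpand Kb (q : ℕ) (tq Kb r) :=
    coe_tqF M1 (q : ℕ) r S.hr S.hr1
  have h1 : ((Wq S.hc (thF S true) : FN (M1 * (q : ℕ))) : LaurentSeries Kb) *
      qExpand Kb (q : ℕ) (tq Kb r) = 1 := by
    rw [← h2]
    exact congrArg Subtype.val (Wq_thF_true_mul S)
  calc ((Wq S.hc (thF S true) : FN (M1 * (q : ℕ))) : LaurentSeries Kb)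
      = ((Wq S.hc (thF S true) : FN (M1 * (q : ℕ))) : LaurentSeries Kb) *
          (qExpand Kb (q : ℕ) (tq Kb r) * qExpand Kb (q : ℕ) (tqInv Kb r)) := by
        rw [← map_mul, tq_mul_tqInv, map_one, mul_one]
    _ = qExpand Kb (q : ℕ) (tqInv Kb r) := by rw [← mul_assoc, h1, one_mul]

theorem tqInv_pos (n : ℤ) (hn : n ≤ 0) : (tqInv Kb r).coeff n = 0 :=
  (mon_tqInv Kb r).2 n (by omega)

theorem qExpand_tqInv_pos (n : ℤ) (hn : n ≤ 0) : (qExpand Kb (q : ℕ) (tqInv Kb r)).coeff n = 0 :=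
  ((mon_tqInv Kb r).qExpand (q : ℕ)).2 n (by
    have : (0 : ℤ) < ((q : ℕ) : ℤ) := by exact_mod_cast q.2.pos
    omega)

/-- expansion at `∞` -/
def g1 : (↥(AA q))[X] →+* LaurentSeries Kb :=
  (algebraMap (FN (M1 * (q : ℕ))) (LaurentSeries Kb)).comp
    (KL.evE (AA q) (S.θM true) (FN (M1 * (q : ℕ))))

/-- expansion at `W_q ∞` -/
def g2 : (↥(AA q))[X] →+* LaurentSeries Kb :=
  (algebraMap (FN (M1 * (q : ℕ))) (LaurentSeries Kb)).comp
    (((Wq S.hc : FN (M1 * (q : ℕ)) ≃ₐ[Kb] FN (M1 * (q : ℕ))) : FN (M1 * (q : ℕ)) →+* FN (M1 * (q : ℕ))).comp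
      (KL.evE (AA q) (S.θM true) (FN (M1 * (q : ℕ)))))

theorem g1_mem (P : (↥(AA q))[X]) : g1 S P ∈ VC (AA q) := by
  induction P using Polynomial.induction_on' with
  | add P Q hP hQ => rw [map_add]; exact add_mem hP hQ
  | monomial n a =>
    rw [← C_mul_X_pow_eq_monomial, map_mul, map_pow]
    refine mul_mem ?_ (pow_mem ?_ n)
    · have e : g1 S (C a) = HahnSeries.C (a : Kb) := by
        show ((KL.evE (AA q) (S.θM true) (FN (M1 * (q : ℕ))) (C a) : FN (M1 * (q : ℕ))) :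
          LaurentSeries Kb) = _
        rw [KL.SatB.evE_C]
        exact coe_algebraMap_Kb _ _
      rw [e]
      exact C_mem_VC a
    · have e : g1 S X = tqInv Kb r := by
        show ((KL.evE (AA q) (S.θM true) (FN (M1 * (q : ℕ))) X : FN (M1 * (q : ℕ))) :
          LaurentSeries Kb) = _
        rw [evE_X_eq_thF, coe_thF_true]
      rw [e]
      exact mem_VC_of_pos tqInv_pos

theorem g2_mem (P : (↥(AA q))[X]) : g2 S P ∈ VC (AA q) := by
  induction P using Polynomial.induction_on' with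
  | add P Q hP hQ => rw [map_add]; exact add_mem hP hQ
  | monomial n a =>
    rw [← C_mul_X_pow_eq_monomial, map_mul, map_pow]
    refine mul_mem ?_ (pow_mem ?_ n)
    · have e : g2 S (C a) = HahnSeries.C (a : Kb) := by
        show ((Wq S.hc (KL.evE (AA q) (S.θM true) (FN (M1 * (q : ℕ))) (C a)) : FN (M1 * (q : ℕ))) :
          LaurentSeries Kb) = _
        rw [KL.SatB.evE_C]
        have : Wq S.hc (algebraMap S.LM (FN (M1 * (q : ℕ))) (algebraMap Kb S.LM (a : Kb))) =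
            algebraMap Kb (FN (M1 * (q : ℕ))) (a : Kb) := (Wq S.hc).commutes _
        rw [this]
        exact coe_algebraMap_Kb _ _
      rw [e]
      exact C_mem_VC a
    · have e : g2 S X = qExpand Kb (q : ℕ) (tqInv Kb r) := by
        show ((Wq S.hc (KL.evE (AA q) (S.θM true) (FN (M1 * (q : ℕ))) X) : FN (M1 * (q : ℕ))) :
          LaurentSeries Kb) = _
        rw [evE_X_eq_thF, coe_Wq_thF_true]
      rw [e]
      exact mem_VC_of_pos qExpand_tqInv_pos

theorem coe_mem_VC {x : FN (M1 * (q : ℕ))}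
    (hx : x ∈ KL.C0 (AA q) (S.θM true) (FN (M1 * (q : ℕ)))) : (x : LaurentSeries Kb) ∈ VC (AA q) :=
  VC_closed (g1 S) (g1_mem S) (ch1_map_isIntegralElem (KL.evE (AA q) (S.θM true) (FN (M1 * (q : ℕ))))
    (algebraMap (FN (M1 * (q : ℕ))) (LaurentSeries Kb)) (g1 S) (fun _ => rfl) hx)

theorem coe_Wq_mem_VC {x : FN (M1 * (q : ℕ))}
    (hx : x ∈ KL.C0 (AA q) (S.θM true) (FN (M1 * (q : ℕ)))) :
    ((Wq S.hc x : FN (M1 * (q : ℕ))) : LaurentSeries Kb) ∈ VC (AA q) :=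
  VC_closed (g2 S) (g2_mem S) (ch1_map_isIntegralElem (KL.evE (AA q) (S.θM true) (FN (M1 * (q : ℕ))))
    ((algebraMap (FN (M1 * (q : ℕ))) (LaurentSeries Kb)).comp
      ((Wq S.hc : FN (M1 * (q : ℕ)) ≃ₐ[Kb] FN (M1 * (q : ℕ))) : FN (M1 * (q : ℕ)) →+* FN (M1 * (q : ℕ))))
    (g2 S) (fun _ => rfl) hx)

/-- `B → VC`, expansion at `∞` -/
def toVC1 : BB S true →+* VC (AA q) where
  toFun x := ⟨((x : EE q M1) : FN (M1 * (q : ℕ))), coe_mem_VC S x.2⟩
  map_one' := rfl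
  map_mul' _ _ := rfl
  map_zero' := rfl
  map_add' _ _ := rfl

/-- `B → VC`, expansion at `W_q ∞` -/
def toVC2 : BB S true →+* VC (AA q) where
  toFun x := ⟨(Wq S.hc ((x : EE q M1) : FN (M1 * (q : ℕ))) : FN (M1 * (q : ℕ))), coe_Wq_mem_VC S x.2⟩
  map_one' := Subtype.ext (congrArg (Subtype.val (p := fun f => f ∈ modularFunctionFieldBar (M1 * (q : ℕ))))
    (map_one (Wq S.hc)))
  map_mul' x y := Subtype.ext (congrArg (Subtype.val (p := fun f => f ∈ modularFunctionFieldBar (M1 * (q : ℕ))))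
    (map_mul (Wq S.hc) x.1.1 y.1.1))
  map_zero' := Subtype.ext (congrArg (Subtype.val (p := fun f => f ∈ modularFunctionFieldBar (M1 * (q : ℕ))))
    (map_zero (Wq S.hc)))
  map_add' x y := Subtype.ext (congrArg (Subtype.val (p := fun f => f ∈ modularFunctionFieldBar (M1 * (q : ℕ))))
    (map_add (Wq S.hc) x.1.1 y.1.1))

/-- the value at the cusp `∞`, modulo `𝔪` -/
def ev1 : BB S true →+* kA (AA q) := (evC (AA q)).comp (toVC1 S)

/-- the value at the cusp `W_q ∞`, modulo `𝔪` -/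
def ev2 : BB S true →+* kA (AA q) := (evC (AA q)).comp (toVC2 S)

/-- the closed point `cusp ∞` -/
def nc1 : Ideal (BB S true) := RingHom.ker (ev1 S)

/-- the closed point `cusp W_q ∞` -/
def nc2 : Ideal (BB S true) := RingHom.ker (ev2 S)

theorem ev1_apply (x : BB S true) : ev1 S x = IsLocalRing.residue (AA q)
    ⟨(((x : EE q M1) : FN (M1 * (q : ℕ))) : LaurentSeries Kb).coeff 0, (coe_mem_VC S x.2).2⟩ := rfl

theorem ev2_apply (x : BB S true) : ev2 S x = IsLocalRing.residue (AA q)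
    ⟨((Wq S.hc ((x : EE q M1) : FN (M1 * (q : ℕ))) : FN (M1 * (q : ℕ))) : LaurentSeries Kb).coeff 0,
      (coe_Wq_mem_VC S x.2).2⟩ := rfl

theorem mem_nc1 {x : BB S true} : x ∈ nc1 S ↔ ev1 S x = 0 := Iff.rfl

theorem mem_nc2 {x : BB S true} : x ∈ nc2 S ↔ ev2 S x = 0 := Iff.rfl

include S in
theorem natCast_kA : ((q : ℕ) : kA (AA q)) = 0 := by
  have h := Arch.natCast_mem_maximalIdeal (AA q) S.hA
  have h2 := (IsLocalRing.residue_eq_zero_iff _).mpr h
  rwa [map_natCast] at h2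

include S in
theorem residue_natCast_ne_zero {n : ℕ} (hn : ¬ (q : ℕ) ∣ n) :
    IsLocalRing.residue (AA q) ((n : ℕ) : AA q) ≠ 0 := by
  intro h3
  have h2 : IsUnit (((n : ℤ)) : AA q) :=
    Arch.isUnit_intCast (AA q) S.hq S.hA (m := (n : ℤ)) (by exact_mod_cast hn)
  exact ((IsLocalRing.residue_eq_zero_iff _).mp (by simpa using h3)) h2

theorem q_mem_nc1 : ((q : ℕ) : BB S true) ∈ nc1 S := by
  rw [mem_nc1, map_natCast]; exact natCast_kA S

theorem q_mem_nc2 : ((q : ℕ) : BB S true) ∈ nc2 S := by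
  rw [mem_nc2, map_natCast]; exact natCast_kA S

/-- the coordinate `θ = 1/t` -/
def thB : BB S true := ⟨phi S true X, phi_mem_BB S true X⟩

theorem coe_thB : ((thB S : EE q M1) : FN (M1 * (q : ℕ))) = thF S true := by
  simp [thB, phi, thE]

theorem thB_mem_nc1 : thB S ∈ nc1 S := by
  have e : toVC1 S (thB S) = ⟨tqInv Kb r, mem_VC_of_pos tqInv_pos⟩ := Subtype.ext (by
    show (((thB S : EE q M1) : FN (M1 * (q : ℕ))) : LaurentSeries Kb) = _
    rw [coe_thB, coe_thF_true])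
  show evC (AA q) (toVC1 S (thB S)) = 0
  rw [e]
  exact evC_of_pos tqInv_pos

theorem thB_mem_nc2 : thB S ∈ nc2 S := by
  have e : toVC2 S (thB S) = ⟨qExpand Kb (q : ℕ) (tqInv Kb r), mem_VC_of_pos qExpand_tqInv_pos⟩ :=
    Subtype.ext (by
      show ((Wq S.hc ((thB S : EE q M1) : FN (M1 * (q : ℕ))) : FN (M1 * (q : ℕ))) :
        LaurentSeries Kb) = _
      rw [coe_thB, coe_Wq_thF_true])
  show evC (AA q) (toVC2 S (thB S)) = 0
  rw [e]
  exact evC_of_pos qExpand_tqInv_pos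

theorem r1_thB : r1 S true (thB S) ≠ 0 := by
  rw [r1_apply]
  have h : (⟨((thB S : EE q M1) : FN (M1 * (q : ℕ))),
      mem_Vinf_of_mem_VV S (coe_mem_VV S true (thB S))⟩ : Vinf (AA q) (M1 * (q : ℕ))) *
      ⟨S.tM, tM_mem_Vinf S⟩ = 1 := Subtype.ext (by
    show ((thB S : EE q M1) : FN (M1 * (q : ℕ))) * S.tM = 1
    rw [coe_thB, thF_true_mul])
  have h2 := congrArg (resInf (AA q) (M1 * (q : ℕ))) h
  rw [map_mul, map_one] at h2
  exact left_ne_zero_of_mul_eq_one h2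

theorem r2_thB : r2 S true (thB S) ≠ 0 := by
  rw [r2_apply]
  have h : (⟨Wq S.hc ((thB S : EE q M1) : FN (M1 * (q : ℕ))),
      Wq_mem_Vinf_of_mem_VV S (coe_mem_VV S true (thB S))⟩ : Vinf (AA q) (M1 * (q : ℕ))) *
      ⟨S.tQ, tQ_mem_Vinf S⟩ = 1 := Subtype.ext (by
    show Wq S.hc ((thB S : EE q M1) : FN (M1 * (q : ℕ))) * S.tQ = 1
    rw [coe_thB, Wq_thF_true_mul])
  have h2 := congrArg (resInf (AA q) (M1 * (q : ℕ))) h
  rw [map_mul, map_one] at h2
  exact left_ne_zero_of_mul_eq_one h2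

/-- the separating functions -/
theorem exists_sep : ∃ x x' : BB S true, r2 S true x = 0 ∧ ev1 S x ≠ 0 ∧ r1 S true x' = 0 ∧
    ev2 S x' ≠ 0 := by
  obtain ⟨x, x', u, k, hu, hxx, h1, h2, hser, hW⟩ := exists_xd' S true
  rw [if_pos rfl] at hser
  have hz1 : r1 S true x * r1 S true x' = 0 := by
    rw [← map_mul, hxx, map_mul, map_pow, (r_q S true).1]; simp
  have hz2 : r2 S true x * r2 S true x' = 0 := by
    rw [← map_mul, hxx, map_mul, map_pow, (r_q S true).2]; simp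
  have hc : (((x : EE q M1) : FN (M1 * (q : ℕ))) : LaurentSeries Kb).coeff 0 =
      ((S18.cE r ^ k : ℕ) : Kb) := by
    rw [hser, HahnSeries.C_mul_eq_smul, HahnSeries.coeff_smul, coeffMap_coeff,
      (XD.mon_St ℤ (q : ℕ) r).1]
    simp
  have he : ev1 S x = IsLocalRing.residue (AA q) ((S18.cE r ^ k : ℕ) : AA q) := by
    rw [ev1_apply]
    congr 1
    exact Subtype.ext (hc.trans (by simp))
  have he1 : ev1 S x ≠ 0 := by
    rw [he]
    exact residue_natCast_ne_zero S (xd_not_dvd S k)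
  refine ⟨x, x', (mul_eq_zero.1 hz2).resolve_right h2, he1, (mul_eq_zero.1 hz1).resolve_left h1, ?_⟩
  have e : toVC2 S x' = toVC1 S x := Subtype.ext
    (congrArg (Subtype.val (p := fun f => f ∈ modularFunctionFieldBar (M1 * (q : ℕ)))) hW)
  show evC (AA q) (toVC2 S x') ≠ 0
  rw [e]
  exact he1

theorem not_ker_r2_le_nc1 : ¬ RingHom.ker (r2 S true) ≤ nc1 S := by
  obtain ⟨x, -, h1, h2, -, -⟩ := exists_sep S
  exact fun h => h2 (h h1)

theorem not_ker_r1_le_nc2 : ¬ RingHom.ker (r1 S true) ≤ nc2 S := by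
  obtain ⟨-, x', -, -, h1, h2⟩ := exists_sep S
  exact fun h => h2 (h h1)

instance nc1_isPrime : (nc1 S).IsPrime := RingHom.ker_isPrime _

instance nc2_isPrime : (nc2 S).IsPrime := RingHom.ker_isPrime _

theorem ker_r1_le_nc1 : RingHom.ker (r1 S true) ≤ nc1 S := by
  obtain ⟨x, -, h1, h2, -, -⟩ := exists_sep S
  intro b hb
  have h3 : b * x ∈ RingHom.ker (r1 S true) ⊓ RingHom.ker (r2 S true) :=
    ⟨Ideal.mul_mem_right _ _ hb, Ideal.mul_mem_left _ _ h1⟩
  rw [ker_inf] at h3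
  have h4 : b * x ∈ nc1 S := ((Ideal.span_singleton_le_iff_mem (nc1 S)).mpr (q_mem_nc1 S)) h3
  exact ((nc1_isPrime S).mem_or_mem h4).resolve_right h2

theorem ker_r2_le_nc2 : RingHom.ker (r2 S true) ≤ nc2 S := by
  obtain ⟨-, x', -, -, h1, h2⟩ := exists_sep S
  intro b hb
  have h3 : b * x' ∈ RingHom.ker (r1 S true) ⊓ RingHom.ker (r2 S true) :=
    ⟨Ideal.mul_mem_left _ _ h1, Ideal.mul_mem_right _ _ hb⟩
  rw [ker_inf] at h3
  have h4 : b * x' ∈ nc2 S := ((Ideal.span_singleton_le_iff_mem (nc2 S)).mpr (q_mem_nc2 S)) h3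
  exact ((nc2_isPrime S).mem_or_mem h4).resolve_right h2

instance nc1_isMaximal : (nc1 S).IsMaximal :=
  dim₁ S true (nc1 S) (nc1_isPrime S) (lt_of_le_of_ne (ker_r1_le_nc1 S) fun h =>
    r1_thB S (by
      have := thB_mem_nc1 S
      rw [← h] at this
      exact this))

instance nc2_isMaximal : (nc2 S).IsMaximal :=
  dim₂ S true (nc2 S) (nc2_isPrime S) (lt_of_le_of_ne (ker_r2_le_nc2 S) fun h =>
    r2_thB S (by
      have := thB_mem_nc2 S
      rw [← h] at this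
      exact this))

theorem exists_mem_nc1 : ∃ c ∈ nc1 S, r1 S true c ≠ 0 := ⟨thB S, thB_mem_nc1 S, r1_thB S⟩

theorem exists_mem_nc2 : ∃ c ∈ nc2 S, r2 S true c ≠ 0 := ⟨thB S, thB_mem_nc2 S, r2_thB S⟩

/-- abstract: a series of `VC` with nonzero value at `q = 0` has order `0` and a unit leading coefficient -/
theorem order_of_evC_ne_zero {f : VC (AA q)} (h : evC (AA q) f ≠ 0) :
    (f : LaurentSeries Kb).order = 0 ∧ (wq q).EQ (f : LaurentSeries Kb).leadingCoeff 0 := by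
  rw [evC_apply, Ne, ratfAux_residue_eq_zero_iff, GT_iff_not_EQ _ (ratfAux_GE_coe _), not_not] at h
  have h0 : (f : LaurentSeries Kb).coeff 0 ≠ 0 := h.1
  have hf0 : (f : LaurentSeries Kb) ≠ 0 := fun h1 => h0 (by rw [h1]; rfl)
  have ho : (f : LaurentSeries Kb).order = 0 := le_antisymm
    (HahnSeries.order_le_of_coeff_ne_zero h0) ((HahnSeries.le_order_iff_forall hf0).mpr f.2.1)
  refine ⟨ho, ?_⟩
  rw [HahnSeries.leadingCoeff_eq, ho]
  exact h

theorem EQ_coeff_of_evC_ne_zero {f : VC (AA q)} (h : evC (AA q) f ≠ 0) :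
    (wq q).EQ ((f : LaurentSeries Kb).coeff 0) 0 := by
  rw [evC_apply, Ne, ratfAux_residue_eq_zero_iff, GT_iff_not_EQ _ (ratfAux_GE_coe _), not_not] at h
  exact h

/-- (for `Cov.CuspH.exE`) -/
theorem exists_E : ∃ E ∈ KL.C0 (AA q) (S.θM true) (FN (M1 * (q : ℕ))), (wZ q S.hc).GT E 0 ∧
    (wq q).EQ ((E : LaurentSeries Kb).coeff 0) 0 := by
  obtain ⟨x, -, h1, h2, -, -⟩ := exists_sep S
  exact ⟨_, x.2, (r2_eq_zero_iff S true x).1 h1, EQ_coeff_of_evC_ne_zero (f := toVC1 S x) h2⟩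

theorem order_of_not_mem_nc1 {β : BB S true} (h : β ∉ nc1 S) :
    (((β : EE q M1) : FN (M1 * (q : ℕ))) : LaurentSeries Kb).order = 0 ∧
      (wq q).EQ (((β : EE q M1) : FN (M1 * (q : ℕ))) : LaurentSeries Kb).leadingCoeff 0 :=
  order_of_evC_ne_zero (f := toVC1 S β) h

theorem order_of_not_mem_nc2 {β : BB S true} (h : β ∉ nc2 S) :
    ((Wq S.hc ((β : EE q M1) : FN (M1 * (q : ℕ))) : FN (M1 * (q : ℕ))) : LaurentSeries Kb).order = 0 ∧
      (wq q).EQ ((Wq S.hc ((β : EE q M1) : FN (M1 * (q : ℕ))) : FN (M1 * (q : ℕ))) :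
        LaurentSeries Kb).leadingCoeff 0 :=
  order_of_evC_ne_zero (f := toVC2 S β) h

end Fermat.Agent.S44.Mod
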