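import Fermat.Agent.S33.Val.Cyc
import Fermat.Agent.S33.Val.Gauss

/-!
# S44 / MOD-O0 : `O0 = A ∩ K0` is a discrete valuation ring with uniformiser `p`        key `S44/MOD-O0`

`q : Nat.Primes` (the prime `p`), `A = AA q = primeLocalPlace q`, `I = Iq q`, `K0 = Fx (Iq q) = Qb^I`.

* `O0 q : Subring Qb`, `mem_O0 : x ∈ O0 q ↔ x ∈ AA q ∧ ∀ σ ∈ Iq q, σ x = x`;
* `exists_zpow_mul` : every `x ≠ 0` fixed by `I` is `p ^ k * u`, `k : ℤ`, `u` a unit of `O0`;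
* `exists_pow_mul` : every `x ≠ 0` of `O0` is `p ^ n * u`;
* `isUnit_iff`, `irreducible_p`, `isDiscreteValuationRing_O0`, `maximalIdeal_eq`, `mem_maximalIdeal_iff`;
* `isFractionRing_O0 : IsFractionRing (O0 q) (Fx (Iq q))`.
-/

set_option autoImplicit false

open Fermat.Agent.S05 Fermat.Agent.S55.B ExtCitation Fermat.Agent.S33
open Fermat.Agent.S55 (Dq Iq GQ Qb)

noncomputable section

namespace Fermat.Agent.S44.Mod

variable (q : Nat.Primes)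

/-- `O0 = A ∩ K0` -/
def O0 : Subring Qb where
  carrier := {x | x ∈ AA q ∧ ∀ σ ∈ Iq q, σ x = x}
  mul_mem' := fun {a b} ha hb => ⟨mul_mem ha.1 hb.1, fun σ hσ => by
    rw [map_mul, ha.2 σ hσ, hb.2 σ hσ]⟩
  one_mem' := ⟨one_mem _, fun σ _ => map_one σ⟩
  add_mem' := fun {a b} ha hb => ⟨add_mem ha.1 hb.1, fun σ hσ => by
    rw [map_add, ha.2 σ hσ, hb.2 σ hσ]⟩
  zero_mem' := ⟨zero_mem _, fun σ _ => map_zero σ⟩
  neg_mem' := fun {a} ha => ⟨neg_mem ha.1, fun σ hσ => by rw [map_neg, ha.2 σ hσ]⟩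

variable {q}

theorem mem_O0 {x : Qb} : x ∈ O0 q ↔ x ∈ AA q ∧ ∀ σ ∈ Iq q, σ x = x := Iff.rfl

theorem mem_O0_of_w {x : Qb} (hx : x ≠ 0) (hw : 0 ≤ (wq q).w x) (hfix : ∀ σ ∈ Iq q, σ x = x) :
    x ∈ O0 q := ⟨(wq_nonneg_iff q hx).mp hw, hfix⟩

theorem w_nonneg_of_mem {x : Qb} (h : x ∈ O0 q) (hx : x ≠ 0) : 0 ≤ (wq q).w x :=
  (wq_nonneg_iff q hx).mpr h.1

/-- a unit of `O0` from an invariant element of valuation `0` -/
def unitOf (x : Qb) (hx : x ≠ 0) (hw : (wq q).w x = 0) (hfix : ∀ σ ∈ Iq q, σ x = x) : (O0 q)ˣ where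
  val := ⟨x, mem_O0_of_w hx hw.ge hfix⟩
  inv := ⟨x⁻¹, mem_O0_of_w (inv_ne_zero hx) (by rw [RVal.w_inv hx, hw, neg_zero])
    (fun σ hσ => by rw [map_inv₀, hfix σ hσ])⟩
  val_inv := Subtype.ext (mul_inv_cancel₀ hx)
  inv_val := Subtype.ext (inv_mul_cancel₀ hx)

@[simp] theorem coe_unitOf (x : Qb) (hx : x ≠ 0) (hw : (wq q).w x = 0)
    (hfix : ∀ σ ∈ Iq q, σ x = x) : (((unitOf x hx hw hfix : (O0 q)ˣ) : O0 q) : Qb) = x := rfl

theorem w_unit (u : (O0 q)ˣ) : (wq q).w ((u : O0 q) : Qb) = 0 := by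
  have h1 : ((u : O0 q) : Qb) * ((u⁻¹ : (O0 q)ˣ) : O0 q) = 1 := congrArg Subtype.val u.mul_inv
  have hu : ((u : O0 q) : Qb) ≠ 0 := left_ne_zero_of_mul_eq_one h1
  have hu' : (((u⁻¹ : (O0 q)ˣ) : O0 q) : Qb) ≠ 0 := right_ne_zero_of_mul_eq_one h1
  have h2 := (wq q).map_mul _ _ hu hu'
  rw [h1, RVal.w_one] at h2
  have h3 := w_nonneg_of_mem (u : O0 q).2 hu
  have h4 := w_nonneg_of_mem ((u⁻¹ : (O0 q)ˣ) : O0 q).2 hu'
  linarith

/-- every nonzero element of `K0` is `p ^ k * unit` -/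
theorem exists_zpow_mul {x : Qb} (hx : x ≠ 0) (hfix : ∀ σ ∈ Iq q, σ x = x) :
    ∃ (k : ℤ) (u : (O0 q)ˣ), (wq q).w x = k ∧ x = ((q : ℕ) : Qb) ^ k * ((u : O0 q) : Qb) := by
  obtain ⟨k, hk⟩ := w_int_of_fixed q hfix hx
  have hq0 := q_ne_zero q
  have hz : ((q : ℕ) : Qb) ^ (-k) ≠ 0 := zpow_ne_zero _ hq0
  refine ⟨k, unitOf (((q : ℕ) : Qb) ^ (-k) * x) (mul_ne_zero hz hx) ?_ ?_, hk, ?_⟩
  · rw [(wq q).map_mul _ _ hz hx, RVal.w_zpow hq0, wq_q, hk]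
    push_cast
    ring
  · intro σ hσ
    rw [map_mul, map_zpow₀, map_natCast, hfix σ hσ]
  · rw [coe_unitOf, ← mul_assoc, ← zpow_add₀ hq0, add_neg_cancel, zpow_zero, one_mul]

/-- every nonzero element of `O0` is `p ^ n * unit` -/
theorem exists_pow_mul (x : O0 q) (hx : x ≠ 0) :
    ∃ (n : ℕ) (u : (O0 q)ˣ), (wq q).w (x : Qb) = n ∧ x = ((q : ℕ) : O0 q) ^ n * u := by
  have hx' : (x : Qb) ≠ 0 := fun h => hx (Subtype.ext h)
  obtain ⟨k, u, hk, hxu⟩ := exists_zpow_mul hx' x.2.2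
  have hk0 : 0 ≤ k := by
    have := w_nonneg_of_mem x.2 hx'
    rw [hk] at this
    exact_mod_cast this
  obtain ⟨n, rfl⟩ := Int.eq_ofNat_of_zero_le hk0
  refine ⟨n, u, by rw [hk]; norm_cast, Subtype.ext ?_⟩
  rw [hxu, zpow_natCast]
  rfl

theorem isUnit_iff (x : O0 q) : IsUnit x ↔ x ≠ 0 ∧ (wq q).w (x : Qb) = 0 := by
  constructor
  · rintro ⟨u, rfl⟩
    exact ⟨u.ne_zero, w_unit u⟩
  · rintro ⟨hx, hw⟩
    have hx' : (x : Qb) ≠ 0 := fun h => hx (Subtype.ext h)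
    exact ⟨unitOf (x : Qb) hx' hw x.2.2, Subtype.ext rfl⟩

theorem p_ne_zero : ((q : ℕ) : O0 q) ≠ 0 := by
  intro h
  exact q_ne_zero q (congrArg Subtype.val h)

theorem w_p : (wq q).w ((((q : ℕ) : O0 q)) : Qb) = 1 := wq_q q

theorem irreducible_p : Irreducible ((q : ℕ) : O0 q) := by
  refine ⟨fun h => ?_, fun a b hab => ?_⟩
  · have := ((isUnit_iff _).mp h).2
    rw [w_p] at this
    exact one_ne_zero this
  · have ha : a ≠ 0 := by rintro rfl; rw [zero_mul] at hab; exact p_ne_zero hab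
    have hb : b ≠ 0 := by rintro rfl; rw [mul_zero] at hab; exact p_ne_zero hab
    obtain ⟨n, u, hn, -⟩ := exists_pow_mul a ha
    obtain ⟨m, u', hm, -⟩ := exists_pow_mul b hb
    have ha' : (a : Qb) ≠ 0 := fun h => ha (Subtype.ext h)
    have hb' : (b : Qb) ≠ 0 := fun h => hb (Subtype.ext h)
    have h1 := (wq q).map_mul _ _ ha' hb'
    have h2 : ((a : Qb) * (b : Qb)) = (((q : ℕ) : O0 q) : Qb) := (congrArg Subtype.val hab).symm
    rw [h2, w_p, hn, hm] at h1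
    have h3 : n + m = 1 := by exact_mod_cast h1.symm
    rcases Nat.eq_zero_or_pos n with h0 | h0
    · left
      exact (isUnit_iff a).mpr ⟨ha, by rw [hn, h0]; norm_num⟩
    · right
      have : m = 0 := by omega
      exact (isUnit_iff b).mpr ⟨hb, by rw [hm, this]; norm_num⟩

instance isDomain_O0 : IsDomain (O0 q) := inferInstance

theorem hasUnitMulPow_O0 :
    IsDiscreteValuationRing.HasUnitMulPowIrreducibleFactorization (O0 q) :=
  ⟨((q : ℕ) : O0 q), irreducible_p, fun {x} hx => by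
    obtain ⟨n, u, -, hxu⟩ := exists_pow_mul x hx
    exact ⟨n, u, hxu.symm⟩⟩

/-- **S44/MOD-O0** -/
instance isDiscreteValuationRing_O0 : IsDiscreteValuationRing (O0 q) :=
  IsDiscreteValuationRing.ofHasUnitMulPowIrreducibleFactorization hasUnitMulPow_O0

theorem maximalIdeal_eq : IsLocalRing.maximalIdeal (O0 q) = Ideal.span {((q : ℕ) : O0 q)} :=
  (IsDiscreteValuationRing.irreducible_iff_uniformizer _).mp irreducible_p

theorem mem_maximalIdeal_iff (x : O0 q) :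
    x ∈ IsLocalRing.maximalIdeal (O0 q) ↔ (wq q).GT (x : Qb) 0 := by
  rw [IsLocalRing.mem_maximalIdeal, mem_nonunits_iff, isUnit_iff]
  constructor
  · intro h
    by_cases hx : x = 0
    · left; rw [hx]; rfl
    · right
      have hx' : (x : Qb) ≠ 0 := fun h => hx (Subtype.ext h)
      exact lt_of_le_of_ne (w_nonneg_of_mem x.2 hx') (fun h0 => h ⟨hx, h0.symm⟩)
  · rintro (h | h) ⟨hx, hw⟩
    · exact hx (Subtype.ext h)
    · rw [hw] at h; exact lt_irrefl _ h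

/-- `O0 → K0` -/
instance algebra_O0 : Algebra (O0 q) (Fx (Iq q)) :=
  ((O0 q).subtype.codRestrict (Fx (Iq q)).toSubfield.toSubring
    (fun x => mem_Fx.mpr x.2.2)).toAlgebra

@[simp] theorem coe_algebraMap_O0 (x : O0 q) :
    ((algebraMap (O0 q) (Fx (Iq q)) x : Fx (Iq q)) : Qb) = (x : Qb) := rfl

instance isFractionRing_O0 : IsFractionRing (O0 q) (Fx (Iq q)) where
  map_units := by
    rintro ⟨y, hy⟩
    have hy0 : y ≠ 0 := nonZeroDivisors.ne_zero hy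
    apply IsUnit.mk0
    intro h
    have h1 : ((algebraMap (O0 q) (Fx (Iq q)) y : Fx (Iq q)) : Qb) = 0 := congrArg Subtype.val h
    exact hy0 (Subtype.ext h1)
  surj := by
    intro z
    by_cases hz : z = 0
    · exact ⟨(0, 1), by rw [hz]; simp⟩
    have hz' : (z : Qb) ≠ 0 := fun h => hz (Subtype.ext h)
    obtain ⟨k, u, -, hzu⟩ := exists_zpow_mul hz' (mem_Fx.mp z.2)
    have hq0 := q_ne_zero q
    obtain ⟨n, rfl | rfl⟩ := k.eq_nat_or_neg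
    · refine ⟨(((q : ℕ) : O0 q) ^ n * u, 1), Subtype.ext ?_⟩
      show (z : Qb) * 1 = ((q : ℕ) : Qb) ^ n * ((u : O0 q) : Qb)
      rw [mul_one, hzu, zpow_natCast]
    · refine ⟨((u : O0 q), ⟨((q : ℕ) : O0 q) ^ n,
        mem_nonZeroDivisors_of_ne_zero (pow_ne_zero _ p_ne_zero)⟩), Subtype.ext ?_⟩
      show (z : Qb) * ((q : ℕ) : Qb) ^ n = ((u : O0 q) : Qb)
      rw [hzu, zpow_neg, zpow_natCast]
      field_simp
  exists_of_eq := by
    intro x y h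
    refine ⟨1, ?_⟩
    rw [OneMemClass.coe_one, one_mul, one_mul]
    have h1 : ((algebraMap (O0 q) (Fx (Iq q)) x : Fx (Iq q)) : Qb) =
      ((algebraMap (O0 q) (Fx (Iq q)) y : Fx (Iq q)) : Qb) := congrArg Subtype.val h
    exact Subtype.ext h1

end Fermat.Agent.S44.Mod
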