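import Fermat.Agent.S33.Rat.Api
import Fermat.Agent.S34.Mod.Core
import Fermat.Agent.S44.Mod.O0

/-!
# S44 / MOD : the `K₀`-rational chart rings of `X₀(M1 p)`          (helper14, owner of S44/MOD)

`q = p`, `A = AA q`, `I = Iq q`, `K₀ = Qb^I`, `F = FN (M1 p)`, `S : Setup M1 p r A` (`r ∈ {2,3}`, `r ∣ M1`, `p ∤ M1`).

* `EE q M1 = ratF (M1 p) I`          : the `K₀`-rational functions (a subfield of `F`);
* `BB S b = C0 A (θM b) F ∩ E`       : the rational chart ring (`b = false`: chart `t`, `b = true`: chart `1/t`), a subring of `E`;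
* `r1 S b, r2 S b : BB S b → k((Q))` : reduction on the two components;
* `O0 q = A ∩ K₀`                    : a subring of `Kb` (helper5's `Mod/O0.lean`: DVR with uniformiser `p`);
* `cE`, `thE`, `phi S b : (O0 q)[X] → E` : constants, the coordinate `θ = t^{±1}`, evaluation at the coordinate.
-/

set_option autoImplicit false
set_option synthInstance.maxHeartbeats 400000

open HahnSeries ModularCurve AlgebraicCurve Polynomial Fermat.Agent.S24 Fermat.Agent.S29 Fermat.Agent.S18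
  Fermat.Agent.ES Fermat.Agent.ES.Alg Fermat.Agent.S34.Mod Fermat.Agent.S05 Fermat.Agent.S55.B ExtCitation
  Fermat.Agent.S33
open Fermat.Agent.S55 (Dq Iq)

noncomputable section

namespace Fermat.Agent.S44.Mod

/-- the `K₀`-rational functions of level `M1 p` -/
abbrev EE (q : Nat.Primes) (M1 : ℕ) [NeZero M1] [NeZero (q : ℕ)] : Subfield (FN (M1 * (q : ℕ))) :=
  ratF (M1 * (q : ℕ)) (Iq q)

/-- `O₀ → A` -/
def O0.toA (q : Nat.Primes) : O0 q →+* AA q where
  toFun a := ⟨a.1, a.2.1⟩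
  map_one' := rfl
  map_mul' _ _ := rfl
  map_zero' := rfl
  map_add' _ _ := rfl

variable {q : Nat.Primes} {M1 r : ℕ} [NeZero M1] [NeZero (q : ℕ)] [NeZero r]

/-- constants `O₀ → E` -/
def cE (q : Nat.Primes) (M1 : ℕ) [NeZero M1] [NeZero (q : ℕ)] : O0 q →+* EE q M1 where
  toFun a := ⟨algebraMap Kb (FN (M1 * (q : ℕ))) a.1, fun σ hσ => by
    rw [gal_algebraMap, a.2.2 σ hσ]⟩
  map_one' := Subtype.ext (map_one _)
  map_mul' _ _ := Subtype.ext (map_mul _ _ _)
  map_zero' := Subtype.ext (map_zero _)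
  map_add' _ _ := Subtype.ext (map_add _ _ _)

variable (S : Setup M1 (q : ℕ) r (AA q))

/-- the rational chart ring -/
def BB (b : Bool) : Subring (EE q M1) :=
  (KL.C0 (AA q) (S.θM b) (FN (M1 * (q : ℕ)))).comap (EE q M1).subtype

theorem mem_BB {b : Bool} {x : EE q M1} :
    x ∈ BB S b ↔ (x : FN (M1 * (q : ℕ))) ∈ KL.C0 (AA q) (S.θM b) (FN (M1 * (q : ℕ))) := Iff.rfl

/-- `B → C0` -/
def inc (b : Bool) : BB S b →+* KL.C0 (AA q) (S.θM b) (FN (M1 * (q : ℕ))) where
  toFun x := ⟨x.1.1, x.2⟩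
  map_one' := rfl
  map_mul' _ _ := rfl
  map_zero' := rfl
  map_add' _ _ := rfl

/-- reduction on the component `∞` -/
def r1 (b : Bool) : BB S b →+* LaurentSeries (kA (AA q)) := (ρ1 S b).comp (inc S b)

/-- reduction on the component `0` -/
def r2 (b : Bool) : BB S b →+* LaurentSeries (kA (AA q)) := (ρ2 S b).comp (inc S b)

/-- the coordinate `θ = t^{±1}` of the chart, in `F` -/
def thF (b : Bool) : FN (M1 * (q : ℕ)) := algebraMap S.LM (FN (M1 * (q : ℕ))) (S.θM b)

theorem evE_X_eq_thF (b : Bool) :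
    KL.evE (AA q) (S.θM b) (FN (M1 * (q : ℕ))) X = thF S b := by
  rw [KL.evE_apply, KL.evL]
  simp [thF]

theorem thF_mem_EE (b : Bool) : thF S b ∈ EE q M1 := by
  intro σ hσ
  have h := act_gal_evE S (mem_decomp_of_mem_inertia hσ) b X
  rw [Polynomial.map_X, evE_X_eq_thF] at h
  exact h

/-- the coordinate `θ = t^{±1}` of the chart, in `E` -/
def thE (b : Bool) : EE q M1 := ⟨thF S b, thF_mem_EE S b⟩

/-- evaluation `O₀[X] → E`, `X ↦ θ` -/
def phi (b : Bool) : (O0 q)[X] →+* EE q M1 := Polynomial.eval₂RingHom (cE q M1) (thE S b)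

theorem coe_phi (b : Bool) (P : (O0 q)[X]) :
    ((phi S b P : EE q M1) : FN (M1 * (q : ℕ))) =
      KL.evE (AA q) (S.θM b) (FN (M1 * (q : ℕ))) (P.map (O0.toA q)) := by
  have h : ((EE q M1).subtype).comp (phi S b) =
      (KL.evE (AA q) (S.θM b) (FN (M1 * (q : ℕ)))).comp (Polynomial.mapRingHom (O0.toA q)) := by
    apply Polynomial.ringHom_ext
    · intro a
      simp only [RingHom.comp_apply, coe_mapRingHom, Polynomial.map_C]
      rw [KL.SatB.evE_C]
      simp [phi, cE, O0.toA]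
    · simp only [RingHom.comp_apply, coe_mapRingHom, Polynomial.map_X]
      rw [evE_X_eq_thF]
      simp [phi, thE]
  exact congrArg (fun f => f P) h

theorem phi_mem_BB (b : Bool) (P : (O0 q)[X]) : phi S b P ∈ BB S b := by
  rw [mem_BB, coe_phi]
  exact KL.evE_mem_C0 _ _ _ _

end Fermat.Agent.S44.Mod
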