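import Fermat.Agent.S34.Mod.Core

/-!
# S44 / MOD-CUSP, part 1 : the valuation ring `VC A = {f ∈ Kb((q)) | ord f ≥ 0, f(0) ∈ A}`      (helper14)

* `VC A : ValuationSubring (LaurentSeries Kb)`, `mem_VC`;
* `evC A : VC A →+* kA A`, `f ↦ f(0) mod 𝔪`;
* `VC_closed` : an element of `Kb((q))` which is integral over a ring mapping to `VC A` lies in `VC A`.
-/

set_option autoImplicit false
set_option synthInstance.maxHeartbeats 400000

open HahnSeries ModularCurve AlgebraicCurve Polynomial Fermat.Agent.S24 Fermat.Agent.S29 Fermat.Agent.S18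
  Fermat.Agent.ES Fermat.Agent.ES.Alg

noncomputable section

namespace Fermat.Agent.S44.Mod

theorem coeff_mul_low {R : Type*} [CommRing R] {f g : LaurentSeries R}
    (hf : ∀ n : ℤ, n < 0 → f.coeff n = 0) (hg : ∀ n : ℤ, n < 0 → g.coeff n = 0) :
    (∀ n : ℤ, n < 0 → (f * g).coeff n = 0) ∧ (f * g).coeff 0 = f.coeff 0 * g.coeff 0 := by
  constructor
  · intro n hn
    rw [HahnSeries.coeff_mul]
    refine Finset.sum_eq_zero ?_
    rintro ⟨i, j⟩ hij
    rw [Finset.mem_antidiagonal] at hij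
    have h3 : i + j = n := hij.2.2
    by_cases h1 : i < 0
    · rw [hf i h1, zero_mul]
    · rw [hg j (by omega), mul_zero]
  · rw [HahnSeries.coeff_mul, Finset.sum_eq_single ((0 : ℤ), (0 : ℤ))]
    · rintro ⟨i, j⟩ hij hne
      rw [Finset.mem_antidiagonal] at hij
      have h3 : i + j = 0 := hij.2.2
      by_cases h1 : i < 0
      · rw [hf i h1, zero_mul]
      · by_cases h2 : j < 0
        · rw [hg j h2, mul_zero]
        · exfalso
          apply hne
          have : i = 0 := by omega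
          have : j = 0 := by omega
          simp [*]
    · intro h
      rw [Finset.mem_antidiagonal] at h
      by_contra hne
      apply h
      refine ⟨fun h0 => hne ?_, fun h0 => hne ?_, by simp⟩
      · rw [h0, zero_mul]
      · rw [h0, mul_zero]

variable (A : ValuationSubring Kb)

theorem vc_inv {x : LaurentSeries Kb} (hx : x ≠ 0) :
    x⁻¹.order = - x.order ∧ x⁻¹.leadingCoeff = (x.leadingCoeff)⁻¹ := by
  have hx' : x⁻¹ ≠ 0 := inv_ne_zero hx
  have h1 : x * x⁻¹ = 1 := mul_inv_cancel₀ hx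
  constructor
  · have h2 := HahnSeries.order_mul hx hx'
    rw [h1, HahnSeries.order_one] at h2
    omega
  · have h2 := HahnSeries.leadingCoeff_mul x x⁻¹
    rw [h1, HahnSeries.leadingCoeff_one] at h2
    exact eq_inv_of_mul_eq_one_right h2.symm

/-- `{f | ord f ≥ 0, f(0) ∈ A}` -/
def VC : ValuationSubring (LaurentSeries Kb) where
  carrier := {f | (∀ n : ℤ, n < 0 → f.coeff n = 0) ∧ f.coeff 0 ∈ A}
  mul_mem' := fun {f g} hf hg => by
    obtain ⟨h1, h2⟩ := coeff_mul_low hf.1 hg.1
    exact ⟨h1, by rw [h2]; exact mul_mem hf.2 hg.2⟩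
  one_mem' := ⟨fun n hn => by rw [HahnSeries.coeff_one, if_neg hn.ne], by
    rw [HahnSeries.coeff_one, if_pos rfl]; exact one_mem _⟩
  add_mem' := fun {f g} hf hg => ⟨fun n hn => by
    rw [HahnSeries.coeff_add, hf.1 n hn, hg.1 n hn, add_zero], by
    rw [HahnSeries.coeff_add]; exact add_mem hf.2 hg.2⟩
  zero_mem' := ⟨fun n _ => rfl, zero_mem _⟩
  neg_mem' := fun {f} hf => ⟨fun n hn => by rw [HahnSeries.coeff_neg, hf.1 n hn, neg_zero], by
    rw [HahnSeries.coeff_neg]; exact neg_mem hf.2⟩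
  mem_or_inv_mem' := fun x => by
    by_cases hx : x = 0
    · left
      rw [hx]
      exact ⟨fun n _ => rfl, zero_mem _⟩
    obtain ⟨ho, hl⟩ := vc_inv hx
    rcases lt_trichotomy x.order 0 with h | h | h
    · right
      have h0 : ∀ n : ℤ, n ≤ 0 → x⁻¹.coeff n = 0 := fun n hn =>
        HahnSeries.coeff_eq_zero_of_lt_order (by rw [ho]; omega)
      exact ⟨fun n hn => h0 n hn.le, by rw [h0 0 le_rfl]; exact zero_mem _⟩
    · have e1 : x.coeff 0 = x.leadingCoeff := by rw [HahnSeries.leadingCoeff_eq, h]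
      have e2 : x⁻¹.coeff 0 = x⁻¹.leadingCoeff := by rw [HahnSeries.leadingCoeff_eq, ho, h, neg_zero]
      rcases A.mem_or_inv_mem x.leadingCoeff with h3 | h3
      · left
        exact ⟨fun n hn => HahnSeries.coeff_eq_zero_of_lt_order (by rw [h]; exact hn), by
          rw [e1]; exact h3⟩
      · right
        exact ⟨fun n hn => HahnSeries.coeff_eq_zero_of_lt_order (by rw [ho, h]; simpa using hn), by
          rw [e2, hl]; exact h3⟩
    · left
      have h0 : ∀ n : ℤ, n ≤ 0 → x.coeff n = 0 := fun n hn =>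
        HahnSeries.coeff_eq_zero_of_lt_order (by omega)
      exact ⟨fun n hn => h0 n hn.le, by rw [h0 0 le_rfl]; exact zero_mem _⟩

variable {A}

theorem mem_VC {f : LaurentSeries Kb} :
    f ∈ VC A ↔ (∀ n : ℤ, n < 0 → f.coeff n = 0) ∧ f.coeff 0 ∈ A := Iff.rfl

variable (A)

/-- the value at `q = 0`, modulo `𝔪` -/
def evC : VC A →+* kA A where
  toFun f := IsLocalRing.residue A ⟨f.1.coeff 0, f.2.2⟩
  map_one' := by
    rw [← map_one (IsLocalRing.residue A)]
    congr 1
    apply Subtype.ext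
    show (1 : LaurentSeries Kb).coeff 0 = 1
    rw [HahnSeries.coeff_one, if_pos rfl]
  map_mul' f g := by
    rw [← map_mul (IsLocalRing.residue A)]
    congr 1
    apply Subtype.ext
    exact (coeff_mul_low f.2.1 g.2.1).2
  map_zero' := by
    rw [← map_zero (IsLocalRing.residue A)]
    congr 1
  map_add' f g := by
    rw [← map_add (IsLocalRing.residue A)]
    congr 1

theorem evC_apply (f : VC A) : evC A f = IsLocalRing.residue A ⟨f.1.coeff 0, f.2.2⟩ := rfl

variable {A}

/-- `VC A` is integrally closed in `Kb((q))` -/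
theorem VC_closed {R : Type*} [CommRing R] (f : R →+* LaurentSeries Kb) (hf : ∀ a, f a ∈ VC A)
    {x : LaurentSeries Kb} (hx : f.IsIntegralElem x) : x ∈ VC A := by
  obtain ⟨p, hp, hpx⟩ := hx
  have h1 : IsIntegral (VC A) x := by
    let f' : R →+* VC A := f.codRestrict (VC A).toSubring hf
    refine ⟨p.map f', hp.map f', ?_⟩
    rw [eval₂_map]
    exact hpx
  obtain ⟨y, hy⟩ := (IsIntegrallyClosed.isIntegral_iff (R := VC A) (K := LaurentSeries Kb)).mp h1
  rw [← hy]
  exact y.2

/-- constants -/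
theorem C_mem_VC (a : A) : (HahnSeries.C (a : Kb) : LaurentSeries Kb) ∈ VC A :=
  ⟨fun n hn => by rw [HahnSeries.C_apply, HahnSeries.coeff_single_of_ne hn.ne], by
    rw [HahnSeries.C_apply, HahnSeries.coeff_single_same]; exact a.2⟩

/-- series vanishing at `q = 0` -/
theorem mem_VC_of_pos {f : LaurentSeries Kb} (h : ∀ n : ℤ, n ≤ 0 → f.coeff n = 0) : f ∈ VC A :=
  ⟨fun n hn => h n hn.le, by rw [h 0 le_rfl]; exact zero_mem _⟩

theorem evC_of_pos {f : LaurentSeries Kb} (h : ∀ n : ℤ, n ≤ 0 → f.coeff n = 0) :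
    evC A ⟨f, mem_VC_of_pos h⟩ = 0 := by
  rw [evC_apply, ← map_zero (IsLocalRing.residue A)]
  congr 1
  exact Subtype.ext (h 0 le_rfl)

end Fermat.Agent.S44.Mod
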