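import Mathlib

/-!
# S44 / MOD : Galois descent for function fields (abstract, Mathlib only)        keys `S44/MOD-FIX`, `S44/MOD-FIN`

`F` a field, `act : G → F →+* F` any family of ring endomorphisms ("the inertia group acting on `F = FN N`").

* `exists_fixed_rel` : `L ⊆ F` a subfield stable under `act`, `e i ∈ F` fixed by `act`.  A nontrivial linear relation
  `∑ a i * e i = 0` with coefficients in `L` gives a nontrivial one with coefficients in `L^G`   (relation of minimal support).
* `exists_fixed_frac` (MOD-FIX) : `K → F`, `act` semilinear over `act0 : G → K →+* K`, `t ∈ F^G` transcendental over `K`: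
  every `x ∈ K(t)` fixed by `act` is `P'(t) / Q'(t)` with `P', Q'` with coefficients in `K0 = K^G`.
* `finite_of_fixed` (MOD-FIN) : `[F : L] < ∞`, `E ⊆ F^G` a subfield, `K1 → E` a field whose image contains `L^G`: `[E : K1] < ∞`
  (`finrank_le_of_fixed` : `[E : K1] ≤ [F : L]`).
-/

set_option autoImplicit false

open Polynomial

namespace Fermat.Agent.S44.Mod.Desc

variable {F : Type*} [Field F] {G : Type*} (act : G → F →+* F)

/-- a nontrivial relation over `L` between invariant elements gives a nontrivial invariant relation -/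
theorem exists_fixed_rel (L : Subfield F) (hL : ∀ g, ∀ x ∈ L, act g x ∈ L) {ι : Type*} [Fintype ι]
    (e : ι → F) (he : ∀ g i, act g (e i) = e i)
    (a : ι → F) (haL : ∀ i, a i ∈ L) (hrel : ∑ i, a i * e i = 0) (ha0 : a ≠ 0) :
    ∃ b : ι → F, (∀ i, b i ∈ L) ∧ (∀ g i, act g (b i) = b i) ∧ ∑ i, b i * e i = 0 ∧ b ≠ 0 := by
  classical
  let Pn : ℕ → Prop := fun n => ∃ a : ι → F, (∀ i, a i ∈ L) ∧ ∑ i, a i * e i = 0 ∧ a ≠ 0 ∧
    (Finset.univ.filter fun i => a i ≠ 0).card = n
  have hex : ∃ n, Pn n := ⟨_, a, haL, hrel, ha0, rfl⟩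
  have hmin : ∀ a' : ι → F, (∀ i, a' i ∈ L) → ∑ i, a' i * e i = 0 →
      (Finset.univ.filter fun i => a' i ≠ 0).card < Nat.find hex → a' = 0 := by
    intro a' h1 h2 h3
    by_contra h4
    exact Nat.find_min hex h3 ⟨a', h1, h2, h4, rfl⟩
  obtain ⟨a, haL, hrel, ha0, hcard⟩ := Nat.find_spec hex
  obtain ⟨i0, hi0⟩ : ∃ i0, a i0 ≠ 0 := by
    by_contra hcon
    exact ha0 (funext fun i => by_contra fun hi => hcon ⟨i, hi⟩)
  let b : ι → F := fun i => a i * (a i0)⁻¹
  have hb0 : b i0 = 1 := mul_inv_cancel₀ hi0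
  have hbL : ∀ i, b i ∈ L := fun i => L.mul_mem (haL i) (L.inv_mem (haL i0))
  have hbrel : ∑ i, b i * e i = 0 := by
    have : ∑ i, b i * e i = (∑ i, a i * e i) * (a i0)⁻¹ := by
      rw [Finset.sum_mul]
      exact Finset.sum_congr rfl fun i _ => by simp only [b]; ring
    rw [this, hrel, zero_mul]
  refine ⟨b, hbL, fun g i => ?_, hbrel, fun h => ?_⟩
  · have h1 : (fun i => act g (b i) - b i) = 0 := by
      apply hmin
      · exact fun i => L.sub_mem (hL g _ (hbL i)) (hbL i)
      · have h2 : ∑ i, act g (b i) * e i = 0 := by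
          have := congrArg (act g) hbrel
          rw [map_sum, map_zero] at this
          rw [← this]
          exact Finset.sum_congr rfl fun i _ =>
            (((act g).map_mul (b i) (e i)).trans (by rw [he])).symm
        simp only [sub_mul, Finset.sum_sub_distrib, h2, hbrel, sub_zero]
      · rw [← hcard]
        apply Finset.card_lt_card
        rw [Finset.ssubset_iff_of_subset]
        · exact ⟨i0, by simp [hi0], by simp [hb0]⟩
        · intro i hi
          simp only [Finset.mem_filter, Finset.mem_univ, true_and] at hi ⊢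
          intro hai
          apply hi
          simp [b, hai]
    exact sub_eq_zero.mp (congrFun h1 i)
  · have := congrFun h i0
    rw [hb0] at this
    exact one_ne_zero this

section Frac

variable {K : Type*} [Field K] [Algebra K F] (act0 : G → K →+* K)

/-- the fixed field of the base -/
def K0 : Subfield K where
  carrier := {c | ∀ g, act0 g c = c}
  mul_mem' := fun {a b} ha hb g => by rw [map_mul, ha g, hb g]
  one_mem' := fun g => map_one _
  add_mem' := fun {a b} ha hb g => by rw [map_add, ha g, hb g]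
  zero_mem' := fun g => map_zero _
  neg_mem' := fun {a} ha g => by rw [map_neg, ha g]
  inv_mem' := fun a ha g => by rw [map_inv₀, ha g]

theorem mem_K0 {c : K} : c ∈ K0 act0 ↔ ∀ g, act0 g c = c := Iff.rfl

theorem coeff_sum_C_mul_X_pow {R : Type*} [Semiring R] (d : ℕ) (c : Fin d → R) (n : ℕ) :
    (∑ i : Fin d, C (c i) * X ^ (i : ℕ)).coeff n = if h : n < d then c ⟨n, h⟩ else 0 := by
  rw [finsetSum_coeff]
  simp only [coeff_C_mul_X_pow]
  split_ifs with h
  · rw [Finset.sum_eq_single (⟨n, h⟩ : Fin d)]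
    · simp
    · intro i _ hi
      rw [if_neg]
      intro hn
      exact hi (Fin.ext hn.symm)
    · intro hn
      exact absurd (Finset.mem_univ _) hn
  · refine Finset.sum_eq_zero fun i _ => ?_
    rw [if_neg]
    intro hn
    exact h (hn ▸ i.2)

theorem aeval_sum_C_mul_X_pow (t : F) (d : ℕ) (c : Fin d → K) :
    aeval t (∑ i : Fin d, C (c i) * X ^ (i : ℕ)) = ∑ i : Fin d, algebraMap K F (c i) * t ^ (i : ℕ) := by
  rw [map_sum]
  exact Finset.sum_congr rfl fun i _ => by rw [map_mul, aeval_C, map_pow, aeval_X]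

theorem aeval_eq_sum_fin (t : F) (P : K[X]) {d : ℕ} (hd : P.natDegree < d) :
    aeval t P = ∑ i : Fin d, algebraMap K F (P.coeff i) * t ^ (i : ℕ) := by
  rw [aeval_eq_sum_range' hd, ← Fin.sum_univ_eq_sum_range (fun i => P.coeff i • t ^ i) d]
  exact Finset.sum_congr rfl fun i _ => Algebra.smul_def _ _

/-- **MOD-FIX** : `K(t)^G = K0(t)` -/
theorem exists_fixed_frac (hact : ∀ g c, act g (algebraMap K F c) = algebraMap K F (act0 g c))
    (t : F) (ht : ∀ g, act g t = t) (htr : Transcendental K t) (x : F) (hx : ∀ g, act g x = x)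
    (P Q : K[X]) (hQ : Q ≠ 0) (hxe : x * aeval t Q = aeval t P) :
    ∃ P' Q' : K[X], (∀ n, P'.coeff n ∈ K0 act0) ∧ (∀ n, Q'.coeff n ∈ K0 act0) ∧ Q' ≠ 0 ∧
      x * aeval t Q' = aeval t P' := by
  classical
  set d := max P.natDegree Q.natDegree + 1 with hd
  have hPd : P.natDegree < d := by rw [hd]; exact Nat.lt_succ_of_le (le_max_left _ _)
  have hQd : Q.natDegree < d := by rw [hd]; exact Nat.lt_succ_of_le (le_max_right _ _)
  let e : Fin d ⊕ Fin d → F := Sum.elim (fun i => x * t ^ (i : ℕ)) (fun j => t ^ (j : ℕ))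
  let a : Fin d ⊕ Fin d → F := Sum.elim (fun i => algebraMap K F (Q.coeff i))
    (fun j => - algebraMap K F (P.coeff j))
  have he : ∀ g i, act g (e i) = e i := by
    rintro g (i | j)
    · show act g (x * t ^ (i : ℕ)) = x * t ^ (i : ℕ)
      rw [map_mul, map_pow, hx, ht]
    · show act g (t ^ (j : ℕ)) = t ^ (j : ℕ)
      rw [map_pow, ht]
  have hL : ∀ g, ∀ y ∈ (algebraMap K F).fieldRange, act g y ∈ (algebraMap K F).fieldRange := by
    rintro g _ ⟨c, rfl⟩
    exact ⟨act0 g c, (hact g c).symm⟩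
  have haL : ∀ i, a i ∈ (algebraMap K F).fieldRange := by
    rintro (i | j)
    · exact ⟨_, rfl⟩
    · exact ⟨- P.coeff j, map_neg _ _⟩
  have hrel : ∑ i, a i * e i = 0 := by
    rw [Fintype.sum_sum_type]
    show ∑ i : Fin d, algebraMap K F (Q.coeff i) * (x * t ^ (i : ℕ)) +
      ∑ j : Fin d, - algebraMap K F (P.coeff j) * t ^ (j : ℕ) = 0
    have h1 : ∑ i : Fin d, algebraMap K F (Q.coeff i) * (x * t ^ (i : ℕ)) = x * aeval t Q := by
      rw [aeval_eq_sum_fin t Q hQd, Finset.mul_sum]
      exact Finset.sum_congr rfl fun i _ => by ring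
    have h2 : ∑ j : Fin d, - algebraMap K F (P.coeff j) * t ^ (j : ℕ) = - aeval t P := by
      rw [aeval_eq_sum_fin t P hPd, ← Finset.sum_neg_distrib]
      exact Finset.sum_congr rfl fun i _ => by ring
    rw [h1, h2, hxe, add_neg_cancel]
  have ha0 : a ≠ 0 := by
    intro h
    have h1 := congrFun h (Sum.inl ⟨Q.natDegree, hQd⟩)
    have h2 : algebraMap K F (Q.coeff Q.natDegree) = 0 := h1
    rw [map_eq_zero] at h2
    exact hQ (leadingCoeff_eq_zero.mp h2)
  obtain ⟨b, hbL, hbfix, hbrel, hb0⟩ := exists_fixed_rel act _ hL e he a haL hrel ha0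
  choose c hc using hbL
  have hcK : ∀ i, c i ∈ K0 act0 := by
    intro i g
    apply (algebraMap K F).injective
    rw [← hact, hc, hbfix]
  let Q' : K[X] := ∑ i : Fin d, C (c (Sum.inl i)) * X ^ (i : ℕ)
  let P' : K[X] := ∑ j : Fin d, C (- c (Sum.inr j)) * X ^ (j : ℕ)
  have hQ'c : ∀ n, Q'.coeff n = if h : n < d then c (Sum.inl ⟨n, h⟩) else 0 :=
    coeff_sum_C_mul_X_pow d _
  have hP'c : ∀ n, P'.coeff n = if h : n < d then - c (Sum.inr ⟨n, h⟩) else 0 :=
    coeff_sum_C_mul_X_pow d _
  have hmain : x * aeval t Q' = aeval t P' := by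
    rw [Fintype.sum_sum_type] at hbrel
    have h1 : x * aeval t Q' = ∑ i : Fin d, b (Sum.inl i) * e (Sum.inl i) := by
      rw [aeval_sum_C_mul_X_pow, Finset.mul_sum]
      refine Finset.sum_congr rfl fun i _ => ?_
      show _ = b (Sum.inl i) * (x * t ^ (i : ℕ))
      rw [hc]; ring
    have h2 : aeval t P' = - ∑ j : Fin d, b (Sum.inr j) * e (Sum.inr j) := by
      rw [aeval_sum_C_mul_X_pow, ← Finset.sum_neg_distrib]
      refine Finset.sum_congr rfl fun j _ => ?_
      show _ = - (b (Sum.inr j) * t ^ (j : ℕ))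
      rw [map_neg, hc]; ring
    rw [h1, h2]
    exact eq_neg_of_add_eq_zero_left hbrel
  refine ⟨P', Q', fun n => ?_, fun n => ?_, fun hQ0 => ?_, hmain⟩
  · rw [hP'c]
    split_ifs
    · exact (K0 act0).neg_mem (hcK _)
    · exact (K0 act0).zero_mem
  · rw [hQ'c]
    split_ifs
    · exact hcK _
    · exact (K0 act0).zero_mem
  · have hP0 : P' = 0 := by
      rw [hQ0, map_zero, mul_zero] at hmain
      exact (transcendental_iff.mp htr) P' hmain.symm
    apply hb0
    funext i
    rw [← hc]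
    rcases i with i | j
    · have := hQ'c i
      rw [hQ0, coeff_zero, dif_pos i.2] at this
      show algebraMap K F (c (Sum.inl i)) = 0
      rw [show (Sum.inl i : Fin d ⊕ Fin d) = Sum.inl ⟨(i : ℕ), i.2⟩ from rfl, ← this, map_zero]
    · have := hP'c j
      rw [hP0, coeff_zero, dif_pos j.2] at this
      show algebraMap K F (c (Sum.inr j)) = 0
      have h3 : c (Sum.inr ⟨(j : ℕ), j.2⟩) = 0 := neg_eq_zero.mp this.symm
      rw [show (Sum.inr j : Fin d ⊕ Fin d) = Sum.inr ⟨(j : ℕ), j.2⟩ from rfl, h3, map_zero]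

end Frac

section Fin

variable (L : Subfield F) (E : Subfield F) {K1 : Type*} [Field K1] [Algebra K1 E]

/-- families of `E` which are independent over `K1` are independent over `L` -/
theorem linearIndependent_of_fixed (hL : ∀ g, ∀ x ∈ L, act g x ∈ L)
    (hE : ∀ x ∈ E, ∀ g, act g x = x)
    (hK1 : ∀ x ∈ L, (∀ g, act g x = x) → ∃ y : K1, ((algebraMap K1 E y : E) : F) = x)
    {ι : Type*} [Fintype ι] (v : ι → E) (hv : LinearIndependent K1 v) :
    LinearIndependent L (fun i => ((v i : E) : F)) := by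
  classical
  rw [Fintype.linearIndependent_iff]
  intro g hg
  by_contra hcon
  obtain ⟨i1, hi1⟩ := not_forall.mp hcon
  have hrel : ∑ i, ((g i : L) : F) * ((v i : E) : F) = 0 := by
    rw [← hg]
    exact Finset.sum_congr rfl fun i _ => rfl
  obtain ⟨b, hbL, hbfix, hbrel, hb0⟩ := exists_fixed_rel act L hL (fun i => ((v i : E) : F))
    (fun γ i => hE _ (v i).2 γ) (fun i => ((g i : L) : F)) (fun i => (g i).2) hrel
    (fun h => hi1 (Subtype.ext (congrFun h i1)))
  choose y hy using fun i => hK1 (b i) (hbL i) (fun γ => hbfix γ i)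
  have h1 : ∑ i, y i • v i = 0 := by
    apply Subtype.ext
    rw [Subfield.coe_zero, ← hbrel]
    have : ((∑ i, y i • v i : E) : F) = ∑ i, ((y i • v i : E) : F) := map_sum E.subtype _ _
    rw [this]
    refine Finset.sum_congr rfl fun i _ => ?_
    rw [Algebra.smul_def, ← hy]
    rfl
  have h2 := Fintype.linearIndependent_iff.mp hv y h1
  apply hb0
  funext i
  rw [← hy, h2, map_zero]
  rfl

theorem card_le_of_fixed [FiniteDimensional L F] (hL : ∀ g, ∀ x ∈ L, act g x ∈ L)
    (hE : ∀ x ∈ E, ∀ g, act g x = x)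
    (hK1 : ∀ x ∈ L, (∀ g, act g x = x) → ∃ y : K1, ((algebraMap K1 E y : E) : F) = x)
    (s : Finset E) (hs : LinearIndependent K1 (fun i : s => (i : E))) :
    s.card ≤ Module.finrank L F := by
  have h := linearIndependent_of_fixed act L E hL hE hK1 (fun i : s => (i : E)) hs
  have := h.fintype_card_le_finrank
  rwa [Fintype.card_coe] at this

/-- **MOD-FIN** -/
theorem finite_of_fixed [FiniteDimensional L F] (hL : ∀ g, ∀ x ∈ L, act g x ∈ L)
    (hE : ∀ x ∈ E, ∀ g, act g x = x)
    (hK1 : ∀ x ∈ L, (∀ g, act g x = x) → ∃ y : K1, ((algebraMap K1 E y : E) : F) = x) :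
    FiniteDimensional K1 E := by
  have h : Module.rank K1 E ≤ (Module.finrank L F : ℕ) :=
    rank_le fun s hs => card_le_of_fixed act L E hL hE hK1 s hs
  exact Module.rank_lt_aleph0_iff.mp (lt_of_le_of_lt h (Cardinal.natCast_lt_aleph0))

end Fin

end Fermat.Agent.S44.Mod.Desc
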