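import Fermat.Agent.S44.Mod.O0b
import Fermat.Agent.S44.Mod.Descent

/-!
# S44 / MOD-FIN : `E` is finite over `K₀(θ)`          key `S44/MOD-FIN`

PROOFS.  (helper5's abstract `Mod/Descent.lean` -- `exists_fixed_rel`, `linearIndependent_of_fixed`, `finite_of_fixed` -- may be used instead.)
* `dep_descent` (Artin): among all nontrivial relations `∑ a i • y i = 0` (`a i ∈ Kb`) take one with a minimal number of nonzero coefficients (strong induction on the cardinality of the support),
  normalise `a i₀ = 1`.  For `σ ∈ Iq q` apply `gal _ σ` (`gal_algebraMap`, `y i` fixed): `∑ σ(a i) • y i = 0`; the difference is a relation with smaller support, so it is trivial: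
  `σ (a i) = a i`.  Multiply by a power of `q` (`exists_pow_mul_mem_O0`, maximum of the exponents) to get coefficients in `O₀`.
* `phi_injective`: `coe_phi`, `KL`: `evE` is injective because `θM b` is transcendental (`ch5_transcendental S b`; see `BasisAux.evE_ne_zero` in S18/S34), `Polynomial.map_injective`.
* `exists_dep`: `n + 1` elements of `F` are dependent over `S.LM` (`n = finrank`); clear denominators with `ch5_isGen S b` (`KL.IsGen`): `∑ i, (aeval θ (c i)) x i = 0`, `c i ∈ Kb[X]` not all `0`;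
  this is a `Kb`-relation between the `θ^j x i` (`j ≤ d`), index set `Fin (n+1) × Fin (d+1)` (reindex to `Fin _`); `dep_descent`.
-/

set_option autoImplicit false
set_option synthInstance.maxHeartbeats 400000

open HahnSeries ModularCurve AlgebraicCurve Polynomial Fermat.Agent.S24 Fermat.Agent.S29 Fermat.Agent.S18
  Fermat.Agent.ES Fermat.Agent.ES.Alg Fermat.Agent.S34.Mod Fermat.Agent.S05 Fermat.Agent.S55.B ExtCitation
  Fermat.Agent.S33
open Fermat.Agent.S55 (Dq Iq)

noncomputable section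

namespace Fermat.Agent.S44.Mod

variable {q : Nat.Primes} {M1 r : ℕ} [NeZero M1] [NeZero (q : ℕ)] [NeZero r]

/-- rational functions which are dependent over `Kb` are dependent over `O₀` -/
theorem dep_descent {ι : Type} [Fintype ι] (y : ι → EE q M1) (a : ι → Kb) (ha : a ≠ 0)
    (h : ∑ i, algebraMap Kb (FN (M1 * (q : ℕ))) (a i) * (y i : FN (M1 * (q : ℕ))) = 0) :
    ∃ a' : ι → O0 q, a' ≠ 0 ∧ ∑ i, cE q M1 (a' i) * y i = 0 := by
  classical
  have hinj : Function.Injective (algebraMap Kb (FN (M1 * (q : ℕ)))) := (algebraMap Kb _).injective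
  obtain ⟨b, hbL, hbfix, hbrel, hb0⟩ := Desc.exists_fixed_rel
    (G := ↥(Iq q)) (fun g => ((gal (M1 * (q : ℕ)) (g : GQ) : FN (M1 * (q : ℕ)) ≃+* FN (M1 * (q : ℕ))) :
      FN (M1 * (q : ℕ)) →+* FN (M1 * (q : ℕ))))
    (algebraMap Kb (FN (M1 * (q : ℕ)))).fieldRange
    (by
      rintro g x ⟨c, rfl⟩
      exact ⟨(g : GQ) c, (gal_algebraMap _ _).symm⟩)
    (fun i => (y i : FN (M1 * (q : ℕ))))
    (fun g i => (y i).2 g g.2)
    (fun i => algebraMap Kb (FN (M1 * (q : ℕ))) (a i))
    (fun i => ⟨a i, rfl⟩) h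
    (fun h0 => ha (funext fun i => hinj ((congrFun h0 i).trans (map_zero _).symm)))
  choose c hc using hbL
  have hcfix : ∀ i, ∀ σ ∈ Iq q, σ (c i) = c i := by
    intro i σ hσ
    apply hinj
    have := hbfix ⟨σ, hσ⟩ i
    rw [← hc i] at this
    rw [← gal_algebraMap]
    exact this
  choose n hn using fun i => exists_pow_mul_mem_O0 (hcfix i)
  have hmem : ∀ i, ((q : ℕ) : Kb) ^ (∑ j, n j) * c i ∈ O0 q := by
    intro i
    have h1 : n i ≤ ∑ j, n j := Finset.single_le_sum (fun _ _ => Nat.zero_le _) (Finset.mem_univ i)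
    obtain ⟨m, hm⟩ := Nat.exists_eq_add_of_le h1
    rw [hm, add_comm, _root_.pow_add, mul_assoc]
    exact mul_mem (pow_mem q_mem_O0 _) (hn i)
  refine ⟨fun i => ⟨_, hmem i⟩, fun h0 => hb0 (funext fun i => ?_), ?_⟩
  · have h1 : ((q : ℕ) : Kb) ^ (∑ j, n j) * c i = 0 := congrArg Subtype.val (congrFun h0 i)
    have h2 : c i = 0 := by
      rcases mul_eq_zero.1 h1 with h | h
      · exact absurd h (pow_ne_zero _ (q_ne_zero q))
      · exact h
    rw [← hc i, h2, map_zero]; rfl
  · apply Subtype.ext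
    have h1 : ((∑ i, cE q M1 ⟨_, hmem i⟩ * y i : EE q M1) : FN (M1 * (q : ℕ))) =
        algebraMap Kb (FN (M1 * (q : ℕ))) (((q : ℕ) : Kb) ^ (∑ j, n j)) *
          ∑ i, b i * (y i : FN (M1 * (q : ℕ))) := by
      rw [Finset.mul_sum]
      rw [← Subfield.subtype_apply, map_sum]
      refine Finset.sum_congr rfl fun i _ => ?_
      rw [← hc i, ← mul_assoc, ← (algebraMap Kb (FN (M1 * (q : ℕ)))).map_mul]
      rfl
    rw [h1, hbrel, mul_zero]
    rfl

variable (S : Setup M1 (q : ℕ) r (AA q))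

omit [NeZero (q : ℕ)] in
theorem toA_injective : Function.Injective (O0.toA q) := by
  intro a b h
  apply Subtype.ext
  exact congrArg (fun z : AA q => (z : Kb)) h

theorem phi_injective (b : Bool) : Function.Injective (phi S b) := by
  rw [injective_iff_map_eq_zero]
  intro P hP
  by_contra hP0
  have h1 : P.map (O0.toA q) ≠ 0 := by
    intro h
    exact hP0 (Polynomial.map_injective _ toA_injective (by rw [h, Polynomial.map_zero]))
  have h2 := KL.BasisAux.evE_ne_zero (A := AA q) (E := FN (M1 * (q : ℕ))) (ch5_transcendental S b) h1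
  apply h2
  rw [← coe_phi, hP]
  rfl

set_option maxHeartbeats 3200000 in
theorem exists_dep_aux (b : Bool) (n : ℕ) (hn : Module.finrank S.LM (FN (M1 * (q : ℕ))) = n)
    (x : Fin (n + 1) → EE q M1) :
    ∃ P : Fin (n + 1) → (O0 q)[X], P ≠ 0 ∧ ∑ i, phi S b (P i) * x i = 0 := by
  classical
  have hτ := ch5_transcendental S b
  -- a relation over `L`
  have hdep : ¬ LinearIndependent S.LM (fun i => (x i : FN (M1 * (q : ℕ)))) := by
    intro hli
    have := hli.fintype_card_le_finrank
    rw [Fintype.card_fin] at this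
    omega
  rw [Fintype.not_linearIndependent_iff] at hdep
  obtain ⟨g, hg, i0, hi0⟩ := hdep
  -- clear denominators
  choose P Q hQ hPQ using fun i => ch5_isGen S b (g i)
  let c : Fin (n + 1) → Kb[X] := fun i => P i * ∏ j ∈ Finset.univ.erase i, Q j
  have hc : ∀ i, aeval (S.θM b) (c i) = g i * aeval (S.θM b) (∏ j, Q j) := by
    intro i
    rw [← Finset.mul_prod_erase Finset.univ Q (Finset.mem_univ i)]
    simp only [c, map_mul]
    rw [← hPQ i, mul_assoc]
  have hQ0 : aeval (S.θM b) (∏ j, Q j) ≠ 0 := by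
    intro h0
    exact Finset.prod_ne_zero_iff.2 (fun j _ => hQ j) ((transcendental_iff.1 hτ) _ h0)
  have hc0 : c i0 ≠ 0 := by
    intro h0
    have := hc i0
    rw [h0, map_zero] at this
    exact mul_ne_zero hi0 hQ0 this.symm
  have hrel : ∑ i, algebraMap S.LM (FN (M1 * (q : ℕ))) (aeval (S.θM b) (c i)) *
      (x i : FN (M1 * (q : ℕ))) = 0 := by
    have : ∑ i, algebraMap S.LM (FN (M1 * (q : ℕ))) (aeval (S.θM b) (c i)) *
        (x i : FN (M1 * (q : ℕ))) =
        algebraMap S.LM (FN (M1 * (q : ℕ))) (aeval (S.θM b) (∏ j, Q j)) *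
          ∑ i, g i • (x i : FN (M1 * (q : ℕ))) := by
      rw [Finset.mul_sum]
      refine Finset.sum_congr rfl fun i _ => ?_
      rw [hc i, map_mul, Algebra.smul_def]
      ring
    rw [this, hg, mul_zero]
  -- the degree bound
  let d : ℕ := (∑ i, (c i).natDegree) + 1
  have hd : ∀ i, (c i).natDegree < d := fun i =>
    Nat.lt_succ_of_le (Finset.single_le_sum (f := fun i => (c i).natDegree)
      (fun _ _ => Nat.zero_le _) (Finset.mem_univ i))
  have hexp : ∀ i, algebraMap S.LM (FN (M1 * (q : ℕ))) (aeval (S.θM b) (c i)) =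
      ∑ j : Fin d, algebraMap Kb (FN (M1 * (q : ℕ))) ((c i).coeff j) * thF S b ^ (j : ℕ) := by
    intro i
    rw [← Desc.aeval_eq_sum_fin (thF S b) (c i) (hd i), thF, Polynomial.aeval_algebraMap_apply]
  obtain ⟨a', ha'0, ha'⟩ := dep_descent (ι := Fin (n + 1) × Fin d)
    (fun ij => thE S b ^ (ij.2 : ℕ) * x ij.1) (fun ij => (c ij.1).coeff ij.2)
    (by
      intro h0
      apply hc0
      ext k
      by_cases hk : k < d
      · exact congrFun h0 (i0, ⟨k, hk⟩)
      · rw [Polynomial.coeff_eq_zero_of_natDegree_lt (lt_of_lt_of_le (hd i0) (not_lt.1 hk))]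
        rfl)
    (by
      rw [Fintype.sum_prod_type, ← hrel]
      refine Finset.sum_congr rfl fun i _ => ?_
      rw [hexp i, Finset.sum_mul]
      refine Finset.sum_congr rfl fun j _ => ?_
      rw [mul_assoc]
      rfl)
  refine ⟨fun i => ∑ j : Fin d, Polynomial.C (a' (i, j)) * X ^ (j : ℕ), fun h0 => ha'0 ?_, ?_⟩
  · funext ⟨i, j⟩
    have h1 : (∑ j : Fin d, Polynomial.C (a' (i, j)) * X ^ (j : ℕ)).coeff (j : ℕ) = 0 := by
      have h2 : (∑ j : Fin d, Polynomial.C (a' (i, j)) * X ^ (j : ℕ)) = 0 := congrFun h0 i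
      rw [h2, Polynomial.coeff_zero]
    rw [Desc.coeff_sum_C_mul_X_pow d (fun j => a' (i, j)), dif_pos j.2] at h1
    exact h1
  · rw [← ha', Fintype.sum_prod_type]
    refine Finset.sum_congr rfl fun i _ => ?_
    rw [map_sum, Finset.sum_mul]
    refine Finset.sum_congr rfl fun j _ => ?_
    have hC : phi S b (Polynomial.C (a' (i, j))) = cE q M1 (a' (i, j)) := by simp [phi]
    have hX : phi S b X = thE S b := by simp [phi]
    rw [map_mul, map_pow, hC, hX, mul_assoc]

theorem exists_dep (b : Bool)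
    (x : Fin (Module.finrank S.LM (FN (M1 * (q : ℕ))) + 1) → EE q M1) :
    ∃ P : Fin (Module.finrank S.LM (FN (M1 * (q : ℕ))) + 1) → (O0 q)[X],
      P ≠ 0 ∧ ∑ i, phi S b (P i) * x i = 0 :=
  exists_dep_aux S b _ rfl x

end Fermat.Agent.S44.Mod
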