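import Fermat.Agent.S44.Mod.Defs
import Fermat.Agent.S33.Rat.H90

/-!
# S44 / MOD-GEN : `F = Kb · E`          key `S44/MOD-GEN`   (helper13)

For every subgroup `H` of `GQ` every modular function is a `Kb`-linear combination of `H`-rational functions (`gen_ratF`); `gen` is the case `H = Iq q`, level `M1 q`,
in the shape of the hypothesis `hgen` of `Alg/Unr.lean`.

Proof.  `x` is fixed by `stab H θ` (`exists_theta_fun`).  `T` = the (finite) `H`-orbit of `θ`; for `θ' = σ θ ∈ T` put `X θ' = gal σ x` (well defined).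
`t_j = ∑_{θ' ∈ T} θ'^j X θ'` is `H`-invariant.  With the Lagrange polynomial `ℓ = ∑ c_j T^j` (`ℓ θ = 1`, `ℓ θ' = 0`): `∑_j c_j t_j = ∑_{θ'} ℓ(θ') X θ' = x`.
-/

set_option autoImplicit false
set_option synthInstance.maxHeartbeats 400000

open HahnSeries ModularCurve AlgebraicCurve Polynomial Fermat.Agent.S24 Fermat.Agent.S29 Fermat.Agent.S18
  Fermat.Agent.ES Fermat.Agent.ES.Alg Fermat.Agent.S34.Mod Fermat.Agent.S05 Fermat.Agent.S55.B ExtCitation
  Fermat.Agent.S33
open Fermat.Agent.S55 (Dq Iq)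

noncomputable section

namespace Fermat.Agent.S44.Mod

section Gen

variable {N : ℕ} [NeZero N] (H : Subgroup GQ) (θ : Kb) (x : FN N)

open Classical in
/-- the conjugate of `x` attached to a conjugate of `θ` -/
def genX (θ' : Kb) : FN N := if h : ∃ σ ∈ H, σ θ = θ' then gal N h.choose x else 0

variable {H θ x}

theorem genX_apply (hx : x ∈ ratF N (stab H θ)) {σ : GQ} (hσ : σ ∈ H) :
    genX H θ x (σ θ) = gal N σ x := by
  have h : ∃ τ ∈ H, τ θ = σ θ := ⟨σ, hσ, rfl⟩
  rw [genX, dif_pos h]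
  obtain ⟨h1, h2⟩ := h.choose_spec
  set τ := h.choose
  have h3 : σ⁻¹ * τ ∈ stab H θ := by
    refine ⟨mul_mem (inv_mem hσ) h1, ?_⟩
    show σ⁻¹ (τ θ) = θ
    rw [h2]
    exact σ.symm_apply_apply θ
  have h4 := hx _ h3
  have h5 : τ = σ * (σ⁻¹ * τ) := by group
  rw [h5, ratfAux_gal_mul, h4]

theorem gal_genX (hx : x ∈ ratF N (stab H θ)) {σ : GQ} (hσ : σ ∈ H) {θ' : Kb}
    (hθ' : ∃ τ ∈ H, τ θ = θ') : gal N σ (genX H θ x θ') = genX H θ x (σ θ') := by
  obtain ⟨τ, hτ, rfl⟩ := hθ'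
  rw [genX_apply hx hτ, ← ratfAux_gal_mul]
  exact (genX_apply hx (mul_mem hσ hτ)).symm

variable (H θ x)

/-- the twisted traces -/
def genT (j : ℕ) : FN N :=
  ∑ θ' ∈ (h90Aux_finite_orbit H θ).toFinset, algebraMap Kb (FN N) (θ' ^ j) * genX H θ x θ'

variable {H θ x}

theorem genT_mem (hx : x ∈ ratF N (stab H θ)) (j : ℕ) : genT H θ x j ∈ ratF N H := by
  classical
  intro σ hσ
  have himg : (h90Aux_finite_orbit H θ).toFinset.image (fun b => σ b) =
      (h90Aux_finite_orbit H θ).toFinset := by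
    refine Finset.eq_of_subset_of_card_le ?_ ?_
    · intro b hb
      obtain ⟨b', hb', rfl⟩ := Finset.mem_image.mp hb
      rw [Set.Finite.mem_toFinset] at hb' ⊢
      obtain ⟨τ, hτ, rfl⟩ := hb'
      exact ⟨σ * τ, mul_mem hσ hτ, rfl⟩
    · rw [Finset.card_image_of_injective _ σ.injective]
  rw [genT, map_sum]
  conv_rhs => rw [← himg]
  rw [Finset.sum_image (fun x _ y _ h => σ.injective h)]
  refine Finset.sum_congr rfl (fun b hb => ?_)
  rw [Set.Finite.mem_toFinset] at hb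
  rw [map_mul, gal_algebraMap, gal_genX hx hσ hb, map_pow]

theorem gen_ratF (H : Subgroup GQ) (x : FN N) :
    ∃ (n : ℕ) (c : Fin n → Kb) (e : Fin n → ratF N H),
      x = ∑ i, algebraMap Kb (FN N) (c i) * (e i : FN N) := by
  classical
  obtain ⟨L, hL, hθ⟩ := exists_theta_fun x
  obtain ⟨θ, hθ'⟩ := exists_theta L
  have hx : x ∈ ratF N (stab H θ) := hθ θ hθ' H
  set T := (h90Aux_finite_orbit H θ).toFinset with hT
  have hθT : θ ∈ T := by
    rw [hT, Set.Finite.mem_toFinset]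
    exact ⟨1, one_mem _, rfl⟩
  set ℓ : Kb[X] := Lagrange.basis T id θ with hℓ
  refine ⟨ℓ.natDegree + 1, fun i => ℓ.coeff i, fun i => ⟨genT H θ x i, genT_mem hx i⟩, ?_⟩
  have h1 : ∑ i : Fin (ℓ.natDegree + 1), algebraMap Kb (FN N) (ℓ.coeff i) * genT H θ x i =
      ∑ θ' ∈ T, algebraMap Kb (FN N) (ℓ.eval θ') * genX H θ x θ' := by
    rw [← Finset.sum_range (fun i => algebraMap Kb (FN N) (ℓ.coeff i) * genT H θ x i)]
    simp only [genT, Finset.mul_sum]
    rw [Finset.sum_comm]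
    refine Finset.sum_congr rfl (fun θ' _ => ?_)
    rw [Polynomial.eval_eq_sum_range, map_sum, Finset.sum_mul]
    refine Finset.sum_congr rfl (fun i _ => ?_)
    rw [map_mul, mul_assoc]
  show x = ∑ i : Fin (ℓ.natDegree + 1), algebraMap Kb (FN N) (ℓ.coeff i) * genT H θ x i
  rw [h1, Finset.sum_eq_single θ]
  · have e1 : ℓ.eval θ = 1 := Lagrange.eval_basis_self (v := id) (Set.injOn_id _) hθT
    have e2 := genX_apply hx (one_mem H)
    have e3 : gal N 1 x = x := by
      have := ratfAux_gal_mul (N := N) 1 1 x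
      rw [mul_one] at this
      exact ((gal N 1).injective this.symm)
    rw [e1, map_one, one_mul]
    rw [e3] at e2
    exact e2.symm
  · intro b hb hne
    have e1 : ℓ.eval b = 0 := Lagrange.eval_basis_of_ne (v := id) (Ne.symm hne) hb
    rw [e1, map_zero, zero_mul]
  · intro h
    exact absurd hθT h

end Gen

/-- **S44/MOD-GEN** : `F = Kb · E` -/
theorem gen (q : Nat.Primes) (M1 : ℕ) [NeZero M1] [NeZero (q : ℕ)] (x : FN (M1 * (q : ℕ))) :
    ∃ (n : ℕ) (c : Fin n → Kb) (e : Fin n → EE q M1),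
      x = ∑ i, algebraMap Kb (FN (M1 * (q : ℕ))) (c i) * algebraMap (EE q M1) (FN (M1 * (q : ℕ))) (e i) :=
  gen_ratF (Iq q) x

end Fermat.Agent.S44.Mod
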