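import Fermat.Agent.S44.Mod.Defs

/-!
# S44 / MOD-O0B : `A` is integral over `O₀ = A ∩ K₀`          key `S44/MOD-O0B`

(`O0 q` is a DVR: helper5's `Mod/O0.lean`.)

PROOFS.
* `isIntegralElem_toA`: `a ∈ A`.  The orbit `T = {σ a | σ ∈ Iq q}` is finite (contained in the roots of `minpoly ℚ a`), contained in `A` (`Iq q ≤ Dq q` preserves `AA q`:
  `mem_decomp_of_mem_inertia`, `ValuationSubring.decompositionSubgroup`), and stable under `Iq q`.  `μ = ∏_{b ∈ T} (X - C b)` is monic, `μ.map σ = μ` for `σ ∈ Iq q`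
  (`σ` permutes the finite set `T`), so its coefficients are in `O₀`; `μ(a) = 0`.
* `exists_pow_mul_mem_O0`: `exists_zpow_mul`, `n = max 0 (-k)`.
-/

set_option autoImplicit false
set_option synthInstance.maxHeartbeats 400000

open HahnSeries ModularCurve AlgebraicCurve Polynomial Fermat.Agent.S24 Fermat.Agent.S29 Fermat.Agent.S18
  Fermat.Agent.ES Fermat.Agent.ES.Alg Fermat.Agent.S34.Mod Fermat.Agent.S05 Fermat.Agent.S55.B ExtCitation
  Fermat.Agent.S33
open Fermat.Agent.S55 (Dq Iq)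

noncomputable section

namespace Fermat.Agent.S44.Mod

variable {q : Nat.Primes}

theorem q_mem_O0 : (((q : ℕ) : Kb)) ∈ O0 q := natCast_mem _ _

theorem exists_unit_mul_pow (a : O0 q) (ha : a ≠ 0) :
    ∃ (n : ℕ) (u : (O0 q)ˣ), a = u * ((q : ℕ) : O0 q) ^ n := by
  obtain ⟨n, u, -, h⟩ := exists_pow_mul a ha
  exact ⟨n, u, by rw [h, mul_comm]⟩

theorem isDVR_O0 : IsDiscreteValuationRing (O0 q) := isDiscreteValuationRing_O0

theorem inertia_mem_AA {σ : GQ} (hσ : σ ∈ Iq q) {a : Kb} (ha : a ∈ AA q) : σ a ∈ AA q := by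
  by_cases h0 : a = 0
  · rw [h0, map_zero]; exact zero_mem _
  · have h1 : σ a ≠ 0 := (map_ne_zero σ).mpr h0
    rw [← wq_nonneg_iff q h1, pres_Dq q σ (Iq_le_Dq q hσ) a, wq_nonneg_iff q h0]
    exact ha

/-- `A` is integral over `O₀` -/
theorem isIntegralElem_toA (a : AA q) : (O0.toA q).IsIntegralElem a := by
  classical
  have hfin := h90Aux_finite_orbit (Iq q) (a : Kb)
  set T : Finset Kb := hfin.toFinset with hT
  have hmemT : ∀ y, y ∈ T ↔ ∃ σ ∈ Iq q, σ (a : Kb) = y := fun y => by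
    rw [hT, Set.Finite.mem_toFinset]; rfl
  let μ : Kb[X] := ∏ b ∈ T, (X - Polynomial.C b)
  have hTA : ∀ b ∈ T, b ∈ AA q := by
    intro b hb
    obtain ⟨σ, hσ, rfl⟩ := (hmemT b).mp hb
    exact inertia_mem_AA hσ a.2
  have himg : ∀ σ ∈ Iq q, T.image σ = T := by
    intro σ hσ
    apply Finset.eq_of_subset_of_card_le
    · intro y hy
      obtain ⟨b, hb, rfl⟩ := Finset.mem_image.mp hy
      obtain ⟨τ, hτ, rfl⟩ := (hmemT b).mp hb
      exact (hmemT _).mpr ⟨σ * τ, mul_mem hσ hτ, rfl⟩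
    · rw [Finset.card_image_of_injective _ σ.injective]
  have hμσ : ∀ σ ∈ Iq q, μ.map (σ : Kb →+* Kb) = μ := by
    intro σ hσ
    show (∏ b ∈ T, (X - Polynomial.C b)).map (σ : Kb →+* Kb) = ∏ b ∈ T, (X - Polynomial.C b)
    rw [Polynomial.map_prod]
    conv_rhs => rw [← himg σ hσ, Finset.prod_image (fun x _ y _ h => σ.injective h)]
    refine Finset.prod_congr rfl fun b _ => ?_
    rw [Polynomial.map_sub, Polynomial.map_X, Polynomial.map_C]
    rfl
  have hμA : μ ∈ Polynomial.lifts (AA q).subtype := by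
    refine Subsemiring.prod_mem _ fun b hb => ?_
    exact ⟨X - Polynomial.C ⟨b, hTA b hb⟩, by
      rw [coe_mapRingHom, Polynomial.map_sub, Polynomial.map_X, Polynomial.map_C]; rfl⟩
  have hcoef : (↑μ.coeffs : Set Kb) ⊆ O0 q := by
    intro c hc
    obtain ⟨n, -, rfl⟩ := Polynomial.mem_coeffs_iff.mp hc
    refine ⟨?_, fun σ hσ => ?_⟩
    · obtain ⟨y, hy⟩ := (Polynomial.lifts_iff_coeff_lifts μ).mp hμA n
      rw [← hy]; exact y.2
    · have := congrArg (fun P => P.coeff n) (hμσ σ hσ)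
      simpa [Polynomial.coeff_map] using this
  have hμm : μ.Monic := Polynomial.monic_prod_of_monic _ _ fun b _ => Polynomial.monic_X_sub_C b
  refine ⟨μ.toSubring (O0 q) hcoef, (Polynomial.monic_toSubring μ _ hcoef).mpr hμm, ?_⟩
  apply Subtype.ext
  have h1 : ((Polynomial.eval₂ (O0.toA q) a (μ.toSubring (O0 q) hcoef) : AA q) : Kb) =
      Polynomial.eval₂ ((AA q).subtype.comp (O0.toA q)) (a : Kb) (μ.toSubring (O0 q) hcoef) :=
    Polynomial.hom_eval₂ _ (O0.toA q) (AA q).subtype a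
  have h2 : (AA q).subtype.comp (O0.toA q) = (O0 q).subtype := rfl
  rw [h1, h2, ← Polynomial.eval_map, Polynomial.map_toSubring]
  show Polynomial.eval (a : Kb) (∏ b ∈ T, (X - Polynomial.C b)) = 0
  rw [Polynomial.eval_prod]
  refine Finset.prod_eq_zero ((hmemT (a : Kb)).mpr ⟨1, one_mem _, rfl⟩) ?_
  simp

theorem exists_pow_mul_mem_O0 {a : Kb} (ha : ∀ σ ∈ Iq q, σ a = a) :
    ∃ n : ℕ, ((q : ℕ) : Kb) ^ n * a ∈ O0 q := by
  by_cases h0 : a = 0
  · exact ⟨0, by rw [h0, mul_zero]; exact zero_mem _⟩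
  obtain ⟨k, u, -, hau⟩ := exists_zpow_mul h0 ha
  have hq0 := q_ne_zero q
  refine ⟨(-k).toNat, ?_⟩
  have h1 : ((q : ℕ) : Kb) ^ (-k).toNat * a =
      ((q : ℕ) : Kb) ^ ((k + ((-k).toNat : ℤ)).toNat) * ((u : O0 q) : Kb) := by
    have hk : 0 ≤ k + ((-k).toNat : ℤ) := by omega
    rw [hau, ← zpow_natCast, ← zpow_natCast, Int.toNat_of_nonneg hk, ← mul_assoc,
      ← zpow_add₀ hq0, add_comm]
  rw [h1]
  exact mul_mem (pow_mem q_mem_O0 _) (u : O0 q).2

end Fermat.Agent.S44.Mod
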