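import Fermat.Agent.S34.Mod.Kron

/-!
# S44 / MOD-XD, part a : `xΔ = Δ(z)/Δ(qz)` in `AL N`, and the regularity of `xΔ · F(z) · f'(qz)`      (helper14)

* `hermite2` : Hermite normal form `q (h z) = γ ((a z + b)/d)`, with `γ 1 0 * a = h 1 0` AND the relation between the discriminants;
* `xH q`, `xA N q` : `Δ(z)/Δ(qz)`; `xA_mul_uA : xA * uA = q^12`; `smul_xA`;
* `reg_x`, `reg_u` : regularity at the cusp `g⁻¹ ∞` of `xΔ · F · G`, `G(z) = f'(q z)`, resp. `uΔ · F · G`;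
* `eps_xA` : the expansion at `∞`.
-/

set_option autoImplicit false

open UpperHalfPlane ModularForm ModularCurve
open scoped MatrixGroups Manifold Real

noncomputable section

namespace Fermat.Agent.S44.Mod.XD

open Fermat.Agent.S24 Fermat.Agent.S28 Fermat.Agent.S18 Fermat.Agent.S18.ModInv Fermat.Agent.S34.Mod

/-- Hermite normal form, with all the information -/
theorem hermite2 (M : ℕ) [NeZero M] (h : SL(2, ℤ)) :
    ∃ (γ : SL(2, ℤ)) (a d : ℕ) (b : ℤ) (ha : 0 < a) (hd : 0 < d), a * d = M ∧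
      γ 1 0 * a = h 1 0 ∧ ((M : ℤ) ∣ h 1 0 → d = 1) ∧
      ∀ τ : ℍ, scaleH M (h • τ) = γ • aff a d b ha hd τ ∧
        (d : ℂ) ^ 12 * discriminant (scaleH M (h • τ)) * discriminant τ =
          discriminant (aff a d b ha hd τ) * discriminant (h • τ) := by
  have hMpos : (0 : ℤ) < M := by exact_mod_cast Nat.pos_of_ne_zero (NeZero.ne M)
  obtain ⟨u, v, A, B, a, b, d, huv, ha, hd, had, h1, h2, h3, h4⟩ :=
    IntStruct.int_factor M (h 0 0) (h 0 1) (h 1 0) (h 1 1) hMpos (IntStruct.det_eq_SL2 h)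
  lift a to ℕ using ha.le
  lift d to ℕ using hd.le
  have ha' : 0 < a := by exact_mod_cast ha
  have hd' : 0 < d := by exact_mod_cast hd
  set γ : SL(2, ℤ) := ⟨!![u, -B; v, A], by rw [Matrix.det_fin_two_of]; linear_combination huv⟩
    with hγ
  have c1 : (u : ℂ) * a = M * (h 0 0 : ℤ) := by exact_mod_cast h1
  have c2 : (v : ℂ) * a = (h 1 0 : ℤ) := by exact_mod_cast h2
  have c3 : (u : ℂ) * b - B * d = M * (h 0 1 : ℤ) := by exact_mod_cast h3
  have c4 : (v : ℂ) * b + A * d = (h 1 1 : ℤ) := by exact_mod_cast h4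
  have hdC : (d : ℂ) ≠ 0 := by exact_mod_cast hd'.ne'
  have hw : ∀ τ : ℍ, ((aff a d b ha' hd' τ : ℍ) : ℂ) = ((a : ℂ) * τ + b) / d := fun τ => rfl
  have g00 : γ 0 0 = u := rfl
  have g01 : γ 0 1 = -B := rfl
  have g10 : γ 1 0 = v := rfl
  have g11 : γ 1 1 = A := rfl
  have hden : ∀ τ : ℍ, (d : ℂ) * ((v : ℂ) * ((aff a d b ha' hd' τ : ℍ) : ℂ) + A) =
      ((h 1 0 : ℤ) : ℂ) * τ + ((h 1 1 : ℤ) : ℂ) := by
    intro τ
    rw [hw]
    field_simp
    linear_combination (τ : ℂ) * c2 + c4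
  have hnum : ∀ τ : ℍ, (d : ℂ) * ((u : ℂ) * ((aff a d b ha' hd' τ : ℍ) : ℂ) - B) =
      M * (((h 0 0 : ℤ) : ℂ) * τ + ((h 0 1 : ℤ) : ℂ)) := by
    intro τ
    rw [hw]
    field_simp
    linear_combination (τ : ℂ) * c1 + c3
  have key : ∀ τ : ℍ, scaleH M (h • τ) = γ • aff a d b ha' hd' τ := by
    intro τ
    apply UpperHalfPlane.ext
    rw [coe_specialLinearGroup_apply]
    show (M : ℂ) * ((h • τ : ℍ) : ℂ) = _
    rw [coe_specialLinearGroup_apply, g00, g01, g10, g11]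
    simp only [algebraMap_int_eq, Int.coe_castRingHom, Complex.ofReal_intCast, Int.cast_neg,
      Complex.ofReal_neg]
    rw [← sub_eq_add_neg, ← mul_div_mul_left ((u : ℂ) * _ - B) _ hdC, hden, hnum, mul_div_assoc]
  refine ⟨γ, a, d, b, ha', hd', by exact_mod_cast had, by rw [g10]; exact h2, ?_,
    fun τ => ⟨key τ, ?_⟩⟩
  · rintro ⟨e, he⟩
    have hv : v = d * e := by
      apply mul_right_cancel₀ ha.ne'
      rw [h2, he, ← had]; ring
    have hu : u = d * h 0 0 := by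
      apply mul_right_cancel₀ ha.ne'
      rw [h1, ← had]; ring
    have h5 : (d : ℤ) ∣ 1 := ⟨h 0 0 * A + e * B, by linear_combination -huv + A * hu + B * hv⟩
    have h6 := Int.eq_one_of_dvd_one hd.le h5
    exact_mod_cast h6
  · rw [key τ, MembersA.discriminant_smul, MembersA.discriminant_smul, g10, g11, ← hden, mul_pow]
    ring

/-- transport of a lower bound for the order under `z ↦ (a z + b)/d` -/
theorem low_affine {N M : ℕ} [NeZero N] [NeZero M] {F : ℍ → ℂ} {s : LaurentSeries Zb}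
    (h : Rel M F s) {c : ℤ} (hc : Low c s) (a d : ℕ) (b : ℤ) (ha : 0 < a) (hd : 0 < d) (A : ℕ)
    (hA : a * N = A * (d * M)) :
    ∃ s' : LaurentSeries Zb, Rel N (F ∘ aff a d b ha hd) s' ∧ Low ((A : ℤ) * c) s' := by
  obtain ⟨s', hs', h1, h2⟩ := h.affine (N := N) a d b ha hd A hA
  have hA0 : 0 < A := by
    rcases Nat.eq_zero_or_pos A with rfl | h
    · rw [zero_mul] at hA
      exact absurd hA (Nat.mul_pos ha (Nat.pos_of_ne_zero (NeZero.ne N))).ne'
    · exact h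
  have hAZ : (0 : ℤ) < A := by exact_mod_cast hA0
  refine ⟨s', hs', fun k hk => ?_⟩
  by_cases hdv : (A : ℤ) ∣ k
  · obtain ⟨n, rfl⟩ := hdv
    have hn : n < c := lt_of_mul_lt_mul_left hk hAZ.le
    apply Subtype.ext
    rw [h1 n, hc n hn]
    simp
  · exact h2 k hdv

theorem low_Delta : Low 1 (HahnSeries.single (1 : ℤ) 1 *
    HahnSeries.ofPowerSeries ℤ Zb (dedekindEtaUnit.map (Int.castRingHom Zb))) := fun n hn => by
  rw [HahnSeries.coeff_single_mul, ofPowerSeries_coeff_of_neg _ (by omega)]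
  simp

theorem low_Delta_inv : Low (-1) (HahnSeries.single (-1 : ℤ) 1 *
    HahnSeries.ofPowerSeries ℤ Zb (dedekindEtaUnitInv.map (Int.castRingHom Zb))) := fun n hn => by
  rw [HahnSeries.coeff_single_mul, ofPowerSeries_coeff_of_neg _ (by omega)]
  simp

theorem mdiff_xH (q : ℕ) [NeZero q] :
    MDiff (fun τ : ℍ => discriminant τ / discriminant (scaleH q τ)) := by
  have hd : MDiff (discriminant : ℍ → ℂ) := CuspForm.discriminant.holo'
  have hr : MDiff (fun τ : ℍ => discriminant (scaleH q τ)) := hd.comp (mdiff_scaleH q)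
  rw [UpperHalfPlane.mdifferentiable_iff] at hd hr ⊢
  have : ((fun τ : ℍ => discriminant τ / discriminant (scaleH q τ)) ∘ ofComplex)
      = fun z => ((discriminant : ℍ → ℂ) ∘ ofComplex) z /
        ((fun τ : ℍ => discriminant (scaleH q τ)) ∘ ofComplex) z := rfl
  rw [this]
  exact hd.div hr (fun z _ => discriminant_ne_zero _)

/-- `Δ(z) / Δ(qz)` -/
def xH (q : ℕ) [NeZero q] : Hol :=
  ⟨fun τ => discriminant τ / discriminant (scaleH q τ), mdiff_xH q⟩

theorem xH_apply (q : ℕ) [NeZero q] (τ : ℍ) :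
    (xH q : ℍ → ℂ) τ = discriminant τ / discriminant (scaleH q τ) := rfl

theorem uH_apply (q : ℕ) [NeZero q] (τ : ℍ) :
    (uH q : ℍ → ℂ) τ = (q : ℂ) ^ 12 * discriminant (scaleH q τ) / discriminant τ := rfl

/-- the translates of `xΔ` and `uΔ` -/
theorem holAct_eq (q : ℕ) [NeZero q] (g : SL(2, ℤ)) :
    ∃ (γ : SL(2, ℤ)) (a d : ℕ) (b : ℤ) (ha : 0 < a) (hd : 0 < d), a * d = q ∧
      γ 1 0 * a = g 1 0 ∧ ((q : ℤ) ∣ g 1 0 → d = 1) ∧
      (∀ τ : ℍ, scaleH q (g⁻¹ • τ) = γ⁻¹ • aff a d b ha hd τ) ∧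
      (holAct g (xH q) : ℍ → ℂ) = (fun _ => (((d : Zb) ^ 12 : Zb) : ℂ)) *
        (discriminant : ℍ → ℂ) * ((fun τ : ℍ => (discriminant τ)⁻¹) ∘ aff a d b ha hd) ∧
      (holAct g (uH q) : ℍ → ℂ) = (fun _ => (((a : Zb) ^ 12 : Zb) : ℂ)) *
        ((discriminant : ℍ → ℂ) ∘ aff a d b ha hd) * (fun τ : ℍ => (discriminant τ)⁻¹) := by
  obtain ⟨γ, a, d, b, ha, hd, had, h0, h1, h⟩ := hermite2 q g⁻¹
  rw [HauptAux.inv_10] at h0 h1
  refine ⟨γ⁻¹, a, d, b, ha, hd, had, ?_, fun hg => h1 ((dvd_neg).mpr hg), ?_, ?_, ?_⟩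
  · rw [HauptAux.inv_10, neg_mul, h0, neg_neg]
  · intro τ
    rw [inv_inv]
    exact (h τ).1
  · funext τ
    show discriminant (g⁻¹ • τ) / discriminant (scaleH q (g⁻¹ • τ)) =
      (((d : Zb) ^ 12 : Zb) : ℂ) * discriminant τ * (discriminant (aff a d b ha hd τ))⁻¹
    have h2 := (h τ).2
    have h3 := discriminant_ne_zero τ
    have h4 := discriminant_ne_zero (g⁻¹ • τ)
    have h5 := discriminant_ne_zero (scaleH q (g⁻¹ • τ))
    have h7 := discriminant_ne_zero (aff a d b ha hd τ)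
    have h6 : (((d : Zb) ^ 12 : Zb) : ℂ) = (d : ℂ) ^ 12 := by simp
    rw [h6]
    field_simp
    linear_combination -h2
  · funext τ
    show (q : ℂ) ^ 12 * discriminant (scaleH q (g⁻¹ • τ)) / discriminant (g⁻¹ • τ) =
      (((a : Zb) ^ 12 : Zb) : ℂ) * discriminant (aff a d b ha hd τ) * (discriminant τ)⁻¹
    have h2 := (h τ).2
    have h3 := discriminant_ne_zero τ
    have h4 := discriminant_ne_zero (g⁻¹ • τ)
    have h5 : (q : ℂ) = a * d := by rw [← had]; push_cast; ring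
    have h6 : (((a : Zb) ^ 12 : Zb) : ℂ) = (a : ℂ) ^ 12 := by simp
    rw [h6, h5]
    field_simp
    linear_combination (a : ℂ) ^ 12 * h2

variable (N : ℕ) [NeZero N]

theorem rel_D_aff (a d : ℕ) (b : ℤ) (ha : 0 < a) (hd : 0 < d) (e : ℕ) (he : N = d * e) :
    ∃ s : LaurentSeries Zb, Rel N ((discriminant : ℍ → ℂ) ∘ aff a d b ha hd) s ∧
      Low ((a * e : ℕ) : ℤ) s := by
  obtain ⟨s, hs, h⟩ := low_affine (N := N) rel_Delta low_Delta a d b ha hd (a * e)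
    (by rw [he]; ring)
  exact ⟨s, hs, by simpa using h⟩

theorem rel_Di_aff (a d : ℕ) (b : ℤ) (ha : 0 < a) (hd : 0 < d) (e : ℕ) (he : N = d * e) :
    ∃ s : LaurentSeries Zb, Rel N ((fun τ : ℍ => (discriminant τ)⁻¹) ∘ aff a d b ha hd) s ∧
      Low (-((a * e : ℕ) : ℤ)) s := by
  obtain ⟨s, hs, h⟩ := low_affine (N := N) rel_Delta_inv low_Delta_inv a d b ha hd (a * e)
    (by rw [he]; ring)
  exact ⟨s, hs, by simpa using h⟩

theorem rel_D : ∃ s : LaurentSeries Zb, Rel N (discriminant : ℍ → ℂ) s ∧ Low (N : ℤ) s := by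
  obtain ⟨s, hs, h⟩ := rel_D_aff N 1 1 0 one_pos one_pos N (by ring)
  rw [MemAux.aff_id] at hs
  exact ⟨s, hs, by simpa using h⟩

theorem rel_Di : ∃ s : LaurentSeries Zb, Rel N (fun τ : ℍ => (discriminant τ)⁻¹) s ∧
    Low (-(N : ℤ)) s := by
  obtain ⟨s, hs, h⟩ := rel_Di_aff N 1 1 0 one_pos one_pos N (by ring)
  rw [MemAux.aff_id] at hs
  exact ⟨s, hs, by simpa using h⟩

theorem holAct_xH_of_dvd (q : ℕ) [NeZero q] (g : SL(2, ℤ)) (hg : (q : ℤ) ∣ g 1 0) :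
    holAct g (xH q) = xH q := by
  obtain ⟨γ, a, d, b, ha, hd, had, -, h1, -, h, -⟩ := holAct_eq q g
  have hd1 := h1 hg
  subst hd1
  have har : a = q := by simpa using had
  subst har
  apply Subtype.ext
  rw [h]
  funext τ
  show (((((1 : ℕ) : Zb)) ^ 12 : Zb) : ℂ) * discriminant τ * (discriminant (aff a 1 b ha hd τ))⁻¹ =
    discriminant τ / discriminant (scaleH a τ)
  have : aff a 1 b ha hd τ = ModularGroup.T ^ b • scaleH a τ := by
    apply UpperHalfPlane.ext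
    rw [ModularGroup.coe_T_zpow_smul_eq]
    simp [aff]
  rw [this, MemAux.discriminant_T_zpow, div_eq_mul_inv]
  simp

theorem xH_mem_AL (q : ℕ) [NeZero q] (hq : q ∣ N) : xH q ∈ AL N := by
  refine ⟨fun γ hγ => holAct_xH_of_dvd q γ ?_, fun g => ?_⟩
  · have h1 := (CongruenceSubgroup.Gamma_mem.mp hγ).2.2.1
    have h2 : (N : ℤ) ∣ γ 1 0 := (ZMod.intCast_zmod_eq_zero_iff_dvd _ _).mp h1
    exact (Int.natCast_dvd_natCast.mpr hq).trans h2
  · obtain ⟨γ, a, d, b, ha, hd, had, -, -, -, h, -⟩ := holAct_eq q g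
    have hdN : d ∣ N := (Dvd.intro_left a had).trans hq
    obtain ⟨e, he⟩ := hdN
    obtain ⟨s1, hs1, -⟩ := rel_D N
    obtain ⟨s2, hs2, -⟩ := rel_Di_aff N a d b ha hd e he
    exact ⟨_, h ▸ ((Rel.const N ((d : Zb) ^ 12)).mul hs1).mul hs2⟩

/-- `Δ(z) / Δ(qz)` -/
def xA (q : ℕ) [NeZero q] (hq : q ∣ N) : AL N := ⟨xH q, xH_mem_AL N q hq⟩

theorem smul_xA (q : ℕ) [NeZero q] (hq : q ∣ N) (g : SL(2, ℤ)) (hg : (q : ℤ) ∣ g 1 0) :
    g • xA N q hq = xA N q hq := Subtype.ext (holAct_xH_of_dvd q g hg)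

theorem xA_mul_uA (q : ℕ) [NeZero q] (hq : q ∣ N) :
    xA N q hq * uA N q hq = cA N ((q : Zb) ^ 12) := by
  apply Subtype.ext
  ext τ
  show discriminant τ / discriminant (scaleH q τ) *
    ((q : ℂ) ^ 12 * discriminant (scaleH q τ) / discriminant τ) = (((q : Zb) ^ 12 : Zb) : ℂ)
  have h3 := discriminant_ne_zero τ
  have h5 := discriminant_ne_zero (scaleH q τ)
  have h6 : (((q : Zb) ^ 12 : Zb) : ℂ) = (q : ℂ) ^ 12 := by simp
  rw [h6]
  field_simp

end Fermat.Agent.S44.Mod.XD
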