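import Fermat.Agent.S44.Mod.XDa

/-!
# S44 / MOD-XD, part b : regularity of `xΔ · F(z) · f'(qz)` and `uΔ · F(z) · f(qz)` at the cusps      (helper14)
-/

set_option autoImplicit false

open UpperHalfPlane ModularForm ModularCurve
open scoped MatrixGroups Manifold Real

noncomputable section

namespace Fermat.Agent.S44.Mod.XD

open Fermat.Agent.S24 Fermat.Agent.S28 Fermat.Agent.S18 Fermat.Agent.S18.ModInv Fermat.Agent.S34.Mod

variable {q r : ℕ} [NeZero q] [NeZero r] (N : ℕ) [NeZero N]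

theorem reg_x (hM : r * q ∣ N) (hqN : q ∣ N) (F G : AL N) (f' : AL r)
    (hG : ∀ τ, (G.1 : ℍ → ℂ) τ = (f'.1 : ℍ → ℂ) (scaleH q τ)) (g : SL(2, ℤ))
    (hF : Low (-(N : ℤ)) (eps N (g • F)))
    (hf' : ∀ (γ : SL(2, ℤ)) (a : ℕ), a ∣ q → γ 1 0 * a = g 1 0 → Low r (eps r (γ • f'))) :
    g • (xA N q hqN * F * G) ∈ lowRing N := by
  obtain ⟨γ, a, d, b, ha, hd, had, h0, -, hsc, hx, -⟩ := holAct_eq q g
  obtain ⟨m, hm⟩ := hM
  have he : N = d * (r * a * m) := by rw [hm, ← had]; ring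
  obtain ⟨s1, hs1, l1⟩ := rel_D N
  obtain ⟨s2, hs2, l2⟩ := rel_Di_aff N a d b ha hd (r * a * m) he
  obtain ⟨s3, hs3, l3⟩ := low_affine (N := N) (rel_eps r (γ • f')) (hf' γ a ⟨d, had.symm⟩ h0)
    a d b ha hd (a * a * m) (by rw [hm, ← had]; ring)
  have hfun : ((g • (xA N q hqN * F * G) : AL N).1 : ℍ → ℂ) =
      (fun _ => (((d : Zb) ^ 12 : Zb) : ℂ)) * (discriminant : ℍ → ℂ) *
        ((fun τ : ℍ => (discriminant τ)⁻¹) ∘ aff a d b ha hd) * ((g • F : AL N).1 : ℍ → ℂ) *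
        (((γ • f' : AL r).1 : ℍ → ℂ) ∘ aff a d b ha hd) := by
    funext τ
    have e1 : ((g • (xA N q hqN * F * G) : AL N).1 : ℍ → ℂ) τ =
        (holAct g (xH q) : ℍ → ℂ) τ * ((g • F : AL N).1 : ℍ → ℂ) τ * (G.1 : ℍ → ℂ) (g⁻¹ • τ) := rfl
    rw [e1, hx, hG, hsc]
    rfl
  rw [mem_lowRing, eps_eq N (hfun ▸ ((((Rel.const N _).mul hs1).mul hs2).mul
    (rel_eps N (g • F))).mul hs3)]
  refine (((((low_C _).mul l1).mul l2).mul hF).mul l3).mono ?_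
  push_cast
  apply le_of_eq
  ring

theorem reg_u (hM : r * q ∣ N) (hqN : q ∣ N) (F G : AL N) (f' : AL r)
    (hG : ∀ τ, (G.1 : ℍ → ℂ) τ = (f'.1 : ℍ → ℂ) (scaleH q τ)) (g : SL(2, ℤ))
    (hF : Low (N : ℤ) (eps N (g • F)))
    (hf' : ∀ (γ : SL(2, ℤ)) (a : ℕ), a ∣ q → γ 1 0 * a = g 1 0 → Low (-(r : ℤ)) (eps r (γ • f'))) :
    g • (uA N q hqN * F * G) ∈ lowRing N := by
  obtain ⟨γ, a, d, b, ha, hd, had, h0, -, hsc, -, hx⟩ := holAct_eq q g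
  obtain ⟨m, hm⟩ := hM
  have he : N = d * (r * a * m) := by rw [hm, ← had]; ring
  obtain ⟨s1, hs1, l1⟩ := rel_Di N
  obtain ⟨s2, hs2, l2⟩ := rel_D_aff N a d b ha hd (r * a * m) he
  obtain ⟨s3, hs3, l3⟩ := low_affine (N := N) (rel_eps r (γ • f')) (hf' γ a ⟨d, had.symm⟩ h0)
    a d b ha hd (a * a * m) (by rw [hm, ← had]; ring)
  have hfun : ((g • (uA N q hqN * F * G) : AL N).1 : ℍ → ℂ) =
      (fun _ => (((a : Zb) ^ 12 : Zb) : ℂ)) * ((discriminant : ℍ → ℂ) ∘ aff a d b ha hd) *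
        (fun τ : ℍ => (discriminant τ)⁻¹) * ((g • F : AL N).1 : ℍ → ℂ) *
        (((γ • f' : AL r).1 : ℍ → ℂ) ∘ aff a d b ha hd) := by
    funext τ
    have e1 : ((g • (uA N q hqN * F * G) : AL N).1 : ℍ → ℂ) τ =
        (holAct g (uH q) : ℍ → ℂ) τ * ((g • F : AL N).1 : ℍ → ℂ) τ * (G.1 : ℍ → ℂ) (g⁻¹ • τ) := rfl
    rw [e1, hx, hG, hsc]
    rfl
  rw [mem_lowRing, eps_eq N (hfun ▸ ((((Rel.const N _).mul hs2).mul hs1).mul
    (rel_eps N (g • F))).mul hs3)]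
  refine (((((low_C _).mul l2).mul l1).mul hF).mul l3).mono ?_
  push_cast
  apply le_of_eq
  ring

end Fermat.Agent.S44.Mod.XD
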