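import Fermat.Agent.S44.Mod.XDb

/-!
# S44 / MOD-XD, part c : the four elements of `AL (M1 q)`      (helper14)

`Xt = xΔ t(z) (c/t(qz))`, `Xt' = uΔ (c/t(z)) t(qz)` (chart `1/t`), `Xf = xΔ (c/t(z))^r t(qz)^r`, `Xf' = uΔ t(z)^r (c/t(qz))^r` (chart `t`).
-/

set_option autoImplicit false

open UpperHalfPlane ModularForm ModularCurve
open scoped MatrixGroups Manifold Real

noncomputable section

namespace Fermat.Agent.S44.Mod.XD

open Fermat.Agent.S24 Fermat.Agent.S28 Fermat.Agent.S18 Fermat.Agent.S18.ModInv Fermat.Agent.S34.Mod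

variable (M1 q r : ℕ) [NeZero M1] [NeZero q] [NeZero r] (hr : r = 2 ∨ r = 3) (hrM : r ∣ M1)
  (hq : q.Prime) (hqr : q ≠ r)

/-- `t(z)` at level `M1 q` -/
abbrev tN : AL (M1 * q) := tA (M1 * q) r hr (hrM.mul_right q)

/-- `c / t(z)` at level `M1 q` -/
abbrev tN' : AL (M1 * q) := tA' (M1 * q) r hr (hrM.mul_right q)

def Xt : AL (M1 * q) := xA (M1 * q) q (dvd_mul_left q M1) * tN M1 q r hr hrM * tqB' M1 q r hr hrM hq hqr

def Xt' : AL (M1 * q) := uA (M1 * q) q (dvd_mul_left q M1) * tN' M1 q r hr hrM * tqB M1 q r hr hrM hq hqr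

def Xf : AL (M1 * q) :=
  xA (M1 * q) q (dvd_mul_left q M1) * tN' M1 q r hr hrM ^ r * tqB M1 q r hr hrM hq hqr ^ r

def Xf' : AL (M1 * q) :=
  uA (M1 * q) q (dvd_mul_left q M1) * tN M1 q r hr hrM ^ r * tqB' M1 q r hr hrM hq hqr ^ r

theorem Xt_mul : Xt M1 q r hr hrM hq hqr * Xt' M1 q r hr hrM hq hqr =
    cA (M1 * q) (((cE r : ℕ) : Zb) ^ 2) * cA (M1 * q) ((q : Zb) ^ 12) := by
  rw [Xt, Xt', map_pow, ← xA_mul_uA (M1 * q) q (dvd_mul_left q M1),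
    ← tA_mul_tA' (M1 * q) r hr (hrM.mul_right q)]
  have h := tqB'_mul_tqB M1 q r hr hrM hq hqr
  rw [← tA_mul_tA' (M1 * q) r hr (hrM.mul_right q)] at h
  linear_combination (xA (M1 * q) q (dvd_mul_left q M1) * uA (M1 * q) q (dvd_mul_left q M1) *
    tN M1 q r hr hrM * tN' M1 q r hr hrM) * h

theorem Xf_mul : Xf M1 q r hr hrM hq hqr * Xf' M1 q r hr hrM hq hqr =
    cA (M1 * q) (((cE r : ℕ) : Zb) ^ (2 * r)) * cA (M1 * q) ((q : Zb) ^ 12) := by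
  have h := tqB'_mul_tqB M1 q r hr hrM hq hqr
  have h2 := tA_mul_tA' (M1 * q) r hr (hrM.mul_right q)
  rw [Xf, Xf', map_pow, pow_mul, sq, ← xA_mul_uA (M1 * q) q (dvd_mul_left q M1), mul_pow]
  nth_rewrite 1 [← h]
  rw [← h2, mul_pow, mul_pow]
  ring

omit [NeZero q] [NeZero r] in
include hr hq hqr in
theorem dvd_iff_aux {x y : ℤ} {a : ℕ} (ha : a ∣ q) (h : x * a = y) : (r : ℤ) ∣ x ↔ (r : ℤ) ∣ y := by
  obtain ⟨d, hd⟩ := ha
  have := dvd_gamma_iff (prime_of_hr hr) hq hqr (x := x) (y := -y) hd.symm (by rw [h, neg_neg])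
  rw [this, dvd_neg]

theorem low_tA' (M : ℕ) [NeZero M] (hM : r ∣ M) : Low (M : ℤ) (eps M (tA' M r hr hM)) := by
  intro n hn
  rw [eps_tA', HahnSeries.C_mul_eq_smul, HahnSeries.coeff_smul,
    ((mon_tqInv Zb r).qExpand M).2 n (by simpa using hn), smul_zero]

theorem reg_Xt (g : SL(2, ℤ)) (hg : (r : ℤ) ∣ g 1 0) :
    g • Xt M1 q r hr hrM hq hqr ∈ lowRing (M1 * q) := by
  refine reg_x (r := r) (M1 * q) (mul_dvd_mul_right hrM q) _ _ _ (tA' r r hr dvd_rfl)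
    (fun τ => rfl) g ?_ fun γ a ha h => ?_
  · rw [smul_tA _ _ _ _ g hg]
    exact coeff_eps_tA_of_lt _ _ _ _
  · rw [smul_tA' _ _ _ _ γ ((dvd_iff_aux q r hr hq hqr ha h).mpr hg)]
    exact low_tA' r hr r dvd_rfl

theorem reg_Xt' (g : SL(2, ℤ)) (hg : (r : ℤ) ∣ g 1 0) :
    g • Xt' M1 q r hr hrM hq hqr ∈ lowRing (M1 * q) := by
  refine reg_u (r := r) (M1 * q) (mul_dvd_mul_right hrM q) _ _ _ (tA r r hr dvd_rfl)
    (fun τ => rfl) g ?_ fun γ a ha h => ?_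
  · rw [smul_tA' _ _ _ _ g hg]
    exact low_tA' r hr _ _
  · rw [smul_tA _ _ _ _ γ ((dvd_iff_aux q r hr hq hqr ha h).mpr hg)]
    exact coeff_eps_tA_of_lt _ _ _ _

theorem low_smul_tA_pow (M : ℕ) [NeZero M] (hM : r ∣ M) (g : SL(2, ℤ)) (hg : ¬ (r : ℤ) ∣ g 1 0) :
    Low (M : ℤ) (eps M (g • tA M r hr hM ^ r)) := by
  obtain ⟨m, hm⟩ := hM
  have h1 : Low (m : ℤ) (eps M (g • tA M r hr ⟨m, hm⟩)) := fun n hn =>
    coeff_eps_smul_tA M r hr _ g hg n (by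
      have hr0 : (0 : ℤ) < r := by exact_mod_cast HauptAux.r_pos r
      rw [hm]; push_cast; nlinarith)
  have h2 := h1.pow r
  rw [smul_pow', map_pow]
  refine h2.mono (le_of_eq ?_)
  rw [hm]; push_cast; ring

theorem low_smul_tA'_pow (M : ℕ) [NeZero M] (hM : r ∣ M) (g : SL(2, ℤ)) (hg : ¬ (r : ℤ) ∣ g 1 0) :
    Low (-(M : ℤ)) (eps M (g • tA' M r hr hM ^ r)) := by
  obtain ⟨m, hm⟩ := hM
  have h1 : Low (-(m : ℤ)) (eps M (g • tA' M r hr ⟨m, hm⟩)) := fun n hn =>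
    coeff_eps_smul_tA' M r hr _ g hg n (by
      have hr0 : (0 : ℤ) < r := by exact_mod_cast HauptAux.r_pos r
      rw [hm]; push_cast; nlinarith)
  have h2 := h1.pow r
  rw [smul_pow', map_pow]
  refine h2.mono (le_of_eq ?_)
  rw [hm]; push_cast; ring

theorem reg_Xf (g : SL(2, ℤ)) (hg : ¬ (r : ℤ) ∣ g 1 0) :
    g • Xf M1 q r hr hrM hq hqr ∈ lowRing (M1 * q) := by
  refine reg_x (r := r) (M1 * q) (mul_dvd_mul_right hrM q) _ _ _ (tA r r hr dvd_rfl ^ r)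
    (fun τ => ?_) g ?_ fun γ a ha h => ?_
  · show (((tqB M1 q r hr hrM hq hqr).1 : ℍ → ℂ) ^ r) τ =
      (((tA r r hr dvd_rfl).1 : ℍ → ℂ) ^ r) (scaleH q τ)
    rfl
  · exact low_smul_tA'_pow r hr _ _ g hg
  · exact low_smul_tA_pow r hr r dvd_rfl γ (fun h' => hg ((dvd_iff_aux q r hr hq hqr ha h).mp h'))

theorem reg_Xf' (g : SL(2, ℤ)) (hg : ¬ (r : ℤ) ∣ g 1 0) :
    g • Xf' M1 q r hr hrM hq hqr ∈ lowRing (M1 * q) := by
  refine reg_u (r := r) (M1 * q) (mul_dvd_mul_right hrM q) _ _ _ (tA' r r hr dvd_rfl ^ r)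
    (fun τ => ?_) g ?_ fun γ a ha h => ?_
  · show (((tqB' M1 q r hr hrM hq hqr).1 : ℍ → ℂ) ^ r) τ =
      (((tA' r r hr dvd_rfl).1 : ℍ → ℂ) ^ r) (scaleH q τ)
    rfl
  · exact low_smul_tA_pow r hr _ _ g hg
  · exact low_smul_tA'_pow r hr r dvd_rfl γ (fun h' => hg ((dvd_iff_aux q r hr hq hqr ha h).mp h'))

end Fermat.Agent.S44.Mod.XD
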